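import Fermat.Agent.GalCoh.EulerDefs
import Fermat.Agent.GalCoh.Induced

/-!
# The archimedean term as a space of sections

For a representation `σ` of `H` on `W`, a section is a function `φ : Γ → W` with
`φ (g h) = σ h⁻¹ (φ g)`; the sum of the archimedean terms is twice the dimension of the sections
invariant under left translation by complex conjugation.
-/

set_option autoImplicit false
set_option linter.unusedSectionVars false
set_option linter.style.haveILetI false

noncomputable section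

namespace Fermat.Agent.GalCoh.Euler

open Module ExtCitation

local notation "Γ" => (AlgebraicClosure ℚ ≃ₐ[ℚ] AlgebraicClosure ℚ)

variable {p : ℕ} [Fact p.Prime] (H : Subgroup Γ)
  {W : Type} [AddCommGroup W] [Module (ZMod p) W] (σ : Representation (ZMod p) ↥H W)

open Classical in
/-- The action of an element of `Γ` that lies in `H`; zero off `H`. -/
def actAt (a : Γ) : W →ₗ[ZMod p] W := if h : a ∈ H then σ ⟨a, h⟩ else 0

theorem actAt_of_mem {a : Γ} (h : a ∈ H) : actAt H σ a = σ ⟨a, h⟩ := dif_pos h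

theorem actAt_mul {a b : Γ} (ha : a ∈ H) (hb : b ∈ H) (w : W) :
    actAt H σ (a * b) w = actAt H σ a (actAt H σ b w) := by
  rw [actAt_of_mem H σ ha, actAt_of_mem H σ hb, actAt_of_mem H σ (H.mul_mem ha hb),
    ← Module.End.mul_apply, ← map_mul]
  rfl

theorem actAt_one (w : W) : actAt H σ 1 w = w := by
  rw [actAt_of_mem H σ H.one_mem, show (⟨1, H.one_mem⟩ : ↥H) = 1 from rfl, map_one]
  rfl

/-- The sections. -/
def secSpace : Submodule (ZMod p) (Γ → W) where
  carrier := {φ | ∀ g h, h ∈ H → φ (g * h) = actAt H σ h⁻¹ (φ g)}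
  zero_mem' g h _ := by simp
  add_mem' ha hb g h hh := by simp [ha g h hh, hb g h hh]
  smul_mem' a φ hφ g h hh := by simp [hφ g h hh]

/-- The sections invariant under complex conjugation. -/
def archSec : Submodule (ZMod p) (Γ → W) where
  carrier := {φ | φ ∈ secSpace H σ ∧ ∀ g, φ (complexConjugation * g) = φ g}
  zero_mem' := ⟨zero_mem _, fun g => rfl⟩
  add_mem' ha hb := ⟨add_mem ha.1 hb.1, fun g => by simp [ha.2 g, hb.2 g]⟩
  smul_mem' a φ hφ := ⟨Submodule.smul_mem _ a hφ.1, fun g => by simp [hφ.2 g]⟩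

theorem secSpace_apply {φ : Γ → W} (hφ : φ ∈ secSpace H σ) {g r : Γ} (h : r⁻¹ * g ∈ H) :
    φ g = actAt H σ (r⁻¹ * g)⁻¹ (φ r) := by
  conv_lhs => rw [← mul_inv_cancel_left r g]
  exact hφ r _ h

theorem out_inv_mul_mem (g : Γ) : (QuotientGroup.mk g : Γ ⧸ H).out⁻¹ * g ∈ H :=
  QuotientGroup.eq.mp ((QuotientGroup.mk g : Γ ⧸ H).out_eq')

/-- A section is given by its values at representatives. -/
def secEquiv : ↥(secSpace H σ) ≃ₗ[ZMod p] (Γ ⧸ H → W) where
  toFun φ x := φ.1 x.out
  map_add' _ _ := rfl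
  map_smul' _ _ := rfl
  invFun v := ⟨fun g => actAt H σ ((QuotientGroup.mk g : Γ ⧸ H).out⁻¹ * g)⁻¹
      (v (QuotientGroup.mk g)), fun g h hh => by
    simp only [QuotientGroup.mk_mul_of_mem g hh]
    rw [← mul_assoc, mul_inv_rev (_ * g) h, actAt_mul H σ (H.inv_mem hh)
      (H.inv_mem (out_inv_mul_mem H g))]⟩
  left_inv φ := Subtype.ext (funext fun g => (secSpace_apply H σ φ.2 (out_inv_mul_mem H g)).symm)
  right_inv v := funext fun x => by
    simp only [QuotientGroup.out_eq', inv_mul_cancel, inv_one, actAt_one]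

theorem finrank_secSpace [Finite (Γ ⧸ H)] [FiniteDimensional (ZMod p) W] :
    finrank (ZMod p) ↥(secSpace H σ) = Nat.card (Γ ⧸ H) * finrank (ZMod p) W := by
  cases nonempty_fintype (Γ ⧸ H)
  rw [(secEquiv H σ).finrank_eq, Nat.card_eq_fintype_card, Module.finrank_pi_fintype]
  simp

theorem smul_smul_self (x : Γ ⧸ H) : complexConjugation • complexConjugation • x = x := by
  rw [smul_smul, complexConjugation_mul_self, one_smul]

theorem out_conj_mem_iff (x : Γ ⧸ H) :
    x.out⁻¹ * complexConjugation * x.out ∈ H ↔ complexConjugation • x = x := by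
  conv_rhs => rw [← x.out_eq', MulAction.Quotient.smul_coe, eq_comm, QuotientGroup.eq, smul_eq_mul]
  rw [mul_assoc]

section

variable [FiniteDimensional (ZMod p) W]

/-- The values allowed at a point. -/
def allowed (x : Γ ⧸ H) : Submodule (ZMod p) W where
  carrier := {w | complexConjugation • x = x →
    actAt H σ (x.out⁻¹ * complexConjugation * x.out) w = w}
  zero_mem' _ := map_zero _
  add_mem' ha hb h := by rw [map_add, ha h, hb h]
  smul_mem' a w hw h := by rw [map_smul, hw h]

theorem finrank_allowed_of_ne {x : Γ ⧸ H} (hx : complexConjugation • x ≠ x) :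
    finrank (ZMod p) ↥(allowed H σ x) = finrank (ZMod p) W := by
  have : allowed H σ x = ⊤ := eq_top_iff.mpr fun w _ h => absurd h hx
  rw [this, finrank_top]

theorem finrank_allowed_of_eq {x : Γ ⧸ H} (hx : complexConjugation • x = x) :
    2 * finrank (ZMod p) ↥(allowed H σ x) = archTerm H σ x := by
  have hm := (out_conj_mem_iff H x).mpr hx
  rw [archTerm, dif_pos hm]
  have : allowed H σ x = LinearMap.ker (σ ⟨_, hm⟩ - 1) := by
    ext w
    show (complexConjugation • x = x → _) ↔ _
    simp [LinearMap.mem_ker, sub_eq_zero, hx, actAt_of_mem H σ hm]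
  rw [this]

theorem sum_archTerm [Fintype (Γ ⧸ H)] :
    ∑ x : Γ ⧸ H, archTerm H σ x = 2 * finrank (ZMod p) ↥(archSec H σ) := by
  classical
  let c := complexConjugation
  let e := Fintype.equivFin (Γ ⧸ H)
  let R : Finset (Γ ⧸ H) := Finset.univ.filter fun x => e x ≤ e (c • x)
  have hR : ∀ x, x ∈ R ↔ e x ≤ e (c • x) := fun x => by simp [R]
  have hnot : ∀ x, x ∉ R → c • x ∈ R := fun x hx => by
    rw [hR] at hx ⊢
    rw [smul_smul_self]
    exact (le_of_not_ge hx)
  have hboth : ∀ x, x ∈ R → c • x ∈ R → c • x = x := fun x h1 h2 => by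
    rw [hR] at h1 h2
    rw [smul_smul_self] at h2
    exact e.injective (le_antisymm h2 h1)
  let T : ↥(archSec H σ) →ₗ[ZMod p] ∀ x : R, ↥(allowed H σ x.1) :=
    { toFun := fun φ x => ⟨φ.1 x.1.out, fun hx => by
        have hm := (out_conj_mem_iff H x.1).mpr hx
        have h := φ.2.1 x.1.out _ hm
        rw [← mul_assoc, ← mul_assoc, mul_inv_cancel, one_mul, φ.2.2] at h
        have h2 := congrArg (actAt H σ (x.1.out⁻¹ * c * x.1.out)) h
        rwa [← actAt_mul H σ hm (H.inv_mem hm), mul_inv_cancel, actAt_one] at h2⟩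
      map_add' := fun _ _ => rfl
      map_smul' := fun _ _ => rfl }
  have hTinj : Function.Injective T := by
    rw [injective_iff_map_eq_zero]
    intro φ h
    have h0 : ∀ x ∈ R, φ.1 x.out = 0 := fun x hx =>
      congrArg Subtype.val (congrFun h ⟨x, hx⟩)
    have h1 : ∀ g : Γ, (QuotientGroup.mk g : Γ ⧸ H) ∈ R → φ.1 g = 0 := fun g hg => by
      rw [secSpace_apply H σ φ.2.1 (out_inv_mul_mem H g), h0 _ hg, map_zero]
    refine Subtype.ext (funext fun g => ?_)
    by_cases hg : (QuotientGroup.mk g : Γ ⧸ H) ∈ R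
    · exact h1 g hg
    · show φ.1 g = 0
      rw [← φ.2.2 g]
      exact h1 _ (hnot _ hg)
  have hTsurj : Function.Surjective T := by
    intro v
    let v' : Γ ⧸ H → W := fun x => if hx : x ∈ R then (v ⟨x, hx⟩).1 else 0
    let base : Γ → W := fun g => actAt H σ ((QuotientGroup.mk g : Γ ⧸ H).out⁻¹ * g)⁻¹
      (v' (QuotientGroup.mk g))
    have hbase : base ∈ secSpace H σ := ((secEquiv H σ).symm v').2
    have hbsymm : ∀ g : Γ, (QuotientGroup.mk g : Γ ⧸ H) ∈ R →
        c • (QuotientGroup.mk g : Γ ⧸ H) = QuotientGroup.mk g → base (c * g) = base g := by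
      intro g hg hfix
      set x : Γ ⧸ H := QuotientGroup.mk g with hx
      have hcx : (QuotientGroup.mk (c * g) : Γ ⧸ H) = x := hfix
      have hm := (out_conj_mem_iff H x).mpr hfix
      have hv : actAt H σ (x.out⁻¹ * c * x.out) (v' x) = v' x := by
        simp only [v', dif_pos hg]
        exact (v ⟨x, hg⟩).2 hfix
      have hv' : actAt H σ (x.out⁻¹ * c * x.out)⁻¹ (v' x) = v' x := by
        conv_lhs => rw [← hv]
        rw [← actAt_mul H σ (H.inv_mem hm) hm, inv_mul_cancel, actAt_one]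
      simp only [base, hcx]
      rw [show x.out⁻¹ * (c * g) = x.out⁻¹ * c * x.out * (x.out⁻¹ * g) by group, mul_inv_rev,
        actAt_mul H σ (H.inv_mem (out_inv_mul_mem H g)) (H.inv_mem hm), hv']
    let φ : Γ → W := fun g =>
      if (QuotientGroup.mk g : Γ ⧸ H) ∈ R then base g else base (c * g)
    have hsec : φ ∈ secSpace H σ := fun g h hh => by
      simp only [φ, QuotientGroup.mk_mul_of_mem g hh]
      split_ifs
      · exact hbase g h hh
      · rw [← mul_assoc]
        exact hbase (c * g) h hh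
    have hinv : ∀ g, φ (c * g) = φ g := fun g => by
      have e1 : c * (c * g) = g := by
        rw [← mul_assoc, complexConjugation_mul_self, one_mul]
      have e2 : (QuotientGroup.mk (c * g) : Γ ⧸ H) = c • (QuotientGroup.mk g : Γ ⧸ H) := rfl
      simp only [φ, e1]
      by_cases h1 : (QuotientGroup.mk g : Γ ⧸ H) ∈ R
      · rw [if_pos h1]
        split_ifs with h2
        · exact hbsymm g h1 (hboth _ h1 (e2 ▸ h2))
        · rfl
      · rw [if_neg h1, if_pos (by rw [e2]; exact hnot _ h1)]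
    refine ⟨⟨φ, hsec, hinv⟩, funext fun x => Subtype.ext ?_⟩
    show φ x.1.out = _
    simp only [φ, QuotientGroup.out_eq', if_pos x.2, base, inv_mul_cancel, inv_one, actAt_one, v',
      dif_pos x.2]
    exact congrArg (fun y => (v y).1) (Subtype.ext x.1.out_eq')
  rw [(LinearEquiv.ofBijective T ⟨hTinj, hTsurj⟩).finrank_eq, Module.finrank_pi_fintype,
    Finset.mul_sum, Finset.sum_coe_sort R fun x => 2 * finrank (ZMod p) ↥(allowed H σ x)]
  have hout : ∀ x, complexConjugation • x ≠ x → archTerm H σ x = finrank (ZMod p) W := fun x hx => by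
    rw [archTerm, dif_neg (fun h => hx ((out_conj_mem_iff H x).mp h))]
  have hval : ∀ x, complexConjugation • x ≠ x →
      2 * finrank (ZMod p) ↥(allowed H σ x) = archTerm H σ x + archTerm H σ (c • x) := fun x hx => by
    rw [finrank_allowed_of_ne H σ hx, hout x hx, hout (c • x) (by
      rw [smul_smul_self]; exact fun h => hx h.symm), two_mul]
  have key : ∀ x ∈ R, 2 * finrank (ZMod p) ↥(allowed H σ x) =
      archTerm H σ x + if c • x ∈ R then 0 else archTerm H σ (c • x) := fun x hx => by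
    split_ifs with h
    · rw [finrank_allowed_of_eq H σ (hboth x hx h), add_zero]
    · exact hval x fun e => h (by rw [show c • x = x from e]; exact hx)
  rw [Finset.sum_congr rfl key, Finset.sum_add_distrib, ← Finset.sum_add_sum_compl R]
  congr 1
  rw [Finset.sum_ite, Finset.sum_const_zero, zero_add]
  refine (Finset.sum_equiv (MulAction.toPerm c) (fun x => ?_) fun x _ => rfl).symm
  simp only [Finset.mem_filter, Finset.mem_compl, MulAction.toPerm_apply]
  refine ⟨fun h => h.2, fun h => ⟨?_, h⟩⟩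
  have := hnot _ h
  rwa [smul_smul_self] at this

theorem twiceArch_eq [Finite (Γ ⧸ H)] :
    twiceArch H σ = 2 * (finrank (ZMod p) ↥(archSec H σ) : ℤ) -
      2 * (Nat.card (Γ ⧸ H) * finrank (ZMod p) W : ℕ) := by
  cases nonempty_fintype (Γ ⧸ H)
  have h := sum_archTerm H σ
  rw [twiceArch, finsum_eq_sum_of_fintype, Finset.sum_sub_distrib, Finset.sum_const,
    Finset.card_univ, Nat.card_eq_fintype_card, nsmul_eq_mul]
  rw [← Nat.cast_sum, h]
  push_cast
  ring

end

section Perm

variable {C : Subgroup Γ} (hC : C ≤ H)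

/-- The value of a section of a permutation module at the base point. -/
theorem permRep_apply_one (a : Γ) (ha : a ∈ C) (f : ↥H ⧸ C.subgroupOf H → W) :
    actAt H (permRep σ (↥H ⧸ C.subgroupOf H)) a f ((1 : ↥H) : ↥H ⧸ C.subgroupOf H) =
      actAt C (σ.comp (Subgroup.inclusion hC)) a (f ((1 : ↥H) : ↥H ⧸ C.subgroupOf H)) := by
  rw [actAt_of_mem H _ (hC ha), actAt_of_mem C _ ha, permRep_apply]
  have e : (⟨a, hC ha⟩ : ↥H)⁻¹ • ((1 : ↥H) : ↥H ⧸ C.subgroupOf H) =
      ((1 : ↥H) : ↥H ⧸ C.subgroupOf H) := by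
    rw [MulAction.Quotient.smul_coe, QuotientGroup.eq, smul_eq_mul, mul_one, mul_one, inv_inv]
    exact ha
  rw [e]
  rfl

/-- Invariant sections of a permutation module are invariant sections of the subgroup. -/
def archSecPerm : ↥(archSec H (permRep σ (↥H ⧸ C.subgroupOf H))) ≃ₗ[ZMod p]
    ↥(archSec C (σ.comp (Subgroup.inclusion hC))) where
  toFun φ := ⟨fun g => φ.1 g ((1 : ↥H) : ↥H ⧸ C.subgroupOf H), fun g c hc => by
      rw [← permRep_apply_one H σ hC c⁻¹ (C.inv_mem hc), ← φ.2.1 g c (hC hc)],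
    fun g => congrFun (φ.2.2 g) _⟩
  map_add' _ _ := rfl
  map_smul' _ _ := rfl
  invFun ψ := ⟨fun g x => σ x.out (ψ.1 (g * ((x.out : ↥H) : Γ))), fun g h hh => funext fun x => by
      rw [actAt_of_mem H _ (H.inv_mem hh), permRep_apply]
      set a : ↥H := (⟨h⁻¹, H.inv_mem hh⟩ : ↥H)
      set y : ↥H ⧸ C.subgroupOf H := a⁻¹ • x with hy
      have hc : (x.out⁻¹ * a * y.out : ↥H) ∈ C.subgroupOf H := by
        rw [mul_assoc, ← QuotientGroup.eq]
        rw [← smul_eq_mul, ← MulAction.Quotient.smul_coe, QuotientGroup.out_eq',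
          QuotientGroup.out_eq', hy, smul_inv_smul]
      have e : g * h * ((x.out : ↥H) : Γ) =
          g * ((y.out : ↥H) : Γ) * ((x.out⁻¹ * a * y.out : ↥H) : Γ)⁻¹ := by
        simp [a, mul_assoc]
      show σ x.out (ψ.1 (g * h * ((x.out : ↥H) : Γ))) = σ a (σ y.out (ψ.1 (g * ((y.out : ↥H) : Γ))))
      have hc' : ((x.out⁻¹ * a * y.out : ↥H) : Γ) ∈ C := hc
      rw [e, ψ.2.1 _ _ (C.inv_mem hc'), inv_inv, actAt_of_mem C _ hc']
      show σ x.out (σ (x.out⁻¹ * a * y.out) _) = σ a (σ y.out _)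
      rw [← Module.End.mul_apply, ← Module.End.mul_apply, ← map_mul, ← map_mul, mul_assoc,
        mul_inv_cancel_left],
    fun g => funext fun x => congrArg (σ x.out) ((congrArg ψ.1 (mul_assoc _ _ _)).trans (ψ.2.2 _))⟩
  left_inv φ := Subtype.ext (funext fun g => funext fun x => by
    show σ x.out (φ.1 (g * ((x.out : ↥H) : Γ)) _) = φ.1 g x
    rw [φ.2.1 g _ x.out.2, actAt_of_mem H _ (H.inv_mem x.out.2), permRep_apply,
      ← Module.End.mul_apply, ← map_mul]
    rw [show (⟨((x.out : ↥H) : Γ)⁻¹, H.inv_mem x.out.2⟩ : ↥H) = x.out⁻¹ from rfl, mul_inv_cancel,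
      map_one, inv_inv, MulAction.Quotient.smul_coe, smul_eq_mul, mul_one, QuotientGroup.out_eq']
    rfl)
  right_inv ψ := Subtype.ext (funext fun g => by
    show σ (((1 : ↥H) : ↥H ⧸ C.subgroupOf H).out) (ψ.1 (g * _)) = ψ.1 g
    obtain ⟨⟨k, hk⟩, hk'⟩ := QuotientGroup.mk_out_eq_mul (C.subgroupOf H) (1 : ↥H)
    rw [hk', one_mul]
    show σ k (ψ.1 (g * (k : Γ))) = ψ.1 g
    rw [ψ.2.1 g _ (show (k : Γ) ∈ C from hk), show σ k = actAt C (σ.comp (Subgroup.inclusion hC)) (k : Γ) from
      (actAt_of_mem C (σ.comp (Subgroup.inclusion hC)) hk).symm,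
      ← actAt_mul C _ (show (k : Γ) ∈ C from hk) (C.inv_mem (show (k : Γ) ∈ C from hk)), mul_inv_cancel, actAt_one])

include hC in
theorem twiceArch_perm [FiniteDimensional (ZMod p) W] [Finite (Γ ⧸ C)] :
    twiceArch H (permRep σ (↥H ⧸ C.subgroupOf H)) =
      twiceArch C (σ.comp (Subgroup.inclusion hC)) := by
  haveI : Finite (Γ ⧸ H) :=
    Finite.of_surjective (Subgroup.quotientMapOfLE hC) (Quotient.ind' fun g => ⟨g, rfl⟩)
  haveI : Finite (↥H ⧸ C.subgroupOf H) :=
    Finite.of_injective (Quotient.map' (fun h : ↥H => (h : Γ)) (s₂ := QuotientGroup.leftRel C)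
      fun a b hab => by
        rw [QuotientGroup.leftRel_apply] at hab ⊢
        exact hab) fun a b hab => by
      induction a using Quotient.inductionOn'
      induction b using Quotient.inductionOn'
      exact Quotient.sound' (QuotientGroup.leftRel_apply.mpr ((QuotientGroup.leftRel_apply (s := C)).mp (Quotient.exact' hab) :))
  cases nonempty_fintype (↥H ⧸ C.subgroupOf H)
  rw [twiceArch_eq, twiceArch_eq, (archSecPerm H σ hC).finrank_eq, Module.finrank_pi_fintype,
    Nat.card_congr (Subgroup.quotientEquivProdOfLE hC), Nat.card_prod,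
    Nat.card_eq_fintype_card (α := ↥H ⧸ C.subgroupOf H)]
  simp [mul_assoc]

end Perm

end Fermat.Agent.GalCoh.Euler
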