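import Mathlib.Algebra.Exact.Basic
import Mathlib.LinearAlgebra.Isomorphisms
import Mathlib.LinearAlgebra.Quotient.Basic
import Mathlib.GroupTheory.FiniteAbelian.Basic
import Mathlib.RingTheory.Finiteness.Basic
import Mathlib.Tactic.LinearCombination

/-!
# Reductions mod `p` of isogenous finitely generated modules

An additive function of finite modules killed by `p` takes the same value on `A / p` and `B / p`
when `A → B` is injective with cokernel killed by some `n ≠ 0` and `B[p]` lies in the image.
-/

set_option autoImplicit false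

noncomputable section

namespace Fermat.Agent.GalCoh.Euler

variable (R : Type) [Ring R] (p : ℕ)

/-- An invariant of modules. -/
abbrev ModuleFn : Type 1 := ∀ (A : Type) [AddCommGroup A] [Module R A], ℤ

variable {R}

/-- Additivity on exact sequences of finite modules killed by `p`. -/
def IsAdditiveMod (f : ModuleFn R) : Prop :=
  ∀ (A B C : Type) [AddCommGroup A] [Module R A] [AddCommGroup B] [Module R B] [AddCommGroup C]
    [Module R C], Finite B → (∀ b : B, p • b = 0) → ∀ (i : A →ₗ[R] B) (j : B →ₗ[R] C),
    Function.Injective i → Function.Surjective j → Function.Exact i j → f B = f A + f C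

namespace IsAdditiveMod

variable {p} {f : ModuleFn R} (hf : IsAdditiveMod p f)
include hf

theorem eq_zero (A : Type) [AddCommGroup A] [Module R A] [Subsingleton A] : f A = 0 := by
  have h := hf A A A inferInstance (fun _ => Subsingleton.elim _ _) LinearMap.id LinearMap.id
    Function.injective_id Function.surjective_id
    (fun b => ⟨fun _ => ⟨b, rfl⟩, fun _ => Subsingleton.elim _ _⟩)
  omega

theorem congr {A B : Type} [AddCommGroup A] [Module R A] [AddCommGroup B] [Module R B] [Finite B]
    (hB : ∀ b : B, p • b = 0) (e : A ≃ₗ[R] B) : f A = f B := by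
  have h := hf A B PUnit inferInstance hB e.toLinearMap 0 e.injective (fun _ => ⟨0, rfl⟩)
    (fun b => ⟨fun _ => ⟨e.symm b, e.apply_symm_apply b⟩, fun _ => rfl⟩)
  rw [hf.eq_zero PUnit] at h
  omega

theorem map {A B : Type} [AddCommGroup A] [Module R A] [AddCommGroup B] [Module R B] [Finite A]
    (hA : ∀ a : A, p • a = 0) (ψ : A →ₗ[R] B) :
    f A = f (LinearMap.ker ψ) + f (LinearMap.range ψ) :=
  hf _ A _ inferInstance hA (LinearMap.ker ψ).subtype ψ.rangeRestrict Subtype.val_injective
    ψ.surjective_rangeRestrict (fun a => ⟨fun h => ⟨⟨a, congrArg Subtype.val h⟩, rfl⟩,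
      fun ⟨b, hb⟩ => Subtype.ext (by rw [← hb]; exact b.2)⟩)

theorem sub {B : Type} [AddCommGroup B] [Module R B] [Finite B] (hB : ∀ b : B, p • b = 0)
    (A : Submodule R B) : f B = f A + f (B ⧸ A) :=
  hf _ B _ inferInstance hB A.subtype A.mkQ Subtype.val_injective A.mkQ_surjective
    (fun b => ⟨fun h => ⟨⟨b, (Submodule.Quotient.mk_eq_zero A).mp h⟩, rfl⟩,
      fun ⟨a, ha⟩ => (Submodule.Quotient.mk_eq_zero A).mpr (ha ▸ a.2)⟩)

end IsAdditiveMod

section ModP

variable (R) (A : Type) [AddCommGroup A] [Module R A]

/-- The submodule `p A`. -/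
def pMul : Submodule R A := LinearMap.range (p • (LinearMap.id : A →ₗ[R] A))

/-- The reduction `A / p A`. -/
abbrev ModP : Type := A ⧸ pMul R p A

variable {R p A}

theorem mem_pMul {x : A} : x ∈ pMul R p A ↔ ∃ y, p • y = x := by
  simp [pMul, LinearMap.mem_range]

variable (R p A)

theorem nsmul_modP_eq_zero (x : ModP R p A) : p • x = 0 := by
  induction x using Submodule.Quotient.induction_on with
  | _ a => rw [← Submodule.Quotient.mk_smul, Submodule.Quotient.mk_eq_zero]; exact mem_pMul.mpr ⟨a, rfl⟩

theorem finite_modP [AddGroup.FG A] (hp : p ≠ 0) : Finite (ModP R p A) := by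
  have : Module.Finite ℤ A := Module.Finite.iff_addGroup_fg.mpr inferInstance
  have : Module.Finite ℤ (ModP R p A) :=
    Module.Finite.of_surjective (pMul R p A).mkQ.toAddMonoidHom.toIntLinearMap
      (pMul R p A).mkQ_surjective
  have : Finite (ModP R p A) := Module.finite_of_fg_torsion _ fun x =>
    ⟨⟨(p : ℤ), mem_nonZeroDivisors_of_ne_zero (Int.natCast_ne_zero.mpr hp)⟩,
      by rw [Submonoid.mk_smul, natCast_zsmul]; exact nsmul_modP_eq_zero R p A x⟩
  infer_instance

end ModP

variable {p} {f : ModuleFn R}

/-- The map induced on reductions. -/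
def modPMap {A B : Type} [AddCommGroup A] [Module R A] [AddCommGroup B] [Module R B]
    (i : A →ₗ[R] B) : ModP R p A →ₗ[R] ModP R p B :=
  (pMul R p A).mapQ (pMul R p B) i fun x hx => by
    obtain ⟨y, rfl⟩ := mem_pMul.mp hx
    exact mem_pMul.mpr ⟨i y, (map_nsmul i p y).symm⟩

/-- One step: the cokernel is killed by `p`. -/
theorem modP_eq_of_pair (hf : IsAdditiveMod p f) (hp : p ≠ 0) {A B : Type} [AddCommGroup A]
    [Module R A] [AddCommGroup B] [Module R B] [AddGroup.FG A] [AddGroup.FG B] (i : A →ₗ[R] B)
    (hi : Function.Injective i) (hpB : ∀ b : B, p • b ∈ LinearMap.range i)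
    (htors : ∀ b : B, p • b = 0 → b ∈ LinearMap.range i) :
    f (ModP R p A) = f (ModP R p B) := by
  have := finite_modP R p A hp
  have := finite_modP R p B hp
  have hA := hf.map (nsmul_modP_eq_zero R p A) (modPMap i)
  have hB := hf.sub (nsmul_modP_eq_zero R p B) (LinearMap.range (modPMap (p := p) i))
  choose g hg using hpB
  let θ : B →ₗ[R] ModP R p A :=
    { toFun := fun b => Submodule.Quotient.mk (g b)
      map_add' := fun b b' => by
        rw [← Submodule.Quotient.mk_add]
        exact congrArg _ (hi (by rw [map_add, hg, hg, hg, nsmul_add]))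
      map_smul' := fun r b => by
        rw [RingHom.id_apply, ← Submodule.Quotient.mk_smul]
        exact congrArg _ (hi (by rw [map_smul, hg, hg, smul_comm])) }
  have hθk : LinearMap.ker θ = LinearMap.range i := by
    ext b
    constructor
    · intro h
      obtain ⟨y, hy⟩ := mem_pMul.mp ((Submodule.Quotient.mk_eq_zero _).mp h)
      have h2 : p • (b - i y) = 0 := by rw [nsmul_sub, ← hg b, ← hy, map_nsmul, sub_self]
      obtain ⟨z, hz⟩ := htors _ h2
      exact ⟨z + y, by rw [map_add, hz, sub_add_cancel]⟩
    · rintro ⟨a, rfl⟩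
      exact (Submodule.Quotient.mk_eq_zero _).mpr
        (mem_pMul.mpr ⟨a, hi (by rw [map_nsmul, hg])⟩)
  have hθr : LinearMap.range θ = LinearMap.ker (modPMap (p := p) i) := by
    ext x
    induction x using Submodule.Quotient.induction_on with
    | _ a =>
      constructor
      · rintro ⟨b, hb⟩
        rw [← hb, LinearMap.mem_ker]
        show Submodule.Quotient.mk (i (g b)) = 0
        exact (Submodule.Quotient.mk_eq_zero _).mpr (mem_pMul.mpr ⟨b, (hg b).symm⟩)
      · intro h
        obtain ⟨b, hb⟩ := mem_pMul.mp ((Submodule.Quotient.mk_eq_zero _).mp (LinearMap.mem_ker.mp h))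
        exact ⟨b, congrArg Submodule.Quotient.mk (hi (by rw [hg, hb]))⟩
  have hrange : LinearMap.range (modPMap (p := p) i) =
      (LinearMap.range i).map (pMul R p B).mkQ := by
    rw [modPMap, Submodule.range_mapQ]
  have e1 : f (LinearMap.ker (modPMap (p := p) i)) = f (B ⧸ LinearMap.range i) := by
    refine (hf.congr (fun x => Subtype.ext (nsmul_modP_eq_zero R p A x.1)) ?_).symm
    exact (Submodule.quotEquivOfEq _ _ hθk.symm).trans
      (θ.quotKerEquivRange.trans (LinearEquiv.ofEq _ _ hθr))
  have e2 : f (ModP R p B ⧸ LinearMap.range (modPMap (p := p) i)) = f (B ⧸ LinearMap.range i) := by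
    have hle : pMul R p B ≤ LinearMap.range i := fun x hx => by
      obtain ⟨y, rfl⟩ := mem_pMul.mp hx
      exact ⟨g y, hg y⟩
    have : Finite (B ⧸ LinearMap.range i) :=
      Finite.of_surjective (Submodule.factor hle) (Submodule.factor_surjective hle)
    exact hf.congr (fun x => by
      obtain ⟨y, rfl⟩ := Submodule.Quotient.mk_surjective _ x
      rw [← Submodule.Quotient.mk_smul, Submodule.Quotient.mk_eq_zero]
      exact ⟨g y, hg y⟩)
      ((Submodule.quotEquivOfEq _ _ hrange).trans
        (Submodule.quotientQuotientEquivQuotient _ _ hle))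
  omega

/-- An additive function takes equal values on the reductions of isogenous modules. -/
theorem modP_eq_of_injective [hp : Fact p.Prime] (hf : IsAdditiveMod p f) {A B : Type}
    [AddCommGroup A] [Module R A] [AddCommGroup B] [Module R B] [AddGroup.FG A] [AddGroup.FG B]
    (i : A →ₗ[R] B) (hi : Function.Injective i) {n : ℕ} (hn : n ≠ 0)
    (hnB : ∀ b : B, n • b ∈ LinearMap.range i)
    (htors : ∀ b : B, p • b = 0 → b ∈ LinearMap.range i) :
    f (ModP R p A) = f (ModP R p B) := by
  induction n using Nat.strong_induction_on generalizing B with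
  | _ n ih =>
    by_cases hd : p ∣ n
    · obtain ⟨m, rfl⟩ := hd
      have hm0 : m ≠ 0 := fun h => hn (by rw [h, mul_zero])
      let B' : Submodule R B := LinearMap.range i ⊔ pMul R p B
      have : AddGroup.FG B' := by
        rw [← Module.Finite.iff_addGroup_fg]
        have : Module.Finite ℤ B := Module.Finite.iff_addGroup_fg.mpr inferInstance
        exact Module.Finite.of_injective B'.subtype.toAddMonoidHom.toIntLinearMap
          Subtype.val_injective
      have h1 : f (ModP R p A) = f (ModP R p B') := by
        refine ih m (lt_mul_of_one_lt_left (Nat.pos_of_ne_zero hm0) hp.out.one_lt)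
          (i.codRestrict B' fun a => Submodule.mem_sup_left ⟨a, rfl⟩)
          (fun a b h => hi (congrArg Subtype.val h)) hm0 (fun b => ?_) fun b hb => ?_
        · obtain ⟨_, ⟨a, rfl⟩, _, hy, hb⟩ := Submodule.mem_sup.mp b.2
          obtain ⟨c, rfl⟩ := mem_pMul.mp hy
          obtain ⟨d, hd⟩ := hnB c
          refine ⟨m • a + d, Subtype.ext ?_⟩
          show i (m • a + d) = m • (b : B)
          rw [map_add, map_nsmul, hd, ← hb, nsmul_add, ← mul_nsmul', mul_comm]
        · obtain ⟨a, ha⟩ := htors (b : B) (congrArg Subtype.val hb)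
          exact ⟨a, Subtype.ext ha⟩
      rw [h1]
      refine modP_eq_of_pair hf hp.out.ne_zero B'.subtype Subtype.val_injective (fun b => ?_)
        fun b hb => ?_
      · exact ⟨⟨p • b, Submodule.mem_sup_right (mem_pMul.mpr ⟨b, rfl⟩)⟩, rfl⟩
      · exact ⟨⟨b, Submodule.mem_sup_left (htors b hb)⟩, rfl⟩
    · have := finite_modP R p B hp.out.ne_zero
      obtain ⟨u, v, huv⟩ := Int.isCoprime_iff_gcd_eq_one.mpr
        (show Int.gcd (n : ℤ) p = 1 by
          rw [Int.gcd_natCast_natCast]
          exact (hp.out.coprime_iff_not_dvd.mpr hd).symm)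
      choose g hg using hnB
      have key : ∀ b : B, u • (n • b) + v • (p • b) = b := fun b => by
        rw [← natCast_zsmul, ← natCast_zsmul (n := p), ← mul_smul, ← mul_smul, ← add_smul, huv,
          one_smul]
      refine hf.congr (nsmul_modP_eq_zero R p B) (LinearEquiv.ofBijective (modPMap i) ⟨?_, ?_⟩)
      · rw [← LinearMap.ker_eq_bot, eq_bot_iff]
        intro x hx
        induction x using Submodule.Quotient.induction_on with
        | _ a =>
          obtain ⟨y, hy⟩ := mem_pMul.mp ((Submodule.Quotient.mk_eq_zero _).mp (LinearMap.mem_ker.mp hx))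
          refine (Submodule.Quotient.mk_eq_zero _).mpr (mem_pMul.mpr ⟨u • g y + v • a, hi ?_⟩)
          rw [map_nsmul, map_add, map_zsmul, map_zsmul, hg, ← hy, key y]
      · intro x
        obtain ⟨b, rfl⟩ := Submodule.Quotient.mk_surjective _ x
        refine ⟨Submodule.Quotient.mk (u • g b), ?_⟩
        show Submodule.Quotient.mk (i (u • g b)) = _
        rw [map_zsmul, hg, Submodule.Quotient.eq]
        refine mem_pMul.mpr ⟨-(v • b), ?_⟩
        have h := key b
        rw [smul_neg, smul_comm p v b]
        linear_combination (norm := abel) -h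

end Fermat.Agent.GalCoh.Euler
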