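import Fermat.Agent.GalCoh.Induced
import Mathlib.RepresentationTheory.Maschke
import Mathlib.RepresentationTheory.Intertwining
import Mathlib.GroupTheory.GroupAction.Quotient

/-!
# Permutation modules with equal fixed point counts are isogenous
-/

set_option autoImplicit false
set_option linter.unusedSectionVars false
set_option linter.style.haveILetI false

noncomputable section

namespace Fermat.Agent.GalCoh.Euler

open Module

section Semisimple

variable {k R : Type} [Field k] [Ring R] [Algebra k R] [IsSemisimpleRing R]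

theorem finiteDimensional_hom (X Y : Type) [AddCommGroup X] [Module R X] [Module k X]
    [IsScalarTower k R X] [AddCommGroup Y] [Module R Y] [Module k Y] [IsScalarTower k R Y]
    [FiniteDimensional k X] [FiniteDimensional k Y] : FiniteDimensional k (X →ₗ[R] Y) :=
  FiniteDimensional.of_injective
    ({ toFun := fun f => f.restrictScalars k
       map_add' := fun _ _ => rfl
       map_smul' := fun _ _ => rfl } : (X →ₗ[R] Y) →ₗ[k] X →ₗ[k] Y)
    (LinearMap.restrictScalars_injective k)

/-- Transport of homomorphism spaces. -/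
def homCongr {X Y X' Y' : Type} [AddCommGroup X] [Module R X] [AddCommGroup Y] [Module R Y]
    [AddCommGroup X'] [Module R X'] [AddCommGroup Y'] [Module R Y']
    [Module k Y] [IsScalarTower k R Y] [Module k Y'] [IsScalarTower k R Y']
    (e : X ≃ₗ[R] X') (e' : Y ≃ₗ[R] Y') : (X →ₗ[R] Y) ≃ₗ[k] (X' →ₗ[R] Y') where
  toFun f := e'.toLinearMap ∘ₗ f ∘ₗ e.symm.toLinearMap
  invFun f := e'.symm.toLinearMap ∘ₗ f ∘ₗ e.toLinearMap
  left_inv f := by ext x; simp
  right_inv f := by ext x; simp
  map_add' f g := by ext x; simp
  map_smul' c f := by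
    ext x
    simp only [LinearMap.coe_comp, LinearEquiv.coe_coe, Function.comp_apply, LinearMap.smul_apply,
      RingHom.id_apply]
    rw [← algebraMap_smul R c, map_smul, algebraMap_smul]

variable (k R) in
/-- Dimension of a space of homomorphisms. -/
def homDim (X Y : Type) [AddCommGroup X] [Module R X] [AddCommGroup Y] [Module R Y] [Module k Y]
    [IsScalarTower k R Y] : ℤ := finrank k (X →ₗ[R] Y)

/-- Modules over a semisimple algebra are isomorphic when the homomorphism counts say so. -/
theorem nonempty_linearEquiv_of_homDim : ∀ (n : ℕ) (X Y : Type) [AddCommGroup X] [Module R X]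
    [Module k X] [IsScalarTower k R X] [AddCommGroup Y] [Module R Y] [Module k Y]
    [IsScalarTower k R Y] [FiniteDimensional k X] [FiniteDimensional k Y],
    finrank k X + finrank k Y = n →
    homDim k R X X + homDim k R Y Y = homDim k R X Y + homDim k R Y X →
    Nonempty (X ≃ₗ[R] Y) := by
  intro n
  induction n using Nat.strong_induction_on with
  | _ n ih =>
    have key : ∀ (X Y : Type) [AddCommGroup X] [Module R X] [Module k X] [IsScalarTower k R X]
        [AddCommGroup Y] [Module R Y] [Module k Y] [IsScalarTower k R Y] [FiniteDimensional k X]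
        [FiniteDimensional k Y], finrank k X + finrank k Y = n →
        homDim k R X X + homDim k R Y Y = homDim k R X Y + homDim k R Y X →
        ∀ φ : X →ₗ[R] Y, φ ≠ 0 → Nonempty (X ≃ₗ[R] Y) := by
      intro X Y _ _ _ _ _ _ _ _ _ _ hn hq φ hφ
      obtain ⟨C, hC⟩ := exists_isCompl (LinearMap.ker φ)
      obtain ⟨D, hD⟩ := exists_isCompl (LinearMap.range φ)
      set Z := LinearMap.range φ
      set K := LinearMap.ker φ
      haveI : FiniteDimensional k Z :=
        FiniteDimensional.of_injective (Z.subtype.restrictScalars k) Subtype.val_injective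
      haveI : FiniteDimensional k K :=
        FiniteDimensional.of_injective (K.subtype.restrictScalars k) Subtype.val_injective
      haveI : FiniteDimensional k D :=
        FiniteDimensional.of_injective (D.subtype.restrictScalars k) Subtype.val_injective
      let eX : (Z × K) ≃ₗ[R] X :=
        ((LinearEquiv.prodCongr ((φ.quotKerEquivRange).symm.trans
          (Submodule.quotientEquivOfIsCompl K C hC)) (LinearEquiv.refl R K)).trans
            (Submodule.prodEquivOfIsCompl C K hC.symm))
      let eY : (Z × D) ≃ₗ[R] Y := Submodule.prodEquivOfIsCompl Z D hD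
      have hdX : finrank k X = finrank k Z + finrank k K := by
        rw [← (eX.restrictScalars k).finrank_eq, finrank_prod]
      have hdY : finrank k Y = finrank k Z + finrank k D := by
        rw [← (eY.restrictScalars k).finrank_eq, finrank_prod]
      have hZ : 0 < finrank k Z := by
        obtain ⟨x, hx⟩ : ∃ x, φ x ≠ 0 := by
          by_contra! h
          exact hφ (LinearMap.ext h)
        exact finrank_pos_iff_exists_ne_zero.mpr
          ⟨⟨φ x, LinearMap.mem_range_self φ x⟩, fun h => hx (congrArg Subtype.val h)⟩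
      haveI := fun (A B : Type) [AddCommGroup A] [Module R A] [Module k A] [IsScalarTower k R A]
        [AddCommGroup B] [Module R B] [Module k B] [IsScalarTower k R B] [FiniteDimensional k A]
        [FiniteDimensional k B] => finiteDimensional_hom (k := k) (R := R) A B
      have hsplit : ∀ (A B : Type) [AddCommGroup A] [Module R A] [Module k A] [IsScalarTower k R A]
          [AddCommGroup B] [Module R B] [Module k B] [IsScalarTower k R B] [FiniteDimensional k A]
          [FiniteDimensional k B],
          homDim k R (Z × A) (Z × B) =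
            homDim k R Z Z + homDim k R Z B + homDim k R A Z + homDim k R A B := by
        intro A B _ _ _ _ _ _ _ _ _ _
        haveI := finiteDimensional_hom (k := k) (R := R) Z Z
        haveI := finiteDimensional_hom (k := k) (R := R) Z B
        haveI := finiteDimensional_hom (k := k) (R := R) A Z
        haveI := finiteDimensional_hom (k := k) (R := R) A B
        haveI := finiteDimensional_hom (k := k) (R := R) Z (Z × B)
        haveI := finiteDimensional_hom (k := k) (R := R) A (Z × B)
        simp only [homDim]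
        rw [← (LinearMap.coprodEquiv (R := R) k (M := Z) (M₂ := A) (M₃ := Z × B)).finrank_eq,
          finrank_prod, ← (LinearMap.prodEquiv k (R := R) (M := Z) (M₂ := Z) (M₃ := B)).finrank_eq,
          ← (LinearMap.prodEquiv k (R := R) (M := A) (M₂ := Z) (M₃ := B)).finrank_eq,
          finrank_prod, finrank_prod]
        push_cast
        ring
      have hXX : homDim k R X X = homDim k R (Z × K) (Z × K) := by
        simp only [homDim, (homCongr (k := k) eX eX).finrank_eq]
      have hYY : homDim k R Y Y = homDim k R (Z × D) (Z × D) := by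
        simp only [homDim, (homCongr (k := k) eY eY).finrank_eq]
      have hXY : homDim k R X Y = homDim k R (Z × K) (Z × D) := by
        simp only [homDim, (homCongr (k := k) eX eY).finrank_eq]
      have hYX : homDim k R Y X = homDim k R (Z × D) (Z × K) := by
        simp only [homDim, (homCongr (k := k) eY eX).finrank_eq]
      rw [hXX, hYY, hXY, hYX, hsplit K K, hsplit D D, hsplit K D, hsplit D K] at hq
      obtain ⟨e⟩ := ih (finrank k K + finrank k D) (by omega) K D rfl (by omega)
      exact ⟨eX.symm.trans ((LinearEquiv.prodCongr (LinearEquiv.refl R Z) e).trans eY)⟩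
    intro X Y _ _ _ _ _ _ _ _ _ _ hn hq
    by_cases h1 : ∃ φ : X →ₗ[R] Y, φ ≠ 0
    · obtain ⟨φ, hφ⟩ := h1
      exact key X Y hn hq φ hφ
    by_cases h2 : ∃ φ : Y →ₗ[R] X, φ ≠ 0
    · obtain ⟨φ, hφ⟩ := h2
      obtain ⟨e⟩ := key Y X (by omega) (by omega) φ hφ
      exact ⟨e.symm⟩
    push Not at h1 h2
    haveI : Subsingleton (X →ₗ[R] Y) := ⟨fun a b => (h1 a).trans (h1 b).symm⟩
    haveI : Subsingleton (Y →ₗ[R] X) := ⟨fun a b => (h2 a).trans (h2 b).symm⟩
    haveI := finiteDimensional_hom (k := k) (R := R) X X
    haveI := finiteDimensional_hom (k := k) (R := R) Y Y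
    simp only [homDim, finrank_zero_of_subsingleton, Nat.cast_zero, add_zero] at hq
    have hz : ∀ (W : Type) [AddCommGroup W] [Module R W] [Module k W] [IsScalarTower k R W]
        [FiniteDimensional k (W →ₗ[R] W)], finrank k (W →ₗ[R] W) = 0 → Subsingleton W := by
      intro W _ _ _ _ _ h
      haveI := finrank_zero_iff.mp h
      exact ⟨fun a b => by
        have e : (LinearMap.id : W →ₗ[R] W) = 0 := Subsingleton.elim _ _
        rw [← LinearMap.id_apply (R := R) a, ← LinearMap.id_apply (R := R) b, e]
        rfl⟩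
    haveI := hz X (by omega)
    haveI := hz Y (by omega)
    exact ⟨LinearEquiv.ofSubsingleton X Y⟩

end Semisimple

section Perm

open Representation

variable (k : Type) [CommRing k] (G : Type) [Group G] (X Y : Type) [MulAction G X] [MulAction G Y]

/-- The permutation representation on functions. -/
abbrev permFun : Representation k G (X → k) := permRep (Representation.trivial k G k) X

variable {k G X Y}

theorem permFun_apply (g : G) (f : X → k) (x : X) : permFun k G X g f x = f (g⁻¹ • x) := rfl

open Classical in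
theorem permFun_single (g : G) (x : X) (a : k) :
    permFun k G X g (Pi.single x a) = Pi.single (g • x) a := by
  funext y
  simp only [permFun_apply, Pi.single_apply, inv_smul_eq_iff]

/-- A matrix invariant under `G`. -/
def IsInvMatrix (A : Y → X → k) : Prop := ∀ (g : G) y x, A (g • y) (g • x) = A y x

/-- The map of an invariant matrix. -/
def matMap [Fintype X] (A : Y → X → k) (hA : IsInvMatrix (G := G) A) :
    IntertwiningMap (permFun k G X) (permFun k G Y) :=
  LinearMap.intertwiningMap_of_isIntertwiningMap _ _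
    { toFun := fun f y => ∑ x, A y x * f x
      map_add' := fun f f' => by ext y; simp [mul_add, Finset.sum_add_distrib]
      map_smul' := fun c f => by ext y; simp [Finset.mul_sum, mul_left_comm] }
    fun g f => by
      funext y
      simp only [LinearMap.coe_mk, AddHom.coe_mk, permFun_apply]
      refine Fintype.sum_equiv (MulAction.toPerm g⁻¹) _ _ fun x => ?_
      show A y x * f (g⁻¹ • x) = A (g⁻¹ • y) (g⁻¹ • x) * f (g⁻¹ • x)
      rw [hA]

@[simp] theorem matMap_apply [Fintype X] (A : Y → X → k) (hA : IsInvMatrix (G := G) A)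
    (f : X → k) (y : Y) : matMap A hA f y = ∑ x, A y x * f x := rfl

open Classical in
/-- The matrix of an equivariant map. -/
def matOf (φ : IntertwiningMap (permFun k G X) (permFun k G Y)) : Y → X → k :=
  fun y x => φ (Pi.single x 1) y

theorem isInvMatrix_matOf (φ : IntertwiningMap (permFun k G X) (permFun k G Y)) :
    IsInvMatrix (G := G) (matOf φ) := fun g y x => by
  classical
  have h := congrFun (φ.isIntertwining _ _ g (Pi.single x 1)) (g • y)
  rw [permFun_apply, inv_smul_smul, permFun_single] at h
  exact h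

open Classical in
theorem matOf_apply [Fintype X] (φ : IntertwiningMap (permFun k G X) (permFun k G Y))
    (f : X → k) (y : Y) : φ f y = ∑ x, matOf φ y x * f x := by
  have hf : f = ∑ x, f x • (Pi.single x (1 : k) : X → k) := by
    funext z
    simp [Finset.sum_apply, Pi.single_apply]
  conv_lhs => rw [hf, map_sum, Finset.sum_apply]
  simp only [map_smul, Pi.smul_apply, smul_eq_mul, matOf, mul_comm]

/-- Equivariant maps of permutation modules are functions on the orbits of `Y × X`. -/
def intertwiningEquivOrbit [Fintype X] :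
    IntertwiningMap (permFun k G X) (permFun k G Y) ≃ₗ[k]
      (MulAction.orbitRel.Quotient G (Y × X) → k) where
  toFun φ := Quotient.lift (fun z : Y × X => matOf φ z.1 z.2) fun a b hab => by
    obtain ⟨g, rfl⟩ := MulAction.orbitRel_apply.mp hab
    exact isInvMatrix_matOf φ g b.1 b.2
  map_add' φ ψ := by ext ⟨z⟩; rfl
  map_smul' c φ := by ext ⟨z⟩; rfl
  invFun F := matMap (fun y x => F (Quotient.mk _ (y, x))) fun g y x =>
    congrArg F (Quotient.sound ⟨g, rfl⟩)
  left_inv φ := by
    ext f y
    exact (matOf_apply φ f y).symm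
  right_inv F := by
    classical
    funext q
    induction q using Quotient.inductionOn with
    | _ z => simp [matOf, matMap_apply, Pi.single_apply]

variable [Finite G] [Finite X] [Finite Y]

open Classical in
theorem card_orbits_mul (hfix : ∀ g : G, Nat.card (MulAction.fixedBy X g) =
    Nat.card (MulAction.fixedBy Y g)) :
    Nat.card (MulAction.orbitRel.Quotient G (X × X)) = Nat.card (MulAction.orbitRel.Quotient G (Y × Y)) ∧
    Nat.card (MulAction.orbitRel.Quotient G (Y × X)) = Nat.card (MulAction.orbitRel.Quotient G (X × X)) ∧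
    Nat.card (MulAction.orbitRel.Quotient G (X × Y)) = Nat.card (MulAction.orbitRel.Quotient G (X × X)) := by
  cases nonempty_fintype G
  cases nonempty_fintype X
  cases nonempty_fintype Y
  have key : ∀ (A B : Type) [Fintype A] [Fintype B] [MulAction G A] [MulAction G B],
      Nat.card (MulAction.orbitRel.Quotient G (A × B)) * Fintype.card G =
        ∑ g : G, Nat.card (MulAction.fixedBy A g) * Nat.card (MulAction.fixedBy B g) := by
    intro A B _ _ _ _
    rw [Nat.card_eq_fintype_card, ← MulAction.sum_card_fixedBy_eq_card_orbits_mul_card_group G (A × B)]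
    refine Finset.sum_congr rfl fun g _ => ?_
    rw [← Nat.card_eq_fintype_card, ← Nat.card_prod]
    exact Nat.card_congr
      { toFun := fun z => (⟨z.1.1, congrArg Prod.fst z.2⟩, ⟨z.1.2, congrArg Prod.snd z.2⟩)
        invFun := fun z => ⟨(z.1.1, z.2.1), Prod.ext z.1.2 z.2.2⟩
        left_inv := fun _ => rfl
        right_inv := fun _ => rfl }
  have hG := Fintype.card_pos (α := G)
  refine ⟨?_, ?_, ?_⟩ <;> refine Nat.eq_of_mul_eq_mul_right hG ?_ <;> rw [key, key] <;>
    exact Finset.sum_congr rfl fun g _ => by simp only [hfix]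

/-- Equal fixed point counts give rationally isomorphic permutation modules. -/
theorem exists_rat_iso (hfix : ∀ g : G, Nat.card (MulAction.fixedBy X g) =
    Nat.card (MulAction.fixedBy Y g)) :
    ∃ (φ : IntertwiningMap (permFun ℚ G X) (permFun ℚ G Y))
      (ψ : IntertwiningMap (permFun ℚ G Y) (permFun ℚ G X)),
      (∀ f, ψ (φ f) = f) ∧ ∀ f, φ (ψ f) = f := by
  cases nonempty_fintype X
  cases nonempty_fintype Y
  haveI : NeZero (Nat.card G : ℚ) := ⟨Nat.cast_ne_zero.mpr Nat.card_pos.ne'⟩
  obtain ⟨h1, h2, h3⟩ := card_orbits_mul hfix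
  haveI : FiniteDimensional ℚ (permFun ℚ G X).asModule :=
    Module.Finite.equiv (permFun ℚ G X).asModuleEquiv.symm
  haveI : FiniteDimensional ℚ (permFun ℚ G Y).asModule :=
    Module.Finite.equiv (permFun ℚ G Y).asModuleEquiv.symm
  have hdim : ∀ (A B : Type) [MulAction G A] [MulAction G B] [Fintype A] [Fintype B],
      homDim ℚ (MonoidAlgebra ℚ G) (permFun ℚ G A).asModule (permFun ℚ G B).asModule =
        Nat.card (MulAction.orbitRel.Quotient G (B × A)) := by
    intro A B _ _ _ _
    classical
    rw [homDim, ← (IntertwiningMap.equivLinearMapAsModule (permFun ℚ G A) (permFun ℚ G B)).finrank_eq,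
      (intertwiningEquivOrbit (k := ℚ) (G := G) (X := A) (Y := B)).finrank_eq,
      Module.finrank_fintype_fun_eq_card, Nat.card_eq_fintype_card]
  obtain ⟨e⟩ := nonempty_linearEquiv_of_homDim (k := ℚ) (R := MonoidAlgebra ℚ G) _
    (permFun ℚ G X).asModule (permFun ℚ G Y).asModule rfl (by
      rw [hdim, hdim, hdim, hdim, h1, h2, h3, h1])
  refine ⟨(IntertwiningMap.equivLinearMapAsModule _ _).symm e.toLinearMap,
    (IntertwiningMap.equivLinearMapAsModule _ _).symm e.symm.toLinearMap,
    fun f => e.symm_apply_apply f, fun f => e.apply_symm_apply f⟩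

/-- Equal fixed point counts give isogenous integral permutation modules. -/
theorem exists_int_isogeny (hfix : ∀ g : G, Nat.card (MulAction.fixedBy X g) =
    Nat.card (MulAction.fixedBy Y g)) :
    ∃ (n : ℕ) (φ : IntertwiningMap (permFun ℤ G X) (permFun ℤ G Y)), n ≠ 0 ∧
      Function.Injective φ ∧ ∀ f, ∃ f', φ f' = n • f := by
  classical
  cases nonempty_fintype X
  cases nonempty_fintype Y
  obtain ⟨φ, ψ, h1, h2⟩ := exists_rat_iso hfix
  have scale : ∀ (A B : Type) [MulAction G A] [MulAction G B] [Fintype A] [Fintype B]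
      (χ : IntertwiningMap (permFun ℚ G A) (permFun ℚ G B)),
      ∃ (N : ℕ) (χ' : IntertwiningMap (permFun ℤ G A) (permFun ℤ G B)), N ≠ 0 ∧
        ∀ (f : A → ℤ) (y : B), ((χ' f y : ℤ) : ℚ) = N * χ (fun x => (f x : ℚ)) y := by
    intro A B _ _ _ _ χ
    let N := ∏ z : B × A, (matOf χ z.1 z.2).den
    have hN : ∀ y x, ∃ c : ℤ, (c : ℚ) = N * matOf χ y x := fun y x => by
      obtain ⟨d, hd⟩ := Finset.dvd_prod_of_mem (fun z : B × A => (matOf χ z.1 z.2).den)
        (Finset.mem_univ (y, x))
      refine ⟨d * (matOf χ y x).num, ?_⟩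
      have h := Rat.mul_den_eq_num (matOf χ y x)
      have hd' : (N : ℚ) = (matOf χ y x).den * d := by exact_mod_cast hd
      rw [hd']
      push_cast
      linear_combination -(d : ℚ) * h
    choose c hc using hN
    have hcinv : IsInvMatrix (G := G) c := fun g y x => Int.cast_injective (α := ℚ) (by
      rw [hc, hc, isInvMatrix_matOf χ g y x])
    refine ⟨N, matMap c hcinv, Finset.prod_ne_zero_iff.mpr fun z _ => (Rat.den_nz _), fun f y => ?_⟩
    rw [matMap_apply, matOf_apply, Finset.mul_sum]
    push_cast
    exact Finset.sum_congr rfl fun x _ => by rw [hc]; ring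
  obtain ⟨N, φ', hN, hφ'⟩ := scale X Y φ
  obtain ⟨M, ψ', hM, hψ'⟩ := scale Y X ψ
  have hc : ∀ {A B : Type} [MulAction G A] [MulAction G B]
      (χ : IntertwiningMap (permFun ℚ G A) (permFun ℚ G B)) (a : ℚ) (f : A → ℚ) (y : B),
      χ (fun x => a * f x) y = a * χ f y := fun χ a f y => by
    rw [show (fun x => a * f x) = a • f from rfl, map_smul]
    rfl
  refine ⟨N * M, φ', mul_ne_zero hN hM, fun f f' h => funext fun x => ?_, fun f => ⟨ψ' f, ?_⟩⟩
  · have e : (fun y => ((φ' f y : ℤ) : ℚ)) = fun y => ((φ' f' y : ℤ) : ℚ) := by rw [h]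
    simp only [hφ'] at e
    have e2 : φ (fun x => (f x : ℚ)) = φ fun x => (f' x : ℚ) := funext fun y =>
      mul_left_cancel₀ (Nat.cast_ne_zero.mpr hN) (congrFun e y)
    exact Int.cast_injective (α := ℚ) (congrFun ((h1 _).symm.trans ((congrArg ψ e2).trans (h1 _))) x)
  · funext y
    apply Int.cast_injective (α := ℚ)
    rw [hφ', show (fun x => ((ψ' f x : ℤ) : ℚ)) = fun x => (M : ℚ) * ψ (fun z => (f z : ℚ)) x from
      funext (hψ' f), hc, h2, Pi.smul_apply, nsmul_eq_mul]
    push_cast
    ring

end Perm

section Artin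

variable {G : Type} [Group G] {ι : Type}

/-- A disjoint union of coset spaces. -/
def CosetSum (c : ι → Subgroup G) : Type := Σ i, G ⧸ c i

instance (c : ι → Subgroup G) : MulAction G (CosetSum c) where
  smul g z := ⟨z.1, g • z.2⟩
  one_smul z := Sigma.ext rfl (heq_of_eq (one_smul G z.2))
  mul_smul g h z := Sigma.ext rfl (heq_of_eq (mul_smul g h z.2))

instance [Finite ι] [Finite G] (c : ι → Subgroup G) : Finite (CosetSum c) :=
  inferInstanceAs (Finite (Σ i, G ⧸ c i))

theorem card_fixedBy_cosetSum [Fintype ι] [Finite G] (c : ι → Subgroup G) (g : G) :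
    Nat.card (MulAction.fixedBy (CosetSum c) g) =
      ∑ i, Nat.card (MulAction.fixedBy (G ⧸ c i) g) := by
  rw [← Nat.card_sigma]
  exact Nat.card_congr
    { toFun := fun z => ⟨z.1.1, z.1.2, eq_of_heq (Sigma.ext_iff.mp z.2).2⟩
      invFun := fun z => ⟨⟨z.1, z.2.1⟩, Sigma.ext rfl (heq_of_eq z.2.2)⟩
      left_inv := fun _ => rfl
      right_inv := fun _ => rfl }

theorem card_fixedBy_quotient [Finite G] (C : Subgroup G) (g : G) :
    Nat.card C * Nat.card (MulAction.fixedBy (G ⧸ C) g) =
      Nat.card {x : G // x⁻¹ * g * x ∈ C} := by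
  have hiff : ∀ x : G, (QuotientGroup.mk x : G ⧸ C) ∈ MulAction.fixedBy (G ⧸ C) g ↔
      x⁻¹ * g * x ∈ C := fun x => by
    rw [MulAction.mem_fixedBy, MulAction.Quotient.smul_coe, eq_comm, QuotientGroup.eq, smul_eq_mul,
      mul_assoc]
  rw [mul_comm, ← Nat.card_prod]
  exact (Nat.card_congr
    ((show {x : G // x⁻¹ * g * x ∈ C} ≃
        ↥((QuotientGroup.mk : G → G ⧸ C) ⁻¹' MulAction.fixedBy (G ⧸ C) g) from
      Equiv.subtypeEquivRight fun x => (hiff x).symm).trans
      ((QuotientGroup.preimageMkEquivSubgroupProdSet C _).trans (Equiv.prodComm _ _)))).symm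

theorem exists_cyclic_weights (G : Type) [Group G] [Finite G] :
    ∃ b : Subgroup G → ℤ, (∀ C, b C ≠ 0 → IsCyclic C) ∧
      ∀ g : G, ∑ᶠ (C : Subgroup G) (_ : g ∈ C), b C = 1 := by
  classical
  haveI : Finite (Subgroup G) := Finite.of_injective _ SetLike.coe_injective
  cases nonempty_fintype (Subgroup G)
  haveI : WellFoundedGT (Subgroup G) := Finite.to_wellFoundedGT
  let b : Subgroup G → ℤ := (wellFounded_gt (α := Subgroup G)).fix fun C rec =>
    if IsCyclic C then 1 - ∑ D : {D : Subgroup G // C < D}, rec D.1 D.2 else 0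
  have hb : ∀ C, b C = if IsCyclic C then 1 - ∑ D : {D : Subgroup G // C < D}, b D.1 else 0 :=
    fun C => (wellFounded_gt (α := Subgroup G)).fix_eq _ C
  refine ⟨b, fun C hC => by_contra fun h => hC (by rw [hb, if_neg h]), fun g => ?_⟩
  set C := Subgroup.zpowers g
  have hbC := hb C
  rw [if_pos (inferInstance : IsCyclic C), ← Finset.sum_subtype (Finset.univ.filter (C < ·))
    (fun _ => by simp) b] at hbC
  rw [finsum_eq_sum_of_fintype]
  simp only [finsum_eq_if]
  rw [← Finset.sum_filter]
  have hset : (Finset.univ.filter fun D : Subgroup G => g ∈ D) =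
      insert C (Finset.univ.filter (C < ·)) := by
    ext D
    simp only [Finset.mem_filter, Finset.mem_univ, true_and, Finset.mem_insert]
    rw [← Subgroup.zpowers_le, le_iff_eq_or_lt]
    exact or_congr_left eq_comm
  rw [hset, Finset.sum_insert (by simp), hbC, sub_add_cancel]

/-- Artin's identity: `n` trivial modules against permutation modules of cyclic subgroups. -/
theorem exists_artin (G : Type) [Group G] [Finite G] :
    ∃ (n : ℕ) (ι κ : Type) (_ : Fintype ι) (_ : Fintype κ) (c : ι → Subgroup G)
      (d : κ → Subgroup G), n ≠ 0 ∧ (∀ i, IsCyclic (c i)) ∧ (∀ j, IsCyclic (d j)) ∧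
      ∀ g : G, Nat.card (MulAction.fixedBy (CosetSum (Sum.elim (fun _ : Fin n => (⊤ : Subgroup G)) c)) g) =
        Nat.card (MulAction.fixedBy (CosetSum d) g) := by
  classical
  obtain ⟨b, hb0, hb⟩ := exists_cyclic_weights G
  haveI : Finite (Subgroup G) := Finite.of_injective _ SetLike.coe_injective
  cases nonempty_fintype (Subgroup G)
  cases nonempty_fintype G
  let Cyc := {C : Subgroup G // IsCyclic C}
  let m : Cyc → ℤ := fun C => Nat.card C.1 * b C.1
  refine ⟨Nat.card G, Σ C : Cyc, Fin (-m C).toNat, Σ C : Cyc, Fin (m C).toNat, inferInstance,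
    inferInstance, fun z => z.1.1, fun z => z.1.1, Nat.card_pos.ne', fun z => z.1.2, fun z => z.1.2,
    fun g => ?_⟩
  rw [card_fixedBy_cosetSum, card_fixedBy_cosetSum]
  generalize hF : (fun C : Subgroup G => Nat.card (MulAction.fixedBy (G ⧸ C) g)) = F
  show ∑ i, (fun C : Subgroup G => Nat.card (MulAction.fixedBy (G ⧸ C) g)) _ =
    ∑ j, (fun C : Subgroup G => Nat.card (MulAction.fixedBy (G ⧸ C) g)) _
  rw [hF, Fintype.sum_sum_type, Fintype.sum_sigma, Fintype.sum_sigma]
  simp only [Sum.elim_inl, Sum.elim_inr, Finset.sum_const, Finset.card_univ, Fintype.card_fin,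
    smul_eq_mul]
  have htop : Nat.card (MulAction.fixedBy (G ⧸ (⊤ : Subgroup G)) g) = 1 := by
    haveI := QuotientGroup.subsingleton_quotient_top (G := G)
    haveI : Nonempty (MulAction.fixedBy (G ⧸ (⊤ : Subgroup G)) g) :=
      ⟨⟨QuotientGroup.mk 1, Subsingleton.elim _ _⟩⟩
    exact Nat.card_eq_one_iff_unique.mpr ⟨inferInstance, inferInstance⟩
  have key : ∑ C : Cyc, m C * (Nat.card (MulAction.fixedBy (G ⧸ C.1) g) : ℤ) = Nat.card G := by
    have h1 : ∀ C : Cyc, m C * (Nat.card (MulAction.fixedBy (G ⧸ C.1) g) : ℤ) =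
        ∑ x : G, if x⁻¹ * g * x ∈ C.1 then b C.1 else 0 := fun C => by
      rw [← Finset.sum_filter, Finset.sum_const, nsmul_eq_mul,
        ← Fintype.card_subtype, ← Nat.card_eq_fintype_card, ← card_fixedBy_quotient C.1 g]
      push_cast
      ring
    rw [Finset.sum_congr rfl fun C _ => h1 C, Finset.sum_comm]
    have h2 : ∀ x : G, ∑ C : Cyc, (if x⁻¹ * g * x ∈ C.1 then b C.1 else 0) = 1 := fun x => by
      have h := hb (x⁻¹ * g * x)
      rw [finsum_eq_sum_of_fintype] at h
      simp only [finsum_eq_if] at h
      rw [← h, ← Finset.sum_filter_add_sum_filter_not Finset.univ (fun C : Subgroup G => IsCyclic ↥C),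
        Finset.sum_subtype (Finset.univ.filter fun C : Subgroup G => IsCyclic ↥C)
          (p := fun C : Subgroup G => IsCyclic ↥C) (fun _ => by simp)]
      rw [Finset.sum_eq_zero (s := Finset.univ.filter fun C : Subgroup G => ¬ IsCyclic ↥C)]
      · rw [add_zero]
      · intro C hC
        simp only [Finset.mem_filter] at hC
        split_ifs
        · exact by_contra fun h => hC.2 (hb0 C h)
        · rfl
    rw [Finset.sum_congr rfl fun x _ => h2 x, Finset.sum_const, Finset.card_univ,
      Nat.card_eq_fintype_card]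
    simp
  simp only [← hF, htop, mul_one]
  zify
  rw [← key, ← Finset.sum_add_distrib]
  refine Finset.sum_congr rfl fun C _ => ?_
  have h := Int.toNat_sub_toNat_neg (m C)
  linear_combination (-(Nat.card (MulAction.fixedBy (G ⧸ C.1) g) : ℤ)) * h

end Artin

end Fermat.Agent.GalCoh.Euler
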