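import Fermat.Agent.GalCoh.EulerDefs
import Fermat.Agent.GalCoh.Induced

/-!
# Morphisms with inverses, and subgroups of subgroups
-/

set_option autoImplicit false
set_option linter.unusedSectionVars false

noncomputable section

namespace Fermat.Agent.GalCoh.Euler

variable {k : Type} [CommRing k] {G : Type} [Group G] {G' : Type} [Group G']
  {V : Type} [AddCommGroup V] [Module k V] {W : Type} [AddCommGroup W] [Module k W]
  {L : Levels G} {L' : Levels G'} {ρ : Representation k G V} {σ : Representation k G' W}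

section Inverse

variable (m : Mor L L' ρ σ) (n : Mor L' L σ ρ) (hf : ∀ g, m.f (n.f g) = g)
  (hf' : ∀ g, n.f (m.f g) = g) (hφ : ∀ v, n.φ (m.φ v) = v) (hφ' : ∀ w, m.φ (n.φ w) = w)

include hf hφ in
theorem map₁_leftInverse (z : H1 L ρ) : n.map₁ (m.map₁ z) = z := by
  obtain ⟨F, rfl⟩ := H1mk_surjective z
  rw [Mor.map₁_mk, Mor.map₁_mk]
  refine congrArg _ (Subtype.ext (funext fun g => ?_))
  simp only [Mor.cochain₁_apply, hf, hφ]

include hf hφ in
theorem map₂_leftInverse (z : H2 L ρ) : n.map₂ (m.map₂ z) = z := by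
  obtain ⟨F, rfl⟩ := H2mk_surjective z
  rw [Mor.map₂_mk, Mor.map₂_mk]
  refine congrArg _ (Subtype.ext (funext fun g => ?_))
  obtain ⟨g, g'⟩ := g
  simp only [Mor.cochain₂_apply, hf, hφ]

/-- An invertible morphism gives an equivalence in degree one. -/
def equiv₁ : H1 L ρ ≃ₗ[k] H1 L' σ :=
  { m.map₁ with
    invFun := n.map₁
    left_inv := map₁_leftInverse m n hf hφ
    right_inv := map₁_leftInverse n m hf' hφ' }

/-- An invertible morphism gives an equivalence in degree two. -/
def equiv₂ : H2 L ρ ≃ₗ[k] H2 L' σ :=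
  { m.map₂ with
    invFun := n.map₂
    left_inv := map₂_leftInverse m n hf hφ
    right_inv := map₂_leftInverse n m hf' hφ' }

include hφ hφ' in
/-- An invertible morphism gives an equivalence in degree zero. -/
def equiv₀ : H0 ρ ≃ₗ[k] H0 σ :=
  { m.map₀ with
    invFun := n.map₀
    left_inv := fun v => Subtype.ext (hφ v)
    right_inv := fun w => Subtype.ext (hφ' w) }

end Inverse

section Sub

variable {C H : Subgroup G} (hC : C ≤ H) (σ' : Representation k ↥H W)

/-- `C` inside `H`, as a map to the subgroup of `H`. -/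
def toSubHom : ↥C →* ↥(C.subgroupOf H) :=
  (Subgroup.inclusion hC).codRestrict _ fun x => x.2

/-- From the subgroup `C` of `H` to `C`. -/
def subDown (L : Levels G) :
    Mor ((L.comap H.subtype).comap (C.subgroupOf H).subtype) (L.comap C.subtype)
      (σ'.comp (C.subgroupOf H).subtype) (σ'.comp (Subgroup.inclusion hC)) where
  f := toSubHom hC
  φ := LinearMap.id
  comm _ _ := rfl
  compat := fun _ ⟨_, ⟨V₀, hV₀, hVV⟩, hVU⟩ => ⟨V₀, hV₀, fun _ hx => hVU (hVV hx)⟩

/-- From `C` to the subgroup `C` of `H`. -/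
def subUp (L : Levels G) :
    Mor (L.comap C.subtype) ((L.comap H.subtype).comap (C.subgroupOf H).subtype)
      (σ'.comp (Subgroup.inclusion hC)) (σ'.comp (C.subgroupOf H).subtype) where
  f := (H.subtype.comp (C.subgroupOf H).subtype).codRestrict C fun x => x.2
  φ := LinearMap.id
  comm _ _ := rfl
  compat := fun _ ⟨V, hV, hVU⟩ =>
    ⟨V.comap H.subtype, ⟨V, hV, le_rfl⟩, fun _ hx => hVU hx⟩

/-- Degree one cohomology of a subgroup of a subgroup. -/
def subEquiv₁ (L : Levels G) :
    H1 ((L.comap H.subtype).comap (C.subgroupOf H).subtype) (σ'.comp (C.subgroupOf H).subtype)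
      ≃ₗ[k] H1 (L.comap C.subtype) (σ'.comp (Subgroup.inclusion hC)) :=
  equiv₁ (subDown hC σ' L) (subUp hC σ' L) (fun _ => rfl) (fun _ => rfl) (fun _ => rfl) fun _ => rfl

/-- Degree two cohomology of a subgroup of a subgroup. -/
def subEquiv₂ (L : Levels G) :
    H2 ((L.comap H.subtype).comap (C.subgroupOf H).subtype) (σ'.comp (C.subgroupOf H).subtype)
      ≃ₗ[k] H2 (L.comap C.subtype) (σ'.comp (Subgroup.inclusion hC)) :=
  equiv₂ (subDown hC σ' L) (subUp hC σ' L) (fun _ => rfl) (fun _ => rfl) (fun _ => rfl) fun _ => rfl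

/-- Degree zero cohomology of a subgroup of a subgroup. -/
def subEquiv₀ (L : Levels G) :
    H0 (σ'.comp (C.subgroupOf H).subtype) ≃ₗ[k] H0 (σ'.comp (Subgroup.inclusion hC)) :=
  equiv₀ (subDown hC σ' L) (subUp hC σ' L) (fun _ => rfl) fun _ => rfl

/-- Shapiro's isomorphism for `C` inside `H`, degree one. -/
def shapiroSub₁ (L : Levels G) (hσ : IsCtsRep (L.comap H.subtype) σ')
    (hCm : (L.comap H.subtype).mem (C.subgroupOf H)) :
    H1 (L.comap H.subtype) (permRep σ' (↥H ⧸ C.subgroupOf H))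
      ≃ₗ[k] H1 (L.comap C.subtype) (σ'.comp (Subgroup.inclusion hC)) :=
  (shapiro₁ _ hσ hCm).trans (subEquiv₁ hC σ' L)

/-- Shapiro's isomorphism for `C` inside `H`, degree two. -/
def shapiroSub₂ (L : Levels G) (hσ : IsCtsRep (L.comap H.subtype) σ')
    (hCm : (L.comap H.subtype).mem (C.subgroupOf H)) :
    H2 (L.comap H.subtype) (permRep σ' (↥H ⧸ C.subgroupOf H))
      ≃ₗ[k] H2 (L.comap C.subtype) (σ'.comp (Subgroup.inclusion hC)) :=
  (shapiro₂ _ hσ hCm).trans (subEquiv₂ hC σ' L)

/-- Shapiro's isomorphism for `C` inside `H`, degree zero. -/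
def shapiroSub₀ (L : Levels G) :
    H0 (permRep σ' (↥H ⧸ C.subgroupOf H)) ≃ₗ[k] H0 (σ'.comp (Subgroup.inclusion hC)) :=
  shapiro₀.trans (subEquiv₀ hC σ' L)

end Sub

end Fermat.Agent.GalCoh.Euler
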