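import Fermat.Agent.GalCoh.Euler.Statement
import Fermat.Agent.GalCoh.Euler.Lattice
import Fermat.Agent.GalCoh.Euler.PermIso
import Fermat.Agent.GalCoh.Euler.Arch
import Fermat.Agent.GalCoh.Euler.Transfer
import Fermat.Agent.GalCoh.Lifting
import Mathlib.GroupTheory.Sylow
import Mathlib.GroupTheory.PGroup

/-!
# The Euler characteristic formula from the base case and additivity

Everything here is for a fixed finite set `S` and a fixed splitting level `N`: finiteness by
embedding into induced modules, cyclic layers by devissage along the `p`-part, and general groups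
by Artin's induction theorem.
-/

set_option autoImplicit false

noncomputable section

namespace Fermat.Agent.GalCoh.Euler

open Representation (IntertwiningMap)
open ExtCitation Module

local notation "Γ" => (AlgebraicClosure ℚ ≃ₐ[ℚ] AlgebraicClosure ℚ)

section Generic

variable {k : Type} [CommRing k] {G₀ G : Type} [Group G₀] [Group G] {W : Type} [AddCommGroup W]
  [Module k W]

/-- Functions on a `G`-set as a representation of a group mapping to `G`. -/
def twistPerm (q : G₀ →* G) (σ : Representation k G₀ W) (X : Type) [MulAction G X] :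
    Representation k G₀ (X → W) where
  toFun g :=
    { toFun := fun f x => σ g (f ((q g)⁻¹ • x))
      map_add' := fun f f' => by ext; simp
      map_smul' := fun a f => by ext; simp }
  map_one' := by ext; simp
  map_mul' g h := by ext; simp [mul_smul]

theorem twistPerm_apply (q : G₀ →* G) (σ : Representation k G₀ W) (X : Type) [MulAction G X]
    (g : G₀) (f : X → W) (x : X) : twistPerm q σ X g f x = σ g (f ((q g)⁻¹ • x)) := rfl

/-- The product of a family of representations. -/
def piRep {ι : Type} {V : ι → Type} [∀ i, AddCommGroup (V i)] [∀ i, Module k (V i)]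
    (τ : ∀ i, Representation k G₀ (V i)) : Representation k G₀ (∀ i, V i) where
  toFun g := LinearMap.pi fun i => τ i g ∘ₗ LinearMap.proj i
  map_one' := LinearMap.ext fun v => funext fun i => by simp
  map_mul' g h := LinearMap.ext fun v => funext fun i => by simp

theorem piRep_apply {ι : Type} {V : ι → Type} [∀ i, AddCommGroup (V i)] [∀ i, Module k (V i)]
    (τ : ∀ i, Representation k G₀ (V i)) (g : G₀) (v : ∀ i, V i) (i : ι) :
    piRep τ g v i = τ i g (v i) := rfl

/-- Additive maps out of a module over the integral group algebra. -/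
def homRep (q : G₀ →* G) (σ : Representation k G₀ W) (A : Type) [AddCommGroup A]
    [Module (MonoidAlgebra ℤ G) A] : Representation k G₀ (A →+ W) where
  toFun g :=
    { toFun := fun φ => (σ g).toAddMonoidHom.comp
        (φ.comp (DistribSMul.toAddMonoidHom A (MonoidAlgebra.of ℤ G (q g)⁻¹)))
      map_add' := fun φ ψ => by ext; simp
      map_smul' := fun a φ => by ext; simp }
  map_one' := by
    refine LinearMap.ext fun φ => AddMonoidHom.ext fun a => ?_
    show σ 1 (φ (MonoidAlgebra.of ℤ G (q 1)⁻¹ • a)) = φ a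
    rw [map_one, map_one, inv_one, map_one, one_smul]
    rfl
  map_mul' g h := by
    refine LinearMap.ext fun φ => AddMonoidHom.ext fun a => ?_
    show σ (g * h) (φ (MonoidAlgebra.of ℤ G (q (g * h))⁻¹ • a)) =
      σ g (σ h (φ (MonoidAlgebra.of ℤ G (q h)⁻¹ • MonoidAlgebra.of ℤ G (q g)⁻¹ • a)))
    rw [map_mul, map_mul, mul_inv_rev, map_mul, mul_smul]
    rfl

theorem homRep_apply (q : G₀ →* G) (σ : Representation k G₀ W) (A : Type) [AddCommGroup A]
    [Module (MonoidAlgebra ℤ G) A] (g : G₀) (φ : A →+ W) (a : A) :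
    homRep q σ A g φ a = σ g (φ (MonoidAlgebra.of ℤ G (q g)⁻¹ • a)) := rfl

/-- The stabilised vectors of a normal subgroup form a subrepresentation. -/
def fixedSub (σ : Representation k G₀ W) (M : Subgroup G₀) : Submodule k W where
  carrier := {w | ∀ m ∈ M, σ m w = w}
  add_mem' {a b} ha hb m hm := by rw [map_add, ha m hm, hb m hm]
  zero_mem' m hm := map_zero _
  smul_mem' c w hw m hm := by rw [map_smul, hw m hm]

theorem fixedSub_le_comap (σ : Representation k G₀ W) (M : Subgroup G₀) (hM : M.Normal) (g : G₀) :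
    fixedSub σ M ≤ (fixedSub σ M).comap (σ g) := fun w hw m hm => by
  show σ m (σ g w) = σ g w
  conv_rhs => rw [← hw _ (hM.conj_mem m hm g⁻¹)]
  rw [← Module.End.mul_apply, ← Module.End.mul_apply, ← map_mul, ← map_mul]
  simp [mul_assoc]

end Generic

section Formula

variable {p : ℕ} [Fact p.Prime] {S : Finset Nat.Primes} {N : Subgroup Γ}

variable (hN : IsSplittingLevel p N) (hS : (levelsS S).mem N) (hadd : DefectAdditive p S N)
  (hbase : BaseCase p S N)

include hN hS hbase in
/-- The cohomology is finite above `N`. -/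
theorem finiteCoh_of {H : Subgroup Γ} (hNH : N ≤ H) {W : Type} [AddCommGroup W]
    [Module (ZMod p) W] [FiniteDimensional (ZMod p) W] (σ : Representation (ZMod p) ↥H W)
    (hσ : TrivialOn H σ N) : FiniteCoh S H σ := by
  have := hN.normal
  have hNn : (N.subgroupOf H).Normal := Subgroup.normal_subgroupOf
  have hNm : (levelsSOn H S).mem (N.subgroupOf H) := ⟨N, hS, le_rfl⟩
  have : Finite (↥H ⧸ N.subgroupOf H) := finite_quotient hNm
  set X := ↥H ⧸ N.subgroupOf H
  suffices key : ∀ (W : Type) [AddCommGroup W] [Module (ZMod p) W] [FiniteDimensional (ZMod p) W]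
      (σ : Representation (ZMod p) ↥H W), TrivialOn H σ N →
      (FiniteDimensional (ZMod p) (H2 (levelsSOn H S) (permRep σ X)) ∧
        FiniteDimensional (ZMod p) (H1 (levelsSOn H S) σ)) ∧
      ∃ (Q : Type) (_ : AddCommGroup Q) (_ : Module (ZMod p) Q)
        (_ : FiniteDimensional (ZMod p) Q) (τ : Representation (ZMod p) ↥H Q),
        TrivialOn H τ N ∧ Nonempty (Ses σ (permRep σ X) τ) by
    obtain ⟨⟨h2, h1⟩, Q, _, _, _, τ, hτ, ⟨E⟩⟩ := key W σ hσ
    refine ⟨h1, ?_⟩
    have := (key Q τ hτ).1.2
    have hc : IsCtsRep (levelsSOn H S) (permRep σ X) :=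
      isCtsRep_permRep (isCtsRep_of_trivialOn hS hσ) hNm
    have : Module.Finite (ZMod p) (LinearMap.ker (E.mi (levelsSOn H S)).map₂) := by
      rw [E.ker_map₂_i hc]; infer_instance
    have : Module.Finite (ZMod p)
        (H2 (levelsSOn H S) σ ⧸ LinearMap.ker (E.mi (levelsSOn H S)).map₂) :=
      Module.Finite.equiv (LinearMap.quotKerEquivRange (E.mi (levelsSOn H S)).map₂).symm
    exact Module.Finite.of_submodule_quotient (LinearMap.ker (E.mi (levelsSOn H S)).map₂)
  intro W _ _ _ σ hσ
  have hσc := isCtsRep_of_trivialOn hS hσ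
  obtain ⟨⟨h1, h2⟩, -⟩ := hbase N N le_rfl le_rfl
    (by rw [Subgroup.subgroupOf_self]; exact Subgroup.normal_of_characteristic _)
    (by rw [Subgroup.subgroupOf_self, Subgroup.index_top]; exact Fact.out (p := p.Prime) |>.not_dvd_one)
    hN.mu W (σ.comp (Subgroup.inclusion hNH)) fun x hx => hσ _ hx
  have f1 : FiniteDimensional (ZMod p) (H1 (levelsSOn H S) (permRep σ X)) :=
    Module.Finite.equiv (shapiroSub₁ hNH σ (levelsS S) hσc hNm).symm
  have f2 : FiniteDimensional (ZMod p) (H2 (levelsSOn H S) (permRep σ X)) :=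
    Module.Finite.equiv (shapiroSub₂ hNH σ (levelsS S) hσc hNm).symm
  have hc : IsCtsRep (levelsSOn H S) (permRep σ X) := isCtsRep_permRep hσc hNm
  let R : Submodule (ZMod p) (X → W) := LinearMap.range (constMap σ X).toLinearMap
  have hR : ∀ g, R ≤ R.comap (permRep σ X g) := fun g => by
    rintro _ ⟨w, rfl⟩
    exact ⟨σ g w, (constMap σ X).isIntertwining _ _ g w⟩
  let τ := (permRep σ X).quotient R hR
  have htriv : TrivialOn H τ N := fun x hx => LinearMap.ext fun c => by
    induction c using Submodule.Quotient.induction_on with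
    | _ f =>
      show Submodule.Quotient.mk (permRep σ X x f) = _
      congr 1
      funext y
      rw [permRep_apply, hσ x hx,
        smul_eq_self_of_normal hNn le_rfl ((N.subgroupOf H).inv_mem hx) y]
      rfl
  obtain ⟨E, -, -⟩ := exists_ses (constMap σ X)
    (LinearMap.intertwiningMap_of_isIntertwiningMap (permRep σ X) τ R.mkQ fun g f => rfl)
    (fun a b h => congrFun h (QuotientGroup.mk 1)) R.mkQ_surjective
    (fun b => Submodule.Quotient.mk_eq_zero R)
  refine ⟨⟨f2, ?_⟩, _, inferInstance, inferInstance, inferInstance, τ, htriv, ⟨E⟩⟩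
  have : Module.Finite (ZMod p) (LinearMap.ker (E.mi (levelsSOn H S)).map₁) := by
    rw [E.ker_map₁_i hc]; infer_instance
  have : Module.Finite (ZMod p)
      (H1 (levelsSOn H S) σ ⧸ LinearMap.ker (E.mi (levelsSOn H S)).map₁) :=
    Module.Finite.equiv (LinearMap.quotKerEquivRange (E.mi (levelsSOn H S)).map₁).symm
  exact Module.Finite.of_submodule_quotient (LinearMap.ker (E.mi (levelsSOn H S)).map₁)

section Defect

variable {H : Subgroup Γ} (hNH : N ≤ H) {A B C : Type} [AddCommGroup A] [Module (ZMod p) A]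
  [AddCommGroup B] [Module (ZMod p) B] [AddCommGroup C] [Module (ZMod p) C]
  [FiniteDimensional (ZMod p) B] {α : Representation (ZMod p) ↥H A}
  {β : Representation (ZMod p) ↥H B} {γ : Representation (ZMod p) ↥H C}

include hN hS hadd hbase hNH in
/-- Additivity of the defect on an exact sequence. -/
theorem defect_add (hβ : TrivialOn H β N) (i : IntertwiningMap α β) (j : IntertwiningMap β γ)
    (hi : Function.Injective i) (hj : Function.Surjective j)
    (hex : ∀ b, j b = 0 ↔ ∃ a, i a = b) :
    eulerDefect S H β = eulerDefect S H α + eulerDefect S H γ := by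
  obtain ⟨E, -, -⟩ := exists_ses i j hi hj hex
  have : FiniteDimensional (ZMod p) A := FiniteDimensional.of_injective i.toLinearMap hi
  have : FiniteDimensional (ZMod p) C := Module.Finite.of_surjective j.toLinearMap hj
  have hα : TrivialOn H α N := fun x hx => LinearMap.ext fun a => hi (by
    rw [i.isIntertwining, hβ x hx]; rfl)
  have hγ : TrivialOn H γ N := fun x hx => LinearMap.ext fun c => by
    obtain ⟨b, rfl⟩ := hj c
    rw [← j.isIntertwining, hβ x hx]; rfl
  exact (hadd H hNH A B C α β γ hβ E (finiteCoh_of hN hS hbase hNH α hα)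
    (finiteCoh_of hN hS hbase hNH γ hγ)).2

include hN hS hadd hbase hNH in
/-- A zero module has no defect. -/
theorem defect_zero [Subsingleton B] : eulerDefect S H β = 0 := by
  have h := defect_add hN hS hadd hbase hNH (α := β) (β := β) (γ := β)
    (fun x _ => LinearMap.ext fun b => Subsingleton.elim _ _)
    (LinearMap.intertwiningMap_of_isIntertwiningMap _ _ LinearMap.id fun _ _ => rfl)
    (LinearMap.intertwiningMap_of_isIntertwiningMap _ _ LinearMap.id fun _ _ => rfl)
    (fun _ _ h => h) (fun b => ⟨b, rfl⟩)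
    fun b => ⟨fun _ => ⟨b, rfl⟩, fun _ => Subsingleton.elim _ _⟩
  omega

include hN hS hadd hbase hNH in
/-- Isomorphic modules have the same defect. -/
theorem defect_congr (hβ : TrivialOn H β N) (e : A ≃ₗ[ZMod p] B)
    (he : ∀ g a, e (α g a) = β g (e a)) : eulerDefect S H α = eulerDefect S H β := by
  have h := defect_add hN hS hadd hbase hNH (γ := (1 : Representation (ZMod p) ↥H PUnit)) hβ
    (LinearMap.intertwiningMap_of_isIntertwiningMap α β e.toLinearMap he)
    (LinearMap.intertwiningMap_of_isIntertwiningMap β _ 0 fun _ _ => Subsingleton.elim _ _)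
    e.injective (fun _ => ⟨0, Subsingleton.elim _ _⟩)
    fun b => ⟨fun _ => ⟨e.symm b, e.apply_symm_apply b⟩, fun _ => Subsingleton.elim _ _⟩
  rw [defect_zero hN hS hadd hbase hNH (β := (1 : Representation (ZMod p) ↥H PUnit))] at h
  omega

end Defect

include hN hS hadd hbase in
/-- The defect of a finite product. -/
theorem defect_pi {H : Subgroup Γ} (hNH : N ≤ H) {ι : Type} [Fintype ι] (V : ι → Type)
    [∀ i, AddCommGroup (V i)] [∀ i, Module (ZMod p) (V i)]
    [∀ i, FiniteDimensional (ZMod p) (V i)] (τ : ∀ i, Representation (ZMod p) ↥H (V i))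
    (hτ : ∀ i, TrivialOn H (τ i) N) :
    eulerDefect S H (piRep τ) = ∑ i, eulerDefect S H (τ i) := by
  classical
  have htriv : ∀ (κ : Type) (e : κ → ι), TrivialOn H (piRep fun j => τ (e j)) N := fun κ e x hx =>
    LinearMap.ext fun v => funext fun j => by rw [piRep_apply, hτ (e j) x hx]; rfl
  suffices key : ∀ (n : ℕ) (e : Fin n → ι),
      eulerDefect S H (piRep fun j => τ (e j)) = ∑ j, eulerDefect S H (τ (e j)) by
    let e := (Fintype.equivFin ι).symm
    rw [← e.sum_comp, ← key _ e]
    exact defect_congr hN hS hadd hbase hNH (htriv _ e)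
      (LinearEquiv.piCongrLeft (ZMod p) V e).symm fun g v => rfl
  intro n
  induction n with
  | zero => intro e; simpa using defect_zero hN hS hadd hbase hNH
  | succ n ih =>
    intro e
    rw [Fin.sum_univ_succ, ← ih fun j => e j.succ]
    refine defect_add hN hS hadd hbase hNH (htriv _ e)
      (LinearMap.intertwiningMap_of_isIntertwiningMap _ _
        (LinearMap.single (ZMod p) (fun j => V (e j)) 0) fun g a => funext fun j => ?_)
      (LinearMap.intertwiningMap_of_isIntertwiningMap _ _
        (LinearMap.pi fun j : Fin n => LinearMap.proj j.succ) fun g v => rfl)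
      (fun a b h => by simpa using congrFun h 0) (fun v => ⟨Fin.cons 0 v, funext fun j => ?_⟩)
      fun b => ⟨fun h => ⟨b 0, funext fun j => ?_⟩, ?_⟩
    · refine Fin.cases ?_ (fun j => ?_) j <;> simp [piRep_apply, Fin.succ_ne_zero]
    · show (Fin.cons 0 v : ∀ j, V (e j)) j.succ = v j
      exact Fin.cons_succ _ _ j
    · show (Pi.single 0 (b 0) : ∀ j, V (e j)) j = b j
      refine Fin.cases ?_ (fun i => ?_) j
      · simp
      · rw [Pi.single_eq_of_ne (Fin.succ_ne_zero i)]
        exact (congrFun h i).symm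
    · rintro ⟨a, rfl⟩
      funext j
      show (Pi.single 0 a : ∀ j, V (e j)) j.succ = 0
      exact Pi.single_eq_of_ne (Fin.succ_ne_zero j) _

include hN hS hadd hbase in
/-- The formula for a group cyclic modulo `N`, by devissage along the `p`-part. -/
theorem defect_cyclic {C : Subgroup Γ} (hNC : N ≤ C)
    (hcyc : ∃ a : ↥C, ∀ x : ↥C, ∃ n : ℕ, ((x⁻¹ * a ^ n : ↥C) : Γ) ∈ N) {W : Type} [AddCommGroup W]
    [Module (ZMod p) W] [FiniteDimensional (ZMod p) W] (σ : Representation (ZMod p) ↥C W)
    (hσ : TrivialOn C σ N) : eulerDefect S C σ = 0 := by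
  have hpp : p.Prime := Fact.out
  have := hN.normal
  have hNn : (N.subgroupOf C).Normal := Subgroup.normal_subgroupOf
  have : Finite (↥C ⧸ N.subgroupOf C) := finite_quotient (L := levelsSOn C S) ⟨N, hS, le_rfl⟩
  obtain ⟨a, ha⟩ := hcyc
  have hcyc : IsCyclic (↥C ⧸ N.subgroupOf C) :=
    ⟨⟨QuotientGroup.mk a, fun z => by
      induction z using QuotientGroup.induction_on with
      | H x =>
        obtain ⟨n, hn⟩ := ha x
        exact ⟨n, by
          show (QuotientGroup.mk a) ^ (n : ℤ) = _
          rw [zpow_natCast, ← QuotientGroup.mk_pow]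
          exact ((QuotientGroup.eq (s := N.subgroupOf C)).mpr hn).symm⟩⟩⟩
  let P : Sylow p (↥C ⧸ N.subgroupOf C) := Classical.arbitrary _
  have : (P : Subgroup (↥C ⧸ N.subgroupOf C)).Normal :=
    ⟨fun x hx g => by
      obtain ⟨b, hb⟩ := hcyc
      obtain ⟨i, rfl⟩ := hb g
      obtain ⟨j, rfl⟩ := hb x
      simpa [← zpow_neg, ← zpow_add, add_comm i] using hx⟩
  set M₀ : Subgroup ↥C := (P : Subgroup (↥C ⧸ N.subgroupOf C)).comap (QuotientGroup.mk' _)
    with hM₀
  have hM₀n : M₀.Normal := Subgroup.Normal.comap inferInstance _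
  have hpow : ∀ m ∈ M₀, ∃ k : ℕ, ((m ^ p ^ k : ↥C) : Γ) ∈ N := fun m hm => by
    obtain ⟨k, hk⟩ := P.2 ⟨_, hm⟩
    refine ⟨k, Subgroup.mem_subgroupOf.mp ((QuotientGroup.eq_one_iff (N := N.subgroupOf C) _).mp ?_)⟩
    rw [QuotientGroup.mk_pow]
    exact congrArg Subtype.val hk
  set M := M₀.map C.subtype
  have hMM₀ : M.subgroupOf C = M₀ := Subgroup.comap_map_eq_self_of_injective C.subtype_injective _
  have hNM : N ≤ M := fun x hx => ⟨⟨x, hNC hx⟩, by
    show QuotientGroup.mk _ ∈ (P : Subgroup (↥C ⧸ N.subgroupOf C))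
    rw [(QuotientGroup.eq_one_iff (N := N.subgroupOf C) (⟨x, hNC hx⟩ : ↥C)).mpr hx]
    exact one_mem _, rfl⟩
  have hMC : M ≤ C := Subgroup.map_subtype_le _
  have hidx : ¬ p ∣ (M.subgroupOf C).index := by
    rw [hMM₀, hM₀, Subgroup.index_comap_of_surjective _ (QuotientGroup.mk'_surjective _)]
    exact P.not_dvd_index
  have hmu : ∀ m ∈ M, cycloChar p m = 1 := by
    rintro _ ⟨m, hm, rfl⟩
    obtain ⟨k, hk⟩ := hpow m hm
    have h := hN.mu _ hk
    rw [SubgroupClass.coe_pow, map_pow, Units.ext_iff, Units.val_pow_eq_pow_val,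
      ZMod.pow_card_pow, Units.val_one] at h
    exact Units.ext h
  suffices key : ∀ (n : ℕ) (W : Type) [AddCommGroup W] [Module (ZMod p) W]
      [FiniteDimensional (ZMod p) W] (σ : Representation (ZMod p) ↥C W), TrivialOn C σ N →
      finrank (ZMod p) W ≤ n → eulerDefect S C σ = 0 from key _ W σ hσ le_rfl
  intro n
  induction n with
  | zero =>
    intro W _ _ _ σ _ hW
    have : Subsingleton W := finrank_zero_iff.mp (Nat.le_zero.mp hW)
    exact defect_zero hN hS hadd hbase hNC
  | succ n ih =>
    intro W _ _ _ σ hσ hW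
    by_cases htop : fixedSub σ M₀ = ⊤
    · refine (hbase C M hNM hMC (hMM₀ ▸ hM₀n) hidx hmu W σ fun x hx => LinearMap.ext fun w => ?_).2
      exact (show w ∈ fixedSub σ M₀ from htop ▸ Submodule.mem_top) x (hMM₀ ▸ hx)
    have : Finite W := Module.finite_of_finite (ZMod p)
    have : Nontrivial W := by
      rcases subsingleton_or_nontrivial W with h | h
      · exact absurd (Subsingleton.elim _ _) htop
      · exact h
    obtain ⟨w, hw0, hw⟩ : ∃ w : W, w ≠ 0 ∧ w ∈ fixedSub σ M₀ := by
      let φ : ↥M₀ →* (W →ₗ[ZMod p] W)ˣ := σ.asGroupHom.comp M₀.subtype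
      let : MulAction ↥φ.range W :=
        { smul := fun u w => ((u : (W →ₗ[ZMod p] W)ˣ) : W →ₗ[ZMod p] W) w
          one_smul := fun w => rfl
          mul_smul := fun u v w => rfl }
      have hG : IsPGroup p ↥φ.range := by
        rintro ⟨_, m, rfl⟩
        obtain ⟨k, hk⟩ := hpow m m.2
        refine ⟨k, Subtype.ext (Units.ext ?_)⟩
        show ((φ m ^ p ^ k : (W →ₗ[ZMod p] W)ˣ) : W →ₗ[ZMod p] W) = 1
        rw [Units.val_pow_eq_pow_val]
        show (σ (m : ↥C)) ^ p ^ k = 1
        rw [← map_pow]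
        exact hσ _ hk
      have hcard : p ∣ Nat.card W := by
        rw [Module.natCard_eq_pow_finrank (K := ZMod p), Nat.card_zmod]
        exact dvd_pow_self p Module.finrank_pos.ne'
      obtain ⟨b, hb, hb0⟩ := hG.exists_fixed_point_of_prime_dvd_card_of_fixed_point W hcard
        (a := 0) fun u => map_zero _
      exact ⟨b, Ne.symm hb0, fun m hm => hb ⟨φ ⟨m, hm⟩, ⟨m, hm⟩, rfl⟩⟩
    let A := fixedSub σ M₀
    have hA := fixedSub_le_comap σ M₀ hM₀n
    have hlt : finrank (ZMod p) (W ⧸ A) ≤ n := by
      have h1 := A.finrank_quotient_add_finrank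
      have : Nontrivial A := ⟨⟨⟨w, hw⟩, 0, fun h => hw0 (congrArg Subtype.val h)⟩⟩
      have h2 := Module.finrank_pos (R := ZMod p) (M := A)
      omega
    have hAtriv : TrivialOn C (σ.subrepresentation A hA) M := fun x hx =>
      LinearMap.ext fun v => Subtype.ext (v.2 x (hMM₀ ▸ hx))
    have hQtriv : TrivialOn C (σ.quotient A hA) N := fun x hx => LinearMap.ext fun c => by
      induction c using Submodule.Quotient.induction_on with
      | _ v =>
        show Submodule.Quotient.mk (σ x v) = _
        rw [hσ x hx]; rfl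
    rw [defect_add hN hS hadd hbase hNC (α := σ.subrepresentation A hA) (γ := σ.quotient A hA) hσ
      (LinearMap.intertwiningMap_of_isIntertwiningMap _ _ A.subtype fun _ _ => rfl)
      (LinearMap.intertwiningMap_of_isIntertwiningMap _ _ A.mkQ fun _ _ => rfl)
      Subtype.val_injective A.mkQ_surjective
      (fun b => (Submodule.Quotient.mk_eq_zero A).trans
        ⟨fun h => ⟨⟨b, h⟩, rfl⟩, fun ⟨a, ha⟩ => ha ▸ a.2⟩),
      (hbase C M hNM hMC (hMM₀ ▸ hM₀n) hidx hmu A _ hAtriv).2, ih _ _ hQtriv hlt, add_zero]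

section Artin

variable {H : Subgroup Γ} {W : Type} [AddCommGroup W] [Module (ZMod p) W]
  (σ : Representation (ZMod p) ↥H W) {G : Type} [Group G] (q : ↥H →* G)

theorem trivialOn_twistPerm (hσ : TrivialOn H σ N) (hq : ∀ x : ↥H, (x : Γ) ∈ N → q x = 1)
    (X : Type) [MulAction G X] : TrivialOn H (twistPerm q σ X) N := fun x hx =>
  LinearMap.ext fun f => funext fun y => by
    rw [twistPerm_apply, hσ x hx, hq x hx, inv_one, one_smul]; rfl

theorem trivialOn_homRep (hσ : TrivialOn H σ N) (hq : ∀ x : ↥H, (x : Γ) ∈ N → q x = 1)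
    (A : Type) [AddCommGroup A] [Module (MonoidAlgebra ℤ G) A] :
    TrivialOn H (homRep q σ A) N := fun x hx =>
  LinearMap.ext fun φ => AddMonoidHom.ext fun a => by
    rw [homRep_apply, hσ x hx, hq x hx, inv_one, map_one, one_smul]; rfl

variable (hNH : N ≤ H) [FiniteDimensional (ZMod p) W] (hσ : TrivialOn H σ N)
  (hq : ∀ x : ↥H, (x : Γ) ∈ N → q x = 1)

include hN hS hadd hbase hNH hσ hq in
/-- The defect of the maps out of a module is additive. -/
theorem isAdditiveMod_defect :
    IsAdditiveMod p (fun A [AddCommGroup A] [Module (MonoidAlgebra ℤ G) A] =>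
      eulerDefect S H (homRep q σ A)) := by
  intro A B C _ _ _ _ _ _ hB hpB i j hi hj hex
  have : Finite W := Module.finite_of_finite (ZMod p)
  have := hB
  have : Finite C := Finite.of_surjective j hj
  have : Finite A := Finite.of_injective i hi
  have : FiniteDimensional (ZMod p) (B →+ W) :=
    haveI : Finite (B →+ W) := Finite.of_injective _ DFunLike.coe_injective
    Module.Finite.of_finite
  have hpA : ∀ a : A, p • a = 0 := fun a => hi (by rw [map_nsmul, map_zero, hpB])
  let : Module (ZMod p) A := AddCommGroup.zmodModule hpA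
  let : Module (ZMod p) B := AddCommGroup.zmodModule hpB
  let i' : A →ₗ[ZMod p] B := i.toAddMonoidHom.toZModLinearMap p
  obtain ⟨r, hr⟩ := i'.exists_leftInverse_of_injective (LinearMap.ker_eq_bot.mpr hi)
  show eulerDefect S H (homRep q σ B) =
    eulerDefect S H (homRep q σ A) + eulerDefect S H (homRep q σ C)
  rw [defect_add hN hS hadd hbase hNH (α := homRep q σ C) (γ := homRep q σ A)
    (trivialOn_homRep σ q hσ hq B)
    (LinearMap.intertwiningMap_of_isIntertwiningMap _ _
      { toFun := fun φ : C →+ W => φ.comp j.toAddMonoidHom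
        map_add' := fun _ _ => rfl
        map_smul' := fun _ _ => rfl } fun g φ => AddMonoidHom.ext fun b => by
        show σ g (φ (MonoidAlgebra.of ℤ G (q g)⁻¹ • j b)) =
          σ g (φ (j (MonoidAlgebra.of ℤ G (q g)⁻¹ • b)))
        exact congrArg (fun c => σ g (φ c)) (j.map_smul _ b).symm)
    (LinearMap.intertwiningMap_of_isIntertwiningMap _ _
      { toFun := fun φ : B →+ W => φ.comp i.toAddMonoidHom
        map_add' := fun _ _ => rfl
        map_smul' := fun _ _ => rfl } fun g φ => AddMonoidHom.ext fun a => by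
        show σ g (φ (MonoidAlgebra.of ℤ G (q g)⁻¹ • i a)) =
          σ g (φ (i (MonoidAlgebra.of ℤ G (q g)⁻¹ • a)))
        exact congrArg (fun c => σ g (φ c)) (i.map_smul _ a).symm)
    (fun φ ψ h => AddMonoidHom.ext fun c => by
      obtain ⟨b, rfl⟩ := hj c
      exact DFunLike.congr_fun h b)
    (fun φ => ⟨φ.comp r.toAddMonoidHom, AddMonoidHom.ext fun a => ?_⟩)
    (fun φ => ⟨fun h => ?_, ?_⟩), add_comm]
  · exact congrArg φ (LinearMap.congr_fun hr a)
  · have hk : j.toAddMonoidHom.ker ≤ φ.ker := fun b hb => by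
      obtain ⟨a, rfl⟩ := (hex b).mp hb
      exact DFunLike.congr_fun h a
    refine ⟨j.toAddMonoidHom.liftOfSurjective hj ⟨φ, hk⟩, AddMonoidHom.ext fun b => ?_⟩
    exact j.toAddMonoidHom.liftOfRightInverse_comp_apply _ (Function.rightInverse_surjInv hj) ⟨φ, hk⟩ b
  · rintro ⟨ψ, rfl⟩
    refine AddMonoidHom.ext fun a => ?_
    show ψ (j (i a)) = 0
    rw [(hex (i a)).mpr ⟨a, rfl⟩, map_zero]

include hN hS hadd hbase hNH hσ hq in
/-- The maps out of a reduced permutation module are the functions on the set. -/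
theorem defect_modP_perm (X : Type) [Fintype X] [MulAction G X] :
    eulerDefect S H (homRep q σ (ModP (MonoidAlgebra ℤ G) p (permFun ℤ G X).asModule)) =
      eulerDefect S H (twistPerm q σ X) := by
  classical
  let E := (permFun ℤ G X).asModuleEquiv
  let R := pMul (MonoidAlgebra ℤ G) p (permFun ℤ G X).asModule
  let δ : X → ModP (MonoidAlgebra ℤ G) p (permFun ℤ G X).asModule := fun x =>
    Submodule.Quotient.mk (E.symm (Pi.single x (1 : ℤ)))
  let T : ((ModP (MonoidAlgebra ℤ G) p (permFun ℤ G X).asModule) →+ W) →ₗ[ZMod p] X → W :=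
    { toFun := fun φ x => φ (δ x)
      map_add' := fun _ _ => rfl
      map_smul' := fun _ _ => rfl }
  have hsingle : ∀ (x : X) (n : ℤ), (Pi.single x n : X → ℤ) = n • Pi.single x (1 : ℤ) := fun x n =>
    by rw [← Pi.single_smul, smul_eq_mul, mul_one]
  have hinj : Function.Injective T := fun φ ψ h => AddMonoidHom.ext fun c => by
    induction c using Submodule.Quotient.induction_on with
    | _ a =>
      rw [← E.symm_apply_apply a, ← Finset.univ_sum_single (E a), map_sum]
      simp only [hsingle _ ((E a) _), map_zsmul]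
      rw [← Submodule.mkQ_apply, map_sum, map_sum, map_sum]
      refine Finset.sum_congr rfl fun x _ => ?_
      rw [map_zsmul, map_zsmul, map_zsmul]
      exact congrArg _ (congrFun h x)
  have hsurj : Function.Surjective T := fun u => by
    let ev : (permFun ℤ G X).asModule →+ W :=
      AddMonoidHom.mk' (fun a => ∑ x, E a x • u x) fun a b => by
        simp [add_smul, Finset.sum_add_distrib]
    have hker : R.toAddSubgroup ≤ ev.ker := fun a ha => by
      obtain ⟨b, rfl⟩ := mem_pMul.mp ha
      rw [AddMonoidHom.mem_ker, map_nsmul]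
      exact ZModModule.char_nsmul_eq_zero p _
    refine ⟨QuotientAddGroup.lift R.toAddSubgroup ev hker, funext fun x => ?_⟩
    show ev (E.symm (Pi.single x (1 : ℤ))) = u x
    show ∑ y, E (E.symm (Pi.single x (1 : ℤ))) y • u y = u x
    rw [E.apply_symm_apply, Finset.sum_eq_single x]
    · simp
    · intro y _ hy; simp [hy]
    · simp
  refine defect_congr hN hS hadd hbase hNH (trivialOn_twistPerm σ q hσ hq X)
    (LinearEquiv.ofBijective T ⟨hinj, hsurj⟩) fun g φ => funext fun x => ?_
  show σ g (φ (MonoidAlgebra.of ℤ G (q g)⁻¹ • δ x)) = σ g (φ (δ ((q g)⁻¹ • x)))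
  simp only [δ, ← Submodule.Quotient.mk_smul, E]
  rw [← Representation.asModuleEquiv_symm_map_rho, permFun_single]

include hN hS hadd hbase hNH hσ hq in
/-- The defect of a permutation module on a disjoint union of coset spaces. -/
theorem defect_cosetSum {ι : Type} [Fintype ι] [Finite G] (c : ι → Subgroup G) :
    eulerDefect S H (twistPerm q σ (CosetSum c)) =
      ∑ i, eulerDefect S H (twistPerm q σ (G ⧸ c i)) := by
  rw [← defect_pi hN hS hadd hbase hNH _ _ fun i => trivialOn_twistPerm σ q hσ hq (G ⧸ c i)]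
  exact defect_congr hN hS hadd hbase hNH
    (fun x hx => LinearMap.ext fun v => funext fun i => by
      rw [piRep_apply, trivialOn_twistPerm σ q hσ hq (G ⧸ c i) x hx]; rfl)
    { toFun := fun f i x => f ⟨i, x⟩
      invFun := fun v z => v z.1 z.2
      map_add' := fun _ _ => rfl
      map_smul' := fun _ _ => rfl } fun g f => rfl

include hN hS hadd hbase hNH hσ hq in
/-- The formula for the permutation module of a cyclic subgroup. -/
theorem defect_coset_cyclic [Finite G] (hsurj : Function.Surjective q)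
    (hker : ∀ x : ↥H, q x = 1 → (x : Γ) ∈ N) (c : Subgroup G) (hc : IsCyclic c) :
    eulerDefect S H (twistPerm q σ (G ⧸ c)) = 0 := by
  set C := (c.comap q).map H.subtype with hCdef
  have hCH : C ≤ H := Subgroup.map_subtype_le _
  have hC : C.subgroupOf H = c.comap q :=
    Subgroup.comap_map_eq_self_of_injective H.subtype_injective _
  have hNC : N ≤ C := fun x hx => ⟨⟨x, hNH hx⟩, by
    show q _ ∈ c
    rw [hq _ hx]; exact one_mem _, rfl⟩
  have hCm : (levelsS S).mem C := (levelsS S).mono hS hNC
  have : Finite (Γ ⧸ C) := finite_quotient hCm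
  have hCm' : (levelsSOn H S).mem (C.subgroupOf H) := ⟨C, hCm, le_rfl⟩
  have : Finite (↥H ⧸ C.subgroupOf H) := finite_quotient hCm'
  have hσ' : TrivialOn C (σ.comp (Subgroup.inclusion hCH)) N := fun x hx => hσ _ hx
  have h0 : eulerDefect S C (σ.comp (Subgroup.inclusion hCH)) = 0 := by
    refine defect_cyclic hN hS hadd hbase hNC ?_ _ hσ'
    obtain ⟨⟨γ, hγ⟩, hgen⟩ := hc
    obtain ⟨a, rfl⟩ := hsurj γ
    refine ⟨⟨a, ⟨a, hγ, rfl⟩⟩, fun x => ?_⟩
    obtain ⟨_, y, hy, rfl⟩ := x
    have : Finite c := inferInstance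
    obtain ⟨n, hn⟩ := (isOfFinOrder_of_finite _).mem_powers_iff_mem_zpowers.mpr (hgen ⟨q y, hy⟩)
    refine ⟨n, ?_⟩
    show ((y : Γ)⁻¹ * (a : Γ) ^ n) ∈ N
    refine hker (y⁻¹ * a ^ n) ?_
    rw [map_mul, map_inv, map_pow, inv_mul_eq_one]
    exact (congrArg Subtype.val hn).symm
  rw [← h0]
  let Φ : ↥H ⧸ C.subgroupOf H → G ⧸ c := Quotient.map' q fun a b hab => by
    rw [QuotientGroup.leftRel_apply] at hab ⊢
    rw [← map_inv, ← map_mul]
    exact (hC ▸ hab : a⁻¹ * b ∈ c.comap q)
  have hΦ : Function.Bijective Φ := by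
    constructor
    · rintro ⟨a⟩ ⟨b⟩ hab
      refine Quotient.sound' ?_
      rw [QuotientGroup.leftRel_apply, hC]
      show q (a⁻¹ * b) ∈ c
      rw [map_mul, map_inv]
      exact QuotientGroup.eq.mp hab
    · rintro ⟨y⟩
      obtain ⟨x, rfl⟩ := hsurj y
      exact ⟨QuotientGroup.mk x, rfl⟩
  have htriv : TrivialOn H (permRep σ (↥H ⧸ C.subgroupOf H)) N := fun x hx =>
    LinearMap.ext fun f => funext fun y => by
      have := hN.normal
      rw [permRep_apply, hσ x hx, smul_eq_self_of_normal (N := N.subgroupOf H)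
        Subgroup.normal_subgroupOf (fun z hz => hNC hz) ((N.subgroupOf H).inv_mem hx) y]
      rfl
  have hstep : eulerDefect S H (twistPerm q σ (G ⧸ c)) =
      eulerDefect S H (permRep σ (↥H ⧸ C.subgroupOf H)) := by
    refine defect_congr hN hS hadd hbase hNH htriv
      (LinearEquiv.funCongrLeft (ZMod p) W (Equiv.ofBijective Φ hΦ)) fun g f => funext fun y => ?_
    induction y using QuotientGroup.induction_on with
    | H y =>
      show σ g (f ((q g)⁻¹ • (QuotientGroup.mk (q y) : G ⧸ c))) =
        σ g (f (Φ (g⁻¹ • (QuotientGroup.mk y : ↥H ⧸ C.subgroupOf H))))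
      rw [MulAction.Quotient.smul_coe, MulAction.Quotient.smul_coe]
      show _ = σ g (f (QuotientGroup.mk (q (g⁻¹ * y))))
      rw [map_mul, map_inv, smul_eq_mul]
  have hσc := isCtsRep_of_trivialOn hS hσ
  rw [hstep, eulerDefect, eulerDefect, chiS, chiS, twiceArch_perm H σ hCH,
    (shapiroSub₀ hCH σ (levelsS S)).finrank_eq,
    (shapiroSub₁ hCH σ (levelsS S) hσc hCm').finrank_eq,
    (shapiroSub₂ hCH σ (levelsS S) hσc hCm').finrank_eq]

include hN hS hadd hbase hNH hσ in
/-- The permutation module of the trivial coset space is the module. -/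
theorem defect_coset_top :
    eulerDefect S H (twistPerm q σ (G ⧸ (⊤ : Subgroup G))) = eulerDefect S H σ := by
  have := QuotientGroup.subsingleton_quotient_top (G := G)
  exact defect_congr hN hS hadd hbase hNH hσ
    { toFun := fun f => f (QuotientGroup.mk 1)
      invFun := fun w _ => w
      map_add' := fun _ _ => rfl
      map_smul' := fun _ _ => rfl
      left_inv := fun f => funext fun x => congrArg f (Subsingleton.elim _ _) } fun g f => by
    show σ g (f _) = σ g (f _)
    rw [Subsingleton.elim ((q g)⁻¹ • (QuotientGroup.mk 1 : G ⧸ (⊤ : Subgroup G)))]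

end Artin

include hN hS hadd hbase in
/-- The formula above `N`. -/
theorem formulaAbove_of : FormulaAbove p S N := by
  intro H hNH W _ _ _ σ hσ
  refine ⟨finiteCoh_of hN hS hbase hNH σ hσ, ?_⟩
  have := hN.normal
  have : (N.subgroupOf H).Normal := Subgroup.normal_subgroupOf
  have : Finite (↥H ⧸ N.subgroupOf H) := finite_quotient (L := levelsSOn H S) ⟨N, hS, le_rfl⟩
  set G := ↥H ⧸ N.subgroupOf H
  let q : ↥H →* G := QuotientGroup.mk' _
  have hq : ∀ x : ↥H, (x : Γ) ∈ N → q x = 1 := fun x hx => (QuotientGroup.eq_one_iff x).mpr hx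
  have hker : ∀ x : ↥H, q x = 1 → (x : Γ) ∈ N := fun x hx => (QuotientGroup.eq_one_iff x).mp hx
  obtain ⟨n, ι, κ, _, _, c, d, hn, hc, hd, hfix⟩ := exists_artin G
  let X := CosetSum (Sum.elim (fun _ : Fin n => (⊤ : Subgroup G)) c)
  let Y := CosetSum d
  obtain ⟨m, φ, hm, hinj, hsurj⟩ := exists_int_isogeny (G := G) (X := X) (Y := Y) hfix
  cases nonempty_fintype X
  cases nonempty_fintype Y
  have : AddGroup.FG (permFun ℤ G X).asModule :=
    Module.Finite.iff_addGroup_fg.mp (inferInstanceAs (Module.Finite ℤ (X → ℤ)))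
  have : AddGroup.FG (permFun ℤ G Y).asModule :=
    Module.Finite.iff_addGroup_fg.mp (inferInstanceAs (Module.Finite ℤ (Y → ℤ)))
  have h := modP_eq_of_injective (isAdditiveMod_defect hN hS hadd hbase σ q hNH hσ hq)
    ((IntertwiningMap.equivLinearMapAsModule _ _) φ) hinj hm
    (fun b => hsurj b) fun b hb => by
      refine ⟨0, ?_⟩
      rw [map_zero]
      refine (funext fun y => ?_ : (0 : Y → ℤ) = b)
      have h1 : p • (b : Y → ℤ) y = 0 := congrFun hb y
      rw [nsmul_eq_mul, mul_eq_zero] at h1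
      exact (h1.resolve_left (Int.natCast_ne_zero.mpr (Fact.out : p.Prime).ne_zero)).symm
  rw [defect_modP_perm hN hS hadd hbase σ q hNH hσ hq X,
    defect_modP_perm hN hS hadd hbase σ q hNH hσ hq Y,
    defect_cosetSum hN hS hadd hbase σ q hNH hσ hq,
    defect_cosetSum hN hS hadd hbase σ q hNH hσ hq, Fintype.sum_sum_type] at h
  have e1 : ∑ a : Fin n, eulerDefect S H
      (twistPerm q σ (G ⧸ Sum.elim (fun _ : Fin n => (⊤ : Subgroup G)) c (Sum.inl a))) =
      n • eulerDefect S H σ :=
    (Finset.sum_eq_card_nsmul fun i _ =>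
      defect_coset_top hN hS hadd hbase σ q hNH hσ).trans (by rw [Finset.card_univ, Fintype.card_fin])
  have e2 : ∑ a : ι, eulerDefect S H
      (twistPerm q σ (G ⧸ Sum.elim (fun _ : Fin n => (⊤ : Subgroup G)) c (Sum.inr a))) = 0 :=
    Finset.sum_eq_zero fun i _ => defect_coset_cyclic hN hS hadd hbase σ q hNH hσ hq
      (QuotientGroup.mk'_surjective _) hker (c i) (hc i)
  have e3 : ∑ a : κ, eulerDefect S H (twistPerm q σ (G ⧸ d a)) = 0 :=
    Finset.sum_eq_zero fun i _ => defect_coset_cyclic hN hS hadd hbase σ q hNH hσ hq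
      (QuotientGroup.mk'_surjective _) hker (d i) (hd i)
  rw [e1, e2, e3] at h
  simpa [hn] using h

end Formula

end Fermat.Agent.GalCoh.Euler
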