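import Fermat.Agent.GalCoh.Euler.Base
import Fermat.Agent.GalCoh.Euler.Reduce

/-!
# The Euler characteristic formula from the class field theoretic inputs
-/

set_option autoImplicit false

noncomputable section

namespace Fermat.Agent.GalCoh

open ExtCitation

local notation "Γ" => (AlgebraicClosure ℚ ≃ₐ[ℚ] AlgebraicClosure ℚ)

variable {p : ℕ} [Fact p.Prime]

/-- The class groups of all fields below a level are generated by primes over a large `S`. -/
theorem exists_genClass_above {N : Subgroup Γ} (hN : IsSplittingLevel p N) :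
    ∃ S₁ : Finset Nat.Primes, ∀ S, S₁ ⊆ S → ∀ M : Subgroup Γ, N ≤ M →
      ∀ [NumberField (Euler.fixF M)], CFT.GenClass (Descent.primesOver S (Euler.fixF M)) := by
  classical
  have hle := finite_setOf_le hN.mem hN.normal
  have hnf : ∀ M : hle.toFinset, NumberField (Euler.fixF M.1) := fun M =>
    Euler.numberField_fixed (fullLevels.mono hN.mem (hle.mem_toFinset.mp M.2))
  choose S₀ hS₀ using fun M : hle.toFinset =>
    haveI := hnf M
    Descent.exists_genClass_primes (Euler.fixF M.1)
  exact ⟨Finset.univ.biUnion S₀, fun S hS M hM _ =>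
    hS₀ ⟨M, hle.mem_toFinset.mpr hM⟩ S
      ((Finset.subset_biUnion_of_mem S₀ (Finset.mem_univ _)).trans hS)⟩

/-- The Euler characteristic formula for `G_{ℚ,S}`, `S` large. -/
theorem eulerFormula_of (hC : CFTInputs p) : EulerFormula p := by
  intro N hN
  obtain ⟨S₁, hS₁⟩ := exists_veryLarge hC.descentS hN
  obtain ⟨S₂, hS₂⟩ := exists_genClass_above hN
  obtain ⟨S₃, hS₃⟩ := eulerAdditive_of hC N hN
  refine ⟨S₁ ∪ S₂ ∪ S₃, fun S hS => ?_⟩
  simp only [Finset.union_subset_iff] at hS
  obtain ⟨⟨h1, h2⟩, h3⟩ := hS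
  have hL := (hS₁ S h1).large
  exact Euler.formulaAbove_of hN hL.level (hS₃ S h3) (Euler.baseCase_of hC hL (hS₂ S h2))

end Fermat.Agent.GalCoh
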