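import Fermat.Agent.GalCoh.Euler.Invariants
import Fermat.Agent.GalCoh.Euler.Lattice
import Mathlib.Algebra.Module.ZMod
import Mathlib.Algebra.Field.ZMod
import Mathlib.RepresentationTheory.Intertwining

/-!
# The number of equivariant maps as a function of modules killed by `p`
-/

set_option autoImplicit false
set_option linter.unusedSectionVars false
set_option linter.style.haveILetI false

noncomputable section

namespace Fermat.Agent.GalCoh.Euler

open Representation (IntertwiningMap)
open Module

variable {p : ℕ} [Fact p.Prime] {G : Type} [Group G] (M : Subgroup G) [M.Normal]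
  {U : Type} [AddCommGroup U] [Module (ZMod p) U] [FiniteDimensional (ZMod p) U]

variable (p) in
/-- The representation on a module killed by `p`. -/
def modRep (A : Type) [AddCommGroup A] [Module (MonoidAlgebra ℤ (G ⧸ M)) A] [Module (ZMod p) A] :
    Representation (ZMod p) G A where
  toFun g := AddMonoidHom.toZModLinearMap p
    (DistribSMul.toAddMonoidHom A (MonoidAlgebra.of ℤ (G ⧸ M) (QuotientGroup.mk g)))
  map_one' := LinearMap.ext fun a => by
    show MonoidAlgebra.of ℤ (G ⧸ M) (QuotientGroup.mk (1 : G)) • a = a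
    rw [QuotientGroup.mk_one, map_one, one_smul]
  map_mul' g h := LinearMap.ext fun a => by
    show MonoidAlgebra.of ℤ (G ⧸ M) (QuotientGroup.mk (g * h)) • a = _
    rw [QuotientGroup.mk_mul, map_mul, mul_smul]
    rfl

theorem modRep_apply (A : Type) [AddCommGroup A] [Module (MonoidAlgebra ℤ (G ⧸ M)) A]
    [Module (ZMod p) A] (g : G) (a : A) :
    modRep p M A g a = MonoidAlgebra.of ℤ (G ⧸ M) (QuotientGroup.mk g) • a := rfl

theorem modRep_eq_one (A : Type) [AddCommGroup A] [Module (MonoidAlgebra ℤ (G ⧸ M)) A]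
    [Module (ZMod p) A] {m : G} (hm : m ∈ M) : modRep p M A m = 1 := LinearMap.ext fun a => by
  rw [modRep_apply, (QuotientGroup.eq_one_iff m).mpr hm, map_one, one_smul]
  rfl

variable (υ : Representation (ZMod p) G U)

open Classical in
/-- The number of equivariant maps to a module killed by `p`. -/
def fnInv : ModuleFn (MonoidAlgebra ℤ (G ⧸ M)) := fun A _ _ =>
  if hA : ∀ a : A, p • a = 0 then
    letI := AddCommGroup.zmodModule hA
    invDim υ (modRep p M A)
  else 0

variable {M υ}

theorem fnInv_of (A : Type) [AddCommGroup A] [Module (MonoidAlgebra ℤ (G ⧸ M)) A]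
    (hA : ∀ a : A, p • a = 0) :
    letI := AddCommGroup.zmodModule hA
    fnInv M υ A = invDim υ (modRep p M A) := by
  rw [fnInv, dif_pos hA]

theorem fnInv_eq_invDim {A X : Type} [AddCommGroup A] [Module (MonoidAlgebra ℤ (G ⧸ M)) A]
    [AddCommGroup X] [Module (ZMod p) X] [FiniteDimensional (ZMod p) X]
    (χ : Representation (ZMod p) G X) (ε : A →+ X) (hε : Function.Bijective ε)
    (h : ∀ g a, ε (MonoidAlgebra.of ℤ (G ⧸ M) (QuotientGroup.mk g) • a) = χ g (ε a)) :
    fnInv M υ A = invDim υ χ := by
  have hA : ∀ a : A, p • a = 0 := fun a => hε.1 (by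
    rw [map_nsmul, map_zero, ← Nat.cast_smul_eq_nsmul (ZMod p), ZMod.natCast_self, zero_smul])
  rw [fnInv_of A hA]
  letI := AddCommGroup.zmodModule hA
  exact invDim_congr υ (LinearEquiv.ofBijective (ε.toZModLinearMap p) hε) h

/-- The value at a reduction. -/
theorem fnInv_modP {A X : Type} [AddCommGroup A] [Module (MonoidAlgebra ℤ (G ⧸ M)) A]
    [AddCommGroup X] [Module (ZMod p) X] [FiniteDimensional (ZMod p) X]
    (χ : Representation (ZMod p) G X) (Φ : A →+ X) (hsurj : Function.Surjective Φ)
    (hker : ∀ a, Φ a = 0 → ∃ b, p • b = a)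
    (h : ∀ g a, Φ (MonoidAlgebra.of ℤ (G ⧸ M) (QuotientGroup.mk g) • a) = χ g (Φ a)) :
    fnInv M υ (ModP (MonoidAlgebra ℤ (G ⧸ M)) p A) = invDim υ χ := by
  have hle : (pMul (MonoidAlgebra ℤ (G ⧸ M)) p A).toAddSubgroup ≤ Φ.ker := fun a ha => by
    obtain ⟨b, rfl⟩ := mem_pMul.mp ha
    show Φ (p • b) = 0
    rw [map_nsmul, ← Nat.cast_smul_eq_nsmul (ZMod p), ZMod.natCast_self, zero_smul]
  refine fnInv_eq_invDim χ (QuotientAddGroup.lift _ Φ hle :
    ModP (MonoidAlgebra ℤ (G ⧸ M)) p A →+ X) ⟨?_, ?_⟩ fun g x => ?_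
  · intro x y hxy
    induction x using Submodule.Quotient.induction_on with
    | _ a =>
      induction y using Submodule.Quotient.induction_on with
      | _ b =>
        exact (Submodule.Quotient.eq _).mpr
          (mem_pMul.mpr (hker (a - b) (by rw [map_sub, sub_eq_zero]; exact hxy)))
  · intro y
    obtain ⟨a, rfl⟩ := hsurj y
    exact ⟨Submodule.Quotient.mk a, rfl⟩
  · induction x using Submodule.Quotient.induction_on with
    | _ a => exact h g a

theorem isAdditiveMod_fnInv [Fintype (G ⧸ M)] (hN : (Fintype.card (G ⧸ M) : ZMod p) ≠ 0)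
    (hυ : ∀ m ∈ M, υ m = 1) : IsAdditiveMod p (fnInv M υ) := by
  intro A B C _ _ _ _ _ _ hfin hB i j hi hj hex
  have hA : ∀ a : A, p • a = 0 := fun a => hi (by rw [map_nsmul, hB, map_zero])
  have hC : ∀ c : C, p • c = 0 := fun c => by
    obtain ⟨b, rfl⟩ := hj c
    rw [← map_nsmul, hB, map_zero]
  rw [fnInv_of A hA, fnInv_of B hB, fnInv_of C hC]
  letI := AddCommGroup.zmodModule hA
  letI := AddCommGroup.zmodModule hB
  letI := AddCommGroup.zmodModule hC
  haveI : Finite B := hfin
  haveI : FiniteDimensional (ZMod p) B := Module.Finite.of_finite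
  exact invDim_add υ hN hυ (fun m hm => modRep_eq_one M B hm)
    (LinearMap.intertwiningMap_of_isIntertwiningMap (modRep p M A) (modRep p M B)
      (i.toAddMonoidHom.toZModLinearMap p) fun g a => i.map_smul _ a)
    (LinearMap.intertwiningMap_of_isIntertwiningMap (modRep p M B) (modRep p M C)
      (j.toAddMonoidHom.toZModLinearMap p) fun g b => j.map_smul _ b) hi hj
    fun b => hex b

section Generic

variable {R : Type} [Ring R] {f : ModuleFn R}

theorem IsAdditiveMod.modP_prod (hf : IsAdditiveMod p f) (A B : Type) [AddCommGroup A] [Module R A]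
    [AddCommGroup B] [Module R B] [AddGroup.FG A] [AddGroup.FG B] :
    f (ModP R p (A × B)) = f (ModP R p A) + f (ModP R p B) := by
  have hp : p ≠ 0 := (Fact.out : p.Prime).ne_zero
  haveI : Module.Finite ℤ A := Module.Finite.iff_addGroup_fg.mpr inferInstance
  haveI : Module.Finite ℤ B := Module.Finite.iff_addGroup_fg.mpr inferInstance
  haveI : AddGroup.FG (A × B) := Module.Finite.iff_addGroup_fg.mp inferInstance
  haveI := finite_modP R p (A × B) hp
  refine hf _ _ _ inferInstance (nsmul_modP_eq_zero R p _) (modPMap (LinearMap.inl R A B))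
    (modPMap (LinearMap.snd R A B)) ?_ ?_ ?_
  · rw [injective_iff_map_eq_zero]
    intro x hx
    induction x using Submodule.Quotient.induction_on with
    | _ a =>
      obtain ⟨y, hy⟩ := mem_pMul.mp ((Submodule.Quotient.mk_eq_zero _).mp hx)
      exact (Submodule.Quotient.mk_eq_zero _).mpr (mem_pMul.mpr ⟨y.1, congrArg Prod.fst hy⟩)
  · intro x
    induction x using Submodule.Quotient.induction_on with
    | _ b => exact ⟨Submodule.Quotient.mk (0, b), rfl⟩
  · intro x
    induction x using Submodule.Quotient.induction_on with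
    | _ z =>
      constructor
      · intro hz
        obtain ⟨y, hy⟩ := mem_pMul.mp ((Submodule.Quotient.mk_eq_zero _).mp hz)
        refine ⟨Submodule.Quotient.mk z.1, (Submodule.Quotient.eq _).mpr
          (mem_pMul.mpr ⟨(0, -y), Prod.ext ?_ ?_⟩)⟩
        · simp
        · show p • -y = 0 - z.2
          rw [smul_neg, hy, zero_sub]
          rfl
      · rintro ⟨w, hw⟩
        rw [← hw]
        induction w using Submodule.Quotient.induction_on with
        | _ a => rfl

variable (R) in
/-- A cokernel whose elements are torsion is killed by one integer. -/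
theorem exists_uniform_nsmul_mem {B : Type} [AddCommGroup B] [Module R B] [AddGroup.FG B]
    (N : Submodule R B) (h : ∀ b : B, ∃ n : ℕ, n ≠ 0 ∧ n • b ∈ N) :
    ∃ n : ℕ, n ≠ 0 ∧ ∀ b : B, n • b ∈ N := by
  haveI : Module.Finite ℤ B := Module.Finite.iff_addGroup_fg.mpr inferInstance
  haveI : Module.Finite ℤ (B ⧸ N) :=
    Module.Finite.of_surjective N.mkQ.toAddMonoidHom.toIntLinearMap N.mkQ_surjective
  haveI : Finite (B ⧸ N) := Module.finite_of_fg_torsion _ fun x => by
    obtain ⟨b, rfl⟩ := Submodule.Quotient.mk_surjective N x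
    obtain ⟨n, hn, hb⟩ := h b
    exact ⟨⟨(n : ℤ), mem_nonZeroDivisors_of_ne_zero (Int.natCast_ne_zero.mpr hn)⟩, by
      rw [Submonoid.mk_smul, natCast_zsmul, ← Submodule.Quotient.mk_smul]
      exact (Submodule.Quotient.mk_eq_zero N).mpr hb⟩
  refine ⟨Nat.card (B ⧸ N), Nat.card_pos.ne', fun b => (Submodule.Quotient.mk_eq_zero N).mp ?_⟩
  rw [Submodule.Quotient.mk_smul]
  exact card_nsmul_eq_zero'

end Generic

end Fermat.Agent.GalCoh.Euler
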