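import Fermat.Agent.GalCoh.EulerDefs

/-!
# The two halves of the Euler characteristic formula for a fixed set of places
-/

set_option autoImplicit false

noncomputable section

namespace Fermat.Agent.GalCoh.Euler

open ExtCitation

local notation "Γ" => (AlgebraicClosure ℚ ≃ₐ[ℚ] AlgebraicClosure ℚ)

/-- Additivity of the defect above `N`, for a fixed `S`. -/
def DefectAdditive (p : ℕ) [Fact p.Prime] (S : Finset Nat.Primes) (N : Subgroup Γ) : Prop :=
  ∀ H : Subgroup Γ, N ≤ H →
    ∀ (A B C : Type) [AddCommGroup A] [Module (ZMod p) A] [AddCommGroup B] [Module (ZMod p) B]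
      [AddCommGroup C] [Module (ZMod p) C] [FiniteDimensional (ZMod p) B]
      (α : Representation (ZMod p) ↥H A) (β : Representation (ZMod p) ↥H B)
      (γ : Representation (ZMod p) ↥H C),
      TrivialOn H β N → Ses α β γ → FiniteCoh S H α → FiniteCoh S H γ →
        FiniteCoh S H β ∧ eulerDefect S H β = eulerDefect S H α + eulerDefect S H γ

/-- The formula for `M` normal in `C` of index prime to `p`, with `μ_p` and the coefficients
trivial on `M`. -/
def BaseCase (p : ℕ) [Fact p.Prime] (S : Finset Nat.Primes) (N : Subgroup Γ) : Prop :=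
  ∀ C M : Subgroup Γ, N ≤ M → M ≤ C → (M.subgroupOf C).Normal →
    ¬ p ∣ (M.subgroupOf C).index → (∀ m ∈ M, cycloChar p m = 1) →
      ∀ (W : Type) [AddCommGroup W] [Module (ZMod p) W] [FiniteDimensional (ZMod p) W]
        (σ : Representation (ZMod p) ↥C W),
        TrivialOn C σ M → FiniteCoh S C σ ∧ eulerDefect S C σ = 0

/-- The formula for every group above `N`. -/
def FormulaAbove (p : ℕ) [Fact p.Prime] (S : Finset Nat.Primes) (N : Subgroup Γ) : Prop :=
  ∀ H : Subgroup Γ, N ≤ H →
    ∀ (W : Type) [AddCommGroup W] [Module (ZMod p) W] [FiniteDimensional (ZMod p) W]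
      (σ : Representation (ZMod p) ↥H W),
      TrivialOn H σ N → FiniteCoh S H σ ∧ eulerDefect S H σ = 0

end Fermat.Agent.GalCoh.Euler
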