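import Fermat.Agent.GalCoh.Euler.Irrelevant
import Fermat.Agent.GalCoh.Euler.ModFn
import Fermat.Agent.GalCoh.Euler.Transfer
import Fermat.Agent.GalCoh.Euler.Statement
import Fermat.Agent.GalCoh.Large

/-!
# The Euler characteristic formula through a subgroup of index prime to `p`

For `M` normal in `C` of index prime to `p` with `μ_p` and `W` trivial on `M`, the three cohomology
groups of `μ_p` on `M` are `μ_p`, the `S`-units modulo `p` and the functions on relevant places with
sum zero; Dirichlet's theorem turns their alternating count into the irrelevant places.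
-/

set_option autoImplicit false
set_option linter.unusedSectionVars false
set_option linter.style.haveILetI false

noncomputable section

namespace Fermat.Agent.GalCoh.Euler

open Module ExtCitation Descent Fermat.Agent.FreyReducible Fermat.Agent.CFT
open Representation (IntertwiningMap)

local notation "Ω" => AlgebraicClosure ℚ
local notation "Γ" => (AlgebraicClosure ℚ ≃ₐ[ℚ] AlgebraicClosure ℚ)

local instance isAlgebraicQbar_base : Algebra.IsAlgebraic ℚ (AlgebraicClosure ℚ) :=
  AlgebraicClosure.isAlgebraic ℚ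
local instance isAlgClosureQbar_base : IsAlgClosure ℚ (AlgebraicClosure ℚ) :=
  ⟨inferInstance, inferInstance⟩
local instance isGaloisQbar_base : IsGalois ℚ (AlgebraicClosure ℚ) :=
  have : Normal ℚ (AlgebraicClosure ℚ) := IsAlgClosure.normal ℚ (AlgebraicClosure ℚ)
  have : Algebra.IsSeparable ℚ (AlgebraicClosure ℚ) :=
    Algebra.IsAlgebraic.isSeparable_of_perfectField
  IsGalois.mk

/-- The representation on functions of a permutation action. -/
def funRep (k : Type) [CommRing k] {Q X : Type} [Group Q] (π : Q →* Equiv.Perm X) :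
    Representation k Q (X → k) where
  toFun g := LinearMap.pi fun i => LinearMap.proj (π g⁻¹ i)
  map_one' := LinearMap.ext fun F => funext fun i => by
    show F (π 1⁻¹ i) = F i
    rw [inv_one, map_one]
    rfl
  map_mul' a b := LinearMap.ext fun F => funext fun i => by
    show F (π (a * b)⁻¹ i) = F (π b⁻¹ (π a⁻¹ i))
    rw [mul_inv_rev, map_mul]
    rfl

theorem funRep_apply (k : Type) [CommRing k] {Q X : Type} [Group Q] (π : Q →* Equiv.Perm X)
    (g : Q) (F : X → k) (i : X) : funRep k π g F i = F (π g⁻¹ i) := rfl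

section Units

variable {p : ℕ} [Fact p.Prime] {M : Subgroup Γ} {S : Finset Nat.Primes}

/-- The field fixed by a level is unramified outside `S`. -/
theorem isUnramifiedOutside_fixF (hM : (levelsS S).mem M) : (fixF M).IsUnramifiedOutside S := by
  obtain ⟨F, hF, hFM⟩ := hM
  refine IntermediateField.IsUnramifiedOutside.of_le ?_ hF
  haveI := hF.1
  rw [← InfiniteGalois.fixedField_fixingSubgroup F]
  exact IntermediateField.fixedField_antitone hFM

theorem exists_suVal_zeta (hmu : ∀ m ∈ M, cycloChar p m = 1) :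
    ∃ z : SU M S, suVal z = mu p (1 : ZMod p) :=
  exists_suVal_eq (mu_ne_zero _) (fun m hm => apply_mu_eq (hmu m hm) _) fun q _ _ hA =>
    nu_of_pow_eq_one q.2 hA (Fact.out : p.Prime).ne_zero (mu_pow _)

theorem nsmul_eq_zero_iff_pow {n : ℕ} {x : SU M S} : n • x = 0 ↔ suVal x ^ n = 1 := by
  rw [← suVal_nsmul]
  exact ⟨fun h => by rw [h]; rfl, fun h => suVal_injective h⟩

/-- The torsion `S`-units are cyclic. -/
theorem exists_torsion_generator (hfg : AddGroup.FG (SU M S)) :
    ∃ g : SU M S, IsOfFinAddOrder g ∧ ∀ t : SU M S, IsOfFinAddOrder t → ∃ k : ℤ, k • g = t := by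
  haveI := hfg
  let T : AddSubgroup (SU M S) := AddCommGroup.torsion (SU M S)
  haveI : Module.Finite ℤ (SU M S) := Module.Finite.iff_addGroup_fg.mpr inferInstance
  haveI : Module.Finite ℤ T :=
    Module.Finite.of_injective T.subtype.toIntLinearMap Subtype.val_injective
  haveI : Finite T := Module.finite_of_fg_torsion _ fun x =>
    ⟨⟨((addOrderOf (x : SU M S) : ℕ) : ℤ),
      mem_nonZeroDivisors_of_ne_zero (Int.natCast_ne_zero.mpr x.2.addOrderOf_pos.ne')⟩, by
      rw [Submonoid.mk_smul, natCast_zsmul]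
      exact Subtype.ext (addOrderOf_nsmul_eq_zero _)⟩
  haveI : IsAddCyclic T := isCyclic_multiplicative_iff.mp (isCyclic_of_injective_ringHom
    ({ toFun := fun x : Multiplicative T => suVal ((Multiplicative.toAdd x : T) : SU M S)
       map_one' := rfl
       map_mul' := fun x y => suVal_add _ _ } : Multiplicative T →* Ω)
    fun x y h => Multiplicative.toAdd.injective (Subtype.ext (suVal_injective h)))
  obtain ⟨g, hg⟩ := IsAddCyclic.exists_generator (α := T)
  refine ⟨g.1, g.2, fun t ht => ?_⟩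
  obtain ⟨k, hk⟩ := AddSubgroup.mem_zmultiples_iff.mp (hg ⟨t, ht⟩)
  exact ⟨k, congrArg Subtype.val hk⟩

end Units

variable {p : ℕ} [Fact p.Prime] {S : Finset Nat.Primes} {N C M : Subgroup Γ}
  (hL : LargeS p S N) (hC : CFTInputs p) (hNM : N ≤ M) (hMC : M ≤ C)
  [hn : (M.subgroupOf C).Normal] (hmu : ∀ m ∈ M, cycloChar p m = 1)

/-- The functions on the places. -/
abbrev placeRepP (p : ℕ) (S : Finset Nat.Primes) :
    Representation (ZMod p) ↥C (PlaceIdx S M → ZMod p) :=
  (funRep (ZMod p) (placeTranslate S hMC)).comp (QuotientGroup.mk' (M.subgroupOf C))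

/-- The irrelevant components together with the sum. -/
def irrSumRep : Representation (ZMod p) ↥C ((IrrIdx p S M → ZMod p) × ZMod p) where
  toFun g := (irrRep p S hMC g).prodMap LinearMap.id
  map_one' := by rw [map_one]; rfl
  map_mul' a b := by rw [map_mul]; rfl

/-- From the cohomology of the subgroup `M` of `C` to that of `M`. -/
abbrev toM₁ : H1 (((levelsS S).comap C.subtype).comap (M.subgroupOf C).subtype)
    ((muOn p C).comp (M.subgroupOf C).subtype) ≃ₗ[ZMod p] H1 (levelsSOn M S) (muOn p M) :=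
  subEquiv₁ hMC (muOn p C) (levelsS S)

/-- From the cohomology of the subgroup `M` of `C` to that of `M`, degree two. -/
abbrev toM₂ : H2 (((levelsS S).comap C.subtype).comap (M.subgroupOf C).subtype)
    ((muOn p C).comp (M.subgroupOf C).subtype) ≃ₗ[ZMod p] H2 (levelsSOn M S) (muOn p M) :=
  subEquiv₂ hMC (muOn p C) (levelsS S)

theorem toM₁_conj (δ : ↥C) (z : H1 (((levelsS S).comap C.subtype).comap (M.subgroupOf C).subtype)
    ((muOn p C).comp (M.subgroupOf C).subtype)) :
    toM₁ hMC (conjRep₁ (levelsSOn C S) (muOn p C) hn δ z) =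
      (conjSub (levelsS S) (muRep p) (δ : Γ) (normalizes_of_subgroupOf hMC hn δ)).map₁
        (toM₁ hMC z) := by
  show (subDown hMC (muOn p C) (levelsS S)).map₁
      ((conjSub (levelsSOn C S) (muOn p C) δ (normalizes_of_normal hn δ)).map₁ z) =
    (conjSub (levelsS S) (muRep p) (δ : Γ) (normalizes_of_subgroupOf hMC hn δ)).map₁
      ((subDown hMC (muOn p C) (levelsS S)).map₁ z)
  refine (Mor.map₁_map₁ _ _ z).trans (Eq.trans ?_ (Mor.map₁_map₁ (subDown hMC (muOn p C) (levelsS S))
    (conjSub (levelsS S) (muRep p) (δ : Γ) (normalizes_of_subgroupOf hMC hn δ)) z).symm)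
  exact map₁_congr rfl rfl z

theorem toM₂_conj (δ : ↥C) (z : H2 (((levelsS S).comap C.subtype).comap (M.subgroupOf C).subtype)
    ((muOn p C).comp (M.subgroupOf C).subtype)) :
    toM₂ hMC (conjRep₂ (levelsSOn C S) (muOn p C) hn δ z) =
      (conjSub (levelsS S) (muRep p) (δ : Γ) (normalizes_of_subgroupOf hMC hn δ)).map₂
        (toM₂ hMC z) := by
  show (subDown hMC (muOn p C) (levelsS S)).map₂
      ((conjSub (levelsSOn C S) (muOn p C) δ (normalizes_of_normal hn δ)).map₂ z) =
    (conjSub (levelsS S) (muRep p) (δ : Γ) (normalizes_of_subgroupOf hMC hn δ)).map₂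
      ((subDown hMC (muOn p C) (levelsS S)).map₂ z)
  refine (Mor.map₂_map₂ _ _ z).trans (Eq.trans ?_ (Mor.map₂_map₂ (subDown hMC (muOn p C) (levelsS S))
    (conjSub (levelsS S) (muRep p) (δ : Γ) (normalizes_of_subgroupOf hMC hn δ)) z).symm)
  exact Mor.map₂_congr rfl rfl z

section Counts

variable {U : Type} [AddCommGroup U] [Module (ZMod p) U] [FiniteDimensional (ZMod p) U]
  {υ : Representation (ZMod p) ↥C U} [Finite (↥C ⧸ M.subgroupOf C)]
  (hidx : ((M.subgroupOf C).index : ZMod p) ≠ 0) (hυ : ∀ m ∈ M.subgroupOf C, υ m = 1)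

set_option maxHeartbeats 600000 in
include hL hNM hmu hidx hυ in
/-- The count for the `S`-units, from Dirichlet's theorem. -/
theorem invDim_units [NumberField (fixF M)] [Fintype (PlaceIdx S M)]
    (hgen : GenClass (primesOver S (fixF M))) :
    FiniteDimensional (ZMod p) (H1 ((levelsSOn C S).comap (M.subgroupOf C).subtype)
      ((muOn p C).comp (M.subgroupOf C).subtype)) ∧
    invDim υ (conjRep₁ (levelsSOn C S) (muOn p C) hn) +
        invDim υ (Representation.trivial (ZMod p) ↥C (ZMod p)) =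
      invDim υ (placeRepP hMC p S) + invDim υ (muOn p C) := by
  classical
  have hp : p.Prime := Fact.out
  have hMS := hL.mem_of_le hNM
  have hMf : fullLevels.mem M := fullLevels.mono hL.split_level.mem hNM
  letI : Fintype (↥C ⧸ M.subgroupOf C) := Fintype.ofFinite _
  let Q := ↥C ⧸ M.subgroupOf C
  let R := MonoidAlgebra ℤ Q
  have hf : IsAdditiveMod p (fnInv (M.subgroupOf C) υ) :=
    isAdditiveMod_fnInv (by rw [← Nat.card_eq_fintype_card]; exact hidx) hυ
  let A : Type := (suRep S hMC).asModule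
  let Z : Type := (Representation.trivial ℤ Q ℤ).asModule
  let P : Type := (funRep ℤ (placeTranslate S hMC)).asModule
  have hfg : AddGroup.FG (SU M S) := addGroup_fg_SU hMf
  haveI : AddGroup.FG A := hfg
  haveI : AddGroup.FG Z := Module.Finite.iff_addGroup_fg.mp (inferInstanceAs (Module.Finite ℤ ℤ))
  haveI : AddGroup.FG P :=
    Module.Finite.iff_addGroup_fg.mp (inferInstanceAs (Module.Finite ℤ (PlaceIdx S M → ℤ)))
  haveI : Module.Finite ℤ A := Module.Finite.iff_addGroup_fg.mpr inferInstance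
  haveI : Module.Finite ℤ Z := Module.Finite.iff_addGroup_fg.mpr inferInstance
  haveI : AddGroup.FG (A × Z) := Module.Finite.iff_addGroup_fg.mp inferInstance
  have hsm : ∀ (V : Type) [AddCommGroup V] (ρ : Representation ℤ Q V) (g : Q) (v : ρ.asModule),
      MonoidAlgebra.of ℤ Q g • v = (ρ g (v : V) : ρ.asModule) := fun V _ ρ g v =>
    (Representation.single_smul ρ 1 g v).trans (one_smul ℤ _)
  -- the reductions
  let Φ : A →+ H1 ((levelsSOn C S).comap (M.subgroupOf C).subtype)
      ((muOn p C).comp (M.subgroupOf C).subtype) :=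
    (toM₁ (p := p) (S := S) hMC).symm.toAddMonoidHom.comp (kummerHom hmu hL.p_mem hMS)
  have hΦs : Function.Surjective Φ := (toM₁ hMC).symm.surjective.comp
    (kummerHom_surjective hmu hL.p_mem hMS (isUnramifiedOutside_fixF hMS)
      (Descent.fixingSubgroup_fixedField_of_mem hMf) hgen)
  have hΦk : ∀ a : A, Φ a = 0 → ∃ b : A, p • b = a := fun a h =>
    (kummerHom_eq_zero_iff hmu hL.p_mem hMS a).mp ((toM₁ (p := p) (S := S) hMC).symm.injective
      (h.trans (map_zero _).symm))
  have hfin : FiniteDimensional (ZMod p) (H1 ((levelsSOn C S).comap (M.subgroupOf C).subtype)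
      ((muOn p C).comp (M.subgroupOf C).subtype)) := by
    haveI := finite_modP R p A hp.ne_zero
    haveI : Finite (H1 ((levelsSOn C S).comap (M.subgroupOf C).subtype)
        ((muOn p C).comp (M.subgroupOf C).subtype)) := by
      refine Finite.of_surjective (fun x : ModP R p A => Φ x.out) fun y => ?_
      obtain ⟨a, rfl⟩ := hΦs y
      refine ⟨Submodule.Quotient.mk a, ?_⟩
      obtain ⟨b, hb⟩ := mem_pMul.mp ((Submodule.Quotient.eq _).mp
        (Quotient.out_eq (Submodule.Quotient.mk a : ModP R p A)))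
      show Φ (Submodule.Quotient.mk a : ModP R p A).out = Φ a
      rw [← sub_eq_zero, ← map_sub, ← hb, map_nsmul, ← Nat.cast_smul_eq_nsmul (ZMod p),
        ZMod.natCast_self, zero_smul]
    exact Module.Finite.of_finite
  haveI := hfin
  have eA : fnInv (M.subgroupOf C) υ (ModP R p A) =
      invDim υ (conjRep₁ (levelsSOn C S) (muOn p C) hn) :=
    fnInv_modP _ Φ hΦs hΦk fun δ a => by
      rw [hsm]
      refine (toM₁ (p := p) (S := S) hMC).injective ?_
      rw [toM₁_conj]
      show toM₁ hMC ((toM₁ hMC).symm (kummerHom hmu hL.p_mem hMS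
        (suTranslate (δ : Γ) (normalizes_of_subgroupOf hMC hn δ) a))) =
          (conjSub (levelsS S) (muRep p) (δ : Γ) (normalizes_of_subgroupOf hMC hn δ)).map₁
            (toM₁ hMC ((toM₁ hMC).symm (kummerHom hmu hL.p_mem hMS a)))
      rw [LinearEquiv.apply_symm_apply, LinearEquiv.apply_symm_apply]
      exact kummerHom_suTranslate hmu hL.p_mem hMS _ _ a
  have eZ : fnInv (M.subgroupOf C) υ (ModP R p Z) =
      invDim υ (Representation.trivial (ZMod p) ↥C (ZMod p)) :=
    fnInv_modP _ (Int.castAddHom (ZMod p) : Z →+ ZMod p) ZMod.intCast_surjective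
      (fun a h => by
        obtain ⟨b, hb⟩ := (ZMod.intCast_zmod_eq_zero_iff_dvd a p).mp h
        exact ⟨b, (nsmul_eq_mul p (b : ℤ)).trans hb.symm⟩)
      fun δ a => by rw [hsm]; rfl
  have eP : fnInv (M.subgroupOf C) υ (ModP R p P) = invDim υ (placeRepP hMC p S) :=
    fnInv_modP _ (AddMonoidHom.mk' (fun (c : P) i => ((c : PlaceIdx S M → ℤ) i : ZMod p))
        fun a b => funext fun i => Int.cast_add _ _)
      (fun F => ⟨fun i => (ZMod.intCast_surjective (F i)).choose,
        funext fun i => (ZMod.intCast_surjective (F i)).choose_spec⟩)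
      (fun a h => by
        choose b hb using fun i => (ZMod.intCast_zmod_eq_zero_iff_dvd _ p).mp (congrFun h i)
        exact ⟨b, funext fun i => (nsmul_eq_mul p (b i : ℤ)).trans (hb i).symm⟩)
      fun δ a => by rw [hsm]; rfl
  -- the torsion
  obtain ⟨g, hgfin, hggen⟩ := exists_torsion_generator hfg
  let T : Submodule R A :=
    { carrier := {t | ∃ n : ℕ, n ≠ 0 ∧ n • t = 0}
      zero_mem' := ⟨1, one_ne_zero, smul_zero _⟩
      add_mem' := by
        rintro a b ⟨n, hn0, ha⟩ ⟨m, hm0, hb⟩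
        refine ⟨n * m, mul_ne_zero hn0 hm0, ?_⟩
        rw [nsmul_add, mul_comm, mul_nsmul', ha, smul_zero, zero_add, mul_comm, mul_nsmul', hb,
          smul_zero]
      smul_mem' := fun r a ⟨n, hn0, ha⟩ => ⟨n, hn0, by rw [smul_comm, ha, smul_zero]⟩ }
  haveI : Module.Finite ℤ T :=
    Module.Finite.of_injective T.subtype.toAddMonoidHom.toIntLinearMap Subtype.val_injective
  haveI : AddGroup.FG T := Module.Finite.iff_addGroup_fg.mp inferInstance
  have hgT : g ∈ T := ⟨addOrderOf g, hgfin.addOrderOf_pos.ne', addOrderOf_nsmul_eq_zero _⟩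
  obtain ⟨z, hz⟩ := exists_suVal_zeta (S := S) hmu
  have hcomm : ∀ (n : ℕ) (k : ℤ) (x : SU M S), n • (k • x) = k • (n • x) := fun n k x => by
    rw [← natCast_zsmul, ← natCast_zsmul, ← mul_smul, ← mul_smul, mul_comm]
  set w := addOrderOf g
  have hw : p ∣ w := by
    have h0 : p • z = 0 := nsmul_eq_zero_iff_pow.mpr (by rw [hz, mu_pow])
    obtain ⟨k, hk⟩ := hggen z (isOfFinAddOrder_iff_nsmul_eq_zero.mpr ⟨p, hp.pos, h0⟩)
    have hz0 : addOrderOf z = p := addOrderOf_eq_prime h0 fun e => by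
      rw [e] at hz
      have h2 : mu p (0 : ZMod p) = mu p (1 : ZMod p) := (mu_zero (p := p)).trans hz
      exact zero_ne_one (mu_injective h2)
    have h1 : w • z = 0 := by
      rw [← hk, hcomm, addOrderOf_nsmul_eq_zero, smul_zero]
    rw [← hz0]
    exact addOrderOf_dvd_iff_nsmul_eq_zero.mpr h1
  obtain ⟨r, hr⟩ := hw
  let v : T →+ SU M S := T.subtype.toAddMonoidHom
  have hv : ∀ t : T, ∃ k : ℤ, k • g = v t := fun t => by
    obtain ⟨n, hn0, hn'⟩ := t.2
    exact hggen (v t) (isOfFinAddOrder_iff_nsmul_eq_zero.mpr ⟨n, Nat.pos_of_ne_zero hn0, hn'⟩)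
  have hrT : ∀ t : T, suVal (r • v t) ^ p = 1 := fun t => by
    obtain ⟨k, hk⟩ := hv t
    refine nsmul_eq_zero_iff_pow.mp ?_
    rw [← mul_nsmul', ← hr, ← hk, hcomm, addOrderOf_nsmul_eq_zero, smul_zero]
  let ψ : T →+ ZMod p := AddMonoidHom.mk' (fun t => muLog p (suVal (r • v t)))
    fun s t => mu_injective (p := p) (by
      rw [mu_add, mu_muLog (hrT s), mu_muLog (hrT t), mu_muLog (hrT (s + t)), map_add, nsmul_add,
        suVal_add])
  have hψ : ∀ t : T, mu p (ψ t) = suVal (r • v t) := fun t => mu_muLog (hrT t)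
  have eT : fnInv (M.subgroupOf C) υ (ModP R p T) = invDim υ (muOn p C) := by
    refine fnInv_modP _ ψ (fun x => ?_) (fun t ht => ?_) fun δ t => ?_
    · obtain ⟨y, hy⟩ := exists_suVal_eq (M := M) (S := S) (mu_ne_zero (p := p) x)
        (fun m hm => apply_mu_eq (hmu m hm) _) fun q B _ hB =>
          nu_of_pow_eq_one q.2 hB hp.ne_zero (mu_pow _)
      have hy0 : p • y = 0 := nsmul_eq_zero_iff_pow.mpr (by rw [hy, mu_pow])
      obtain ⟨k, hk⟩ := hggen y (isOfFinAddOrder_iff_nsmul_eq_zero.mpr ⟨p, hp.pos, hy0⟩)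
      have hdvd : (w : ℤ) ∣ (p : ℤ) * k := addOrderOf_dvd_iff_zsmul_eq_zero.mpr (by
        rw [mul_smul, hk, natCast_zsmul, hy0])
      rw [hr, Nat.cast_mul] at hdvd
      obtain ⟨l, hl⟩ := (mul_dvd_mul_iff_left (Int.natCast_ne_zero.mpr hp.ne_zero)).mp hdvd
      refine ⟨l • (⟨g, hgT⟩ : T), mu_injective (p := p) ?_⟩
      rw [hψ, ← hy, ← hk, hl, map_zsmul, mul_smul, natCast_zsmul, show v ⟨g, hgT⟩ = g from rfl]
    · have h0 : r • v t = 0 := suVal_injective (by rw [← hψ, ht, mu_zero]; rfl)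
      obtain ⟨k, hk⟩ := hv t
      have hdvd : (w : ℤ) ∣ (r : ℤ) * k := addOrderOf_dvd_iff_zsmul_eq_zero.mpr (by
        rw [mul_smul, hk, natCast_zsmul, h0])
      rw [hr, Nat.cast_mul, mul_comm] at hdvd
      have hr0 : r ≠ 0 := fun e => hgfin.addOrderOf_pos.ne' (by
        show w = 0
        rw [hr, e, mul_zero])
      obtain ⟨l, hl⟩ := (mul_dvd_mul_iff_left (Int.natCast_ne_zero.mpr hr0)).mp hdvd
      refine ⟨l • (⟨g, hgT⟩ : T), (show Function.Injective v from Subtype.val_injective) ?_⟩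
      rw [map_nsmul, map_zsmul, ← hk, hl, mul_smul, natCast_zsmul,
        show v ⟨g, hgT⟩ = g from rfl]
    · refine mu_injective (p := p) ?_
      show mu p (ψ _) = mu p (muRep p (δ : Γ) (ψ t))
      rw [muRep_apply, ← apply_mu, hψ, hψ, suVal_nsmul, suVal_nsmul, map_pow]
      congr 1
      show suVal (((MonoidAlgebra.of ℤ Q (QuotientGroup.mk δ) • (t : A) : A)) : SU M S) = _
      rw [hsm]
      rfl
  -- the isogeny
  obtain ⟨E, hE, hinj, htors⟩ := exists_units_family (S := S) hMf hMC
  let LA : (PlaceIdx S M → ℤ) →ₗ[ℤ] SU M S := ∑ j, (LinearMap.proj j).smulRight (E j)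
  let LZ : (PlaceIdx S M → ℤ) →ₗ[ℤ] ℤ := ∑ j, LinearMap.proj j
  have hLA : ∀ c, LA c = ∑ j, c j • E j := fun c => by simp [LA, LinearMap.sum_apply]
  have hLZ : ∀ c, LZ c = ∑ j, c j := fun c => by simp [LZ, LinearMap.sum_apply]
  let fA : P →ₗ[R] A := IntertwiningMap.equivLinearMapAsModule _ _
    (LinearMap.intertwiningMap_of_isIntertwiningMap (funRep ℤ (placeTranslate S hMC)) (suRep S hMC)
      LA fun q c => by
        simp only [hLA, map_sum, map_zsmul]
        refine Fintype.sum_equiv (placeTranslate S hMC q⁻¹) _ _ fun i => ?_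
        rw [← hE, funRep_apply, ← Equiv.Perm.mul_apply, ← map_mul, mul_inv_cancel, map_one]
        rfl)
  let fZ : P →ₗ[R] Z := IntertwiningMap.equivLinearMapAsModule _ _
    (LinearMap.intertwiningMap_of_isIntertwiningMap (funRep ℤ (placeTranslate S hMC))
      (Representation.trivial ℤ Q ℤ) LZ fun q c => by
        simp only [hLZ]
        exact Fintype.sum_equiv (placeTranslate S hMC q⁻¹) _ _ fun i => rfl)
  let i : P × T →ₗ[R] A × Z := (fA.prod fZ).coprod ((LinearMap.inl R A Z).comp T.subtype)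
  have hi_apply : ∀ c t, i (c, t) = ((fA c + (t : A), fZ c + 0) : A × Z) := fun c t => rfl
  have hpair : ∀ c, ((fA c, fZ c) : A × Z) = familyMap E c := fun c =>
    (Prod.ext (hLA c) (hLZ c)).trans (familyMap_apply E c).symm
  have hiinj : Function.Injective i := by
    rw [injective_iff_map_eq_zero]
    rintro ⟨c, t⟩ h
    rw [hi_apply, Prod.mk_eq_zero, add_zero] at h
    obtain ⟨n, hn0, hn'⟩ := t.2
    have h0 : familyMap E ((n • c : P)) = 0 := by
      refine (hpair (n • c)).symm.trans (Prod.ext ?_ ?_)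
      · show fA (n • c) = (0 : A)
        rw [map_nsmul, eq_neg_of_add_eq_zero_left h.1, smul_neg, hn', neg_zero]
      · show fZ (n • c) = (0 : Z)
        rw [map_nsmul, h.2, smul_zero]
    have hc : c = 0 := by
      have h1 := hinj (h0.trans (map_zero (familyMap E)).symm)
      funext j
      have h2 : n • (c : PlaceIdx S M → ℤ) j = 0 := congrFun h1 j
      exact (smul_eq_zero.mp h2).resolve_left hn0
    subst hc
    rw [map_zero, zero_add] at h
    exact Prod.ext rfl (Subtype.ext h.1)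
  obtain ⟨n, hn0, hnB⟩ := exists_uniform_nsmul_mem R (LinearMap.range i) fun b : A × Z => by
    obtain ⟨n, hn0, c, hc⟩ := htors b
    refine ⟨n, hn0, (c, 0), ?_⟩
    refine (hi_apply c 0).trans (Eq.trans ?_ hc)
    rw [Submodule.coe_zero, add_zero, add_zero]
    exact hpair c
  have key := modP_eq_of_injective hf i hiinj hn0 hnB fun b hb => by
    have hb2 : b.2 = 0 := by
      have h1 : ((p • (show ℤ from b.2) : ℤ)) = 0 := congrArg Prod.snd hb
      exact (smul_eq_zero.mp h1).resolve_left hp.ne_zero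
    refine ⟨(0, ⟨b.1, p, hp.ne_zero, congrArg Prod.fst hb⟩), ?_⟩
    rw [hi_apply, map_zero, map_zero, zero_add, zero_add]
    exact Prod.ext rfl hb2.symm
  rw [hf.modP_prod, hf.modP_prod, eA, eZ, eP, eT] at key
  exact ⟨hfin, key.symm⟩

set_option maxHeartbeats 600000 in
include hL hC hNM hmu hidx hυ in
/-- The count in degree two. -/
theorem invDim_places [Fintype (Γ ⧸ M)] [Fintype (PlaceIdx S M)] :
    FiniteDimensional (ZMod p) (H2 ((levelsSOn C S).comap (M.subgroupOf C).subtype)
      ((muOn p C).comp (M.subgroupOf C).subtype)) ∧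
    invDim υ (conjRep₂ (levelsSOn C S) (muOn p C) hn) + invDim υ (irrRep p S hMC) +
        invDim υ (Representation.trivial (ZMod p) ↥C (ZMod p)) =
      invDim υ (placeRepP hMC p S) := by
  classical
  letI : Fintype (↥C ⧸ M.subgroupOf C) := Fintype.ofFinite _
  have hN' : (Fintype.card (↥C ⧸ M.subgroupOf C) : ZMod p) ≠ 0 := by
    rw [← Nat.card_eq_fintype_card]; exact hidx
  obtain ⟨inv, hinj, hsum⟩ := hC.reciprocity
  let E := LinearEquiv.ofBijective (evalMor (levelsS S) (muRep p) M).map₂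
    (evalMor_map₂_bijective (ρ := muRep p) hL.isCtsRep_muRep (hL.mem_of_le hNM))
  let Θ : H2 ((levelsSOn C S).comap (M.subgroupOf C).subtype)
      ((muOn p C).comp (M.subgroupOf C).subtype) →ₗ[ZMod p] PlaceIdx S M → ZMod p :=
    theta inv ∘ₗ (toM₂ (S := S) hMC ≪≫ₗ E.symm).toLinearMap
  have hΘinj : Function.Injective Θ :=
    (theta_injective inv hL hC hNM hmu hinj (hsum S hL.p_mem)).comp (LinearEquiv.injective _)
  have hfin : FiniteDimensional (ZMod p) (H2 ((levelsSOn C S).comap (M.subgroupOf C).subtype)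
      ((muOn p C).comp (M.subgroupOf C).subtype)) := FiniteDimensional.of_injective Θ hΘinj
  refine ⟨hfin, ?_⟩
  have hrange : ∀ F, (∃ x, Θ x = F) ↔
      (∀ i, ¬ IsRelevantIdx p i → F i = 0) ∧ ∑ i, F i = 0 := fun F => by
    have h := SetLike.ext_iff.mp (range_theta inv hL hC hNM hmu hinj (hsum S hL.p_mem)) F
    refine Iff.trans ?_ h
    exact ⟨fun ⟨x, hx⟩ => ⟨_, hx⟩, fun ⟨W, hW⟩ => ⟨(toM₂ (S := S) hMC ≪≫ₗ E.symm).symm W, by
      rw [← hW]
      exact congrArg (theta inv) (LinearEquiv.apply_symm_apply _ _)⟩⟩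
  let I₁ : IntertwiningMap (conjRep₂ (levelsSOn C S) (muOn p C) hn) (placeRepP hMC p S) :=
    LinearMap.intertwiningMap_of_isIntertwiningMap _ _ Θ fun δ x => by
      funext i
      show theta inv (E.symm (toM₂ hMC (conjRep₂ (levelsSOn C S) (muOn p C) hn δ x))) i =
        theta inv (E.symm (toM₂ hMC x)) (placeTranslate S hMC ((QuotientGroup.mk δ)⁻¹) i)
      obtain ⟨V, hV⟩ := E.surjective (toM₂ hMC x)
      rw [toM₂_conj, ← hV, show E V = (evalMor (levelsS S) (muRep p) M).map₂ V from rfl,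
        ← evalMor_rightTrans₂]
      erw [E.symm_apply_apply, E.symm_apply_apply]
      rw [theta_rightTrans, ← QuotientGroup.mk_inv, placeTranslate_mk]
      congr 1
  let J : (PlaceIdx S M → ZMod p) →ₗ[ZMod p] (IrrIdx p S M → ZMod p) × ZMod p :=
    (LinearMap.pi fun i : IrrIdx p S M => LinearMap.proj i.1).prod
      (∑ i, LinearMap.proj i)
  have hJ : ∀ F, J F = ((fun i => F i.1), ∑ i, F i) := fun F =>
    Prod.ext rfl (LinearMap.sum_apply _ _ _)
  let J₁ : IntertwiningMap (placeRepP hMC p S) (irrSumRep (p := p) (S := S) hMC) :=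
    LinearMap.intertwiningMap_of_isIntertwiningMap _ _ J fun δ F => by
      rw [hJ, hJ]
      refine Prod.ext (funext fun i => rfl) ?_
      exact Fintype.sum_equiv (placeTranslate S hMC (QuotientGroup.mk δ)⁻¹) _ _ fun i => rfl
  have hJsurj : Function.Surjective J := by
    rintro ⟨a, s⟩
    obtain ⟨q₀, hq₀S, -⟩ := hL.split
    set i₀ : PlaceIdx S M := ⟨Sum.inr ⟨q₀, hq₀S⟩, Quotient.mk _ (placePoint M 1)⟩
    let F₀ : PlaceIdx S M → ZMod p := fun i => if h : IsRelevantIdx p i then 0 else a ⟨i, h⟩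
    refine ⟨F₀ + Pi.single i₀ (s - ∑ i, F₀ i), ?_⟩
    rw [hJ]
    refine Prod.ext (funext fun i => ?_) ?_
    · show F₀ i.1 + _ = a i
      rw [Pi.single_eq_of_ne (fun e : i.1 = i₀ => i.2 (e ▸ trivial)), add_zero]
      exact dif_neg i.2
    · show ∑ i, (F₀ i + _) = s
      rw [Finset.sum_add_distrib, Finset.sum_pi_single', if_pos (Finset.mem_univ _),
        add_sub_cancel]
  have hPm : ∀ m ∈ M.subgroupOf C, placeRepP hMC p S m = 1 := fun m hm => by
    show funRep (ZMod p) (placeTranslate S hMC) (QuotientGroup.mk m) = 1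
    rw [(QuotientGroup.eq_one_iff m).mpr hm, map_one]
  have e1 := invDim_add υ hN' hυ hPm I₁ J₁ hΘinj hJsurj fun F => by
    refine Iff.trans ?_ (hrange F).symm
    show J F = 0 ↔ _
    rw [hJ, Prod.mk_eq_zero]
    exact ⟨fun h => ⟨fun i hi => congrFun h.1 ⟨i, hi⟩, h.2⟩,
      fun h => ⟨funext fun i => h.1 i.1 i.2, h.2⟩⟩
  have hQm : ∀ m ∈ M.subgroupOf C, irrSumRep (p := p) (S := S) hMC m = 1 := fun m hm => by
    have hone : irrRep p S hMC m = 1 := LinearMap.ext fun F => funext fun i =>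
      congrArg F (Subtype.ext (by
        show placeTranslate S hMC _ i.1 = i.1
        rw [(QuotientGroup.eq_one_iff _).mpr ((M.subgroupOf C).inv_mem hm), map_one]
        rfl))
    show (irrRep p S hMC m).prodMap LinearMap.id = 1
    rw [hone]
    rfl
  have e2 := invDim_add (χ := irrRep p S hMC)
    (ω := Representation.trivial (ZMod p) ↥C (ZMod p)) υ hN' hυ hQm
    (LinearMap.intertwiningMap_of_isIntertwiningMap _ _ (LinearMap.inl _ _ _)
      fun g F => rfl)
    (LinearMap.intertwiningMap_of_isIntertwiningMap _ _ (LinearMap.snd _ _ _) fun g F => rfl)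
    LinearMap.inl_injective LinearMap.snd_surjective
    fun b => ⟨fun h => ⟨b.1, Prod.ext rfl (show (0 : ZMod p) = b.2 from h.symm)⟩,
      fun ⟨a, ha⟩ => by rw [← ha]; rfl⟩
  linear_combination -e1 - e2

end Counts

set_option maxHeartbeats 600000 in
include hL hC hNM hMC hmu in
/-- The formula through a subgroup of index prime to `p`. -/
theorem formula_through [NumberField (fixF M)] (hgen : GenClass (primesOver S (fixF M)))
    (hidx : ¬ p ∣ (M.subgroupOf C).index) {W : Type} [AddCommGroup W] [Module (ZMod p) W]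
    [FiniteDimensional (ZMod p) W] (σ : Representation (ZMod p) ↥C W) (hσ : TrivialOn C σ M) :
    FiniteCoh S C σ ∧ eulerDefect S C σ = 0 := by
  have hMf : fullLevels.mem M := fullLevels.mono hL.split_level.mem hNM
  haveI : Finite (Γ ⧸ M) := finite_quotient hMf
  haveI : Finite (Γ ⧸ C) := finite_quotient (fullLevels.mono hMf hMC)
  letI : Fintype (Γ ⧸ M) := Fintype.ofFinite _
  letI : Fintype (PlaceIdx S M) := Fintype.ofFinite _
  have hidx' : ((M.subgroupOf C).index : ZMod p) ≠ 0 := fun h =>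
    hidx ((ZMod.natCast_eq_zero_iff _ _).mp h)
  haveI : Finite (↥C ⧸ M.subgroupOf C) := Nat.finite_of_card_ne_zero fun h =>
    hidx (show p ∣ Nat.card (↥C ⧸ M.subgroupOf C) by rw [h]; exact dvd_zero p)
  have h₂ : ∀ m ∈ M.subgroupOf C, muOn p C m = 1 := fun m hm => LinearMap.ext fun x => by
    show muRep p (m : Γ) x = x
    rw [muRep_apply, hmu (m : Γ) hm, Units.val_one, one_mul]
  have h₁ : ∀ m ∈ M.subgroupOf C, σ m = 1 := fun m hm => hσ m hm
  have hυ : ∀ m ∈ M.subgroupOf C, (σ.linHom (muOn p C)) m = 1 := fun m hm =>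
    LinearMap.ext fun u => by
      rw [Representation.linHom_apply, h₂ m hm, h₁ _ ((M.subgroupOf C).inv_mem hm)]
      rfl
  have hmem : (levelsSOn C S).mem (M.subgroupOf C) := ⟨M, hL.mem_of_le hNM, le_rfl⟩
  have hcts : IsCtsRep (levelsSOn C S) σ := ⟨_, hmem, h₁⟩
  obtain ⟨hf1, e1⟩ := invDim_units hL hNM hMC hmu hidx' hυ hgen
  obtain ⟨hf2, e2⟩ := invDim_places hL hC hNM hMC hmu hidx' hυ
  haveI := hf1
  haveI := hf2
  let e : ZMod p ≃ₗ[ZMod p] ZMod p := LinearEquiv.refl _ _
  haveI g1 : FiniteDimensional (ZMod p) (H1 (levelsSOn C S) σ) :=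
    finiteDimensional_H1 (levelsSOn C S) σ (muOn p C) hn hcts hmem hidx' h₁ h₂ e
  haveI g2 : FiniteDimensional (ZMod p) (H2 (levelsSOn C S) σ) :=
    finiteDimensional_H2 (levelsSOn C S) σ (muOn p C) hn hcts hmem hidx' h₁ h₂ e
  refine ⟨⟨g1, g2⟩, ?_⟩
  have d0 := finrank_H0_eq σ (muOn p C) e
  have d1 := finrank_H1_eq (levelsSOn C S) σ (muOn p C) hn hcts hmem hidx' h₁ h₂ e
  have d2 := finrank_H2_eq (levelsSOn C S) σ (muOn p C) hn hcts hmem hidx' h₁ h₂ e
  have d3 : invDim (σ.linHom (muOn p C)) (irrRep p S hMC) =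
      (finrank (ZMod p) ↥(antiSec p M σ) : ℤ) :=
    invDim_irrRep hMC (fun x hx => hσ x hx) hmu
  have d4 : (finrank (ZMod p) ↥(antiSec p M σ) : ℤ) + finrank (ZMod p) ↥(archSec C σ) =
      (finrank (ZMod p) ↥(secSpace C σ) : ℤ) := by
    exact_mod_cast finrank_antiSec hMC (fun x hx => hσ x hx) hmu hidx
  rw [finrank_secSpace] at d4
  unfold eulerDefect chiS
  rw [twiceArch_eq, d0, d1, d2]
  simp only [invDim] at e1 e2 d3
  linear_combination 2 * e2 - 2 * e1 - 2 * d3 - 2 * d4

include hC in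
theorem baseCase_of (hL : LargeS p S N)
    (hgen : ∀ M : Subgroup Γ, N ≤ M → ∀ [NumberField (fixF M)],
      GenClass (primesOver S (fixF M))) : BaseCase p S N := by
  intro C M hNM hMC hnorm hidx hmu W _ _ _ σ hσ
  haveI := hnorm
  haveI := numberField_fixed (fullLevels.mono hL.split_level.mem hNM)
  exact formula_through hL hC hNM hMC hmu (hgen M hNM) hidx σ hσ

end Fermat.Agent.GalCoh.Euler
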