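import Fermat.Agent.GalCoh.Transport
import Mathlib.RepresentationTheory.Basic

/-!
# Conjugation on the cohomology of a subgroup by elements normalising it
-/

set_option autoImplicit false
set_option linter.unusedSectionVars false

noncomputable section

namespace Fermat.Agent.GalCoh.Euler

open Representation (IntertwiningMap)

variable {k : Type} [CommRing k] {G : Type} [Group G] {V : Type} [AddCommGroup V] [Module k V]
  {L : Levels G} {ρ : Representation k G V}

theorem map₁_congr {G' : Type} [Group G'] {W : Type} [AddCommGroup W] [Module k W]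
    {L' : Levels G'} {σ : Representation k G' W} {m m' : Mor L L' ρ σ} (hf : m.f = m'.f)
    (hφ : m.φ = m'.φ) (z : H1 L ρ) : m.map₁ z = m'.map₁ z := by
  rw [Mor.ext' hf hφ]

theorem map₁_eq_sum {G' : Type} [Group G'] {W : Type} [AddCommGroup W] [Module k W]
    {L' : Levels G'} {σ : Representation k G' W} {ι : Type} [Fintype ι]
    (m : Mor L L' ρ σ) (ms : ι → Mor L L' ρ σ) (hf : ∀ i, (ms i).f = m.f)
    (hφ : m.φ = ∑ i, (ms i).φ) (z : H1 L ρ) : m.map₁ z = ∑ i, (ms i).map₁ z := by
  obtain ⟨F, rfl⟩ := H1mk_surjective z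
  simp only [Mor.map₁_mk]
  rw [← map_sum]
  refine congrArg _ (Subtype.ext (funext fun q => ?_))
  rw [Submodule.coe_sum, Finset.sum_apply]
  show m.φ _ = ∑ i, (ms i).φ _
  simp [hφ, hf, LinearMap.sum_apply]

/-- Inner automorphisms act trivially on first cohomology. -/
theorem conjMor_map₁ (g : G) (z : H1 L ρ) : (conjMor L ρ g).map₁ z = z := by
  obtain ⟨F, rfl⟩ := H1mk_surjective z
  rw [Mor.map₁_mk, H1mk_eq_iff, mem_B1_iff]
  have hF := (mem_Z1_iff.mp F.2).1
  refine ⟨(F : G → V) g⁻¹, fun x => ?_⟩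
  show ρ g⁻¹ ((F : G → V) (g * x * g⁻¹)) - (F : G → V) x = _
  have c1 := hF g⁻¹ (g * x * g⁻¹)
  have c2 := hF x g⁻¹
  have e : g⁻¹ * (g * x * g⁻¹) = x * g⁻¹ := by group
  rw [e, c2] at c1
  linear_combination (norm := abel) -c1

variable {M : Subgroup G}

/-- An element normalises `M`. -/
def Normalizes (M : Subgroup G) (h : G) : Prop := ∀ m, m ∈ M ↔ h * m * h⁻¹ ∈ M

theorem normalizes_of_normal (hM : M.Normal) (h : G) : Normalizes M h :=
  fun m => ⟨fun hm => hM.conj_mem m hm h, fun hm => by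
    simpa [mul_assoc] using hM.conj_mem _ hm h⁻¹⟩

theorem Normalizes.mul {a b : G} (ha : Normalizes M a) (hb : Normalizes M b) :
    Normalizes M (a * b) := fun m => by
  rw [hb m, ha (b * m * b⁻¹)]
  simp [mul_assoc]

theorem Normalizes.inv {a : G} (ha : Normalizes M a) : Normalizes M a⁻¹ := fun m => by
  have := ha (a⁻¹ * m * a⁻¹⁻¹)
  rw [this]
  simp [mul_assoc]

variable (L ρ) in
/-- Conjugation of the cohomology of `M` by an element normalising it. -/
def conjSub (h : G) (hh : Normalizes M h) :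
    Mor (L.comap M.subtype) (L.comap M.subtype) (ρ.comp M.subtype) (ρ.comp M.subtype) where
  f := ((MulAut.conj h⁻¹).toMonoidHom.comp M.subtype).codRestrict M fun m => (hh.inv m).mp m.2
  φ := ρ h
  comm m v := by
    simp only [MonoidHom.coe_comp, Function.comp_apply, Subgroup.coe_subtype,
      MonoidHom.codRestrict_apply, MulEquiv.coe_toMonoidHom, MulAut.conj_apply,
      ← Module.End.mul_apply, ← map_mul]
    simp [mul_assoc]
  compat := fun U ⟨V₀, hV, hVU⟩ => by
    obtain ⟨N, hN, hNn, hNV⟩ := L.exists_normal hV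
    refine ⟨N, hN, fun m hm => hVU (hNV ?_)⟩
    simpa using hNn.conj_mem _ hm h⁻¹

theorem conjSub_mul₁ (a b : G) (ha : Normalizes M a) (hb : Normalizes M b)
    (z : H1 (L.comap M.subtype) (ρ.comp M.subtype)) :
    (conjSub L ρ (a * b) (ha.mul hb)).map₁ z =
      (conjSub L ρ a ha).map₁ ((conjSub L ρ b hb).map₁ z) := by
  rw [Mor.map₁_map₁]
  refine map₁_congr ?_ ?_ z
  · ext m
    simp [conjSub, Mor.comp, mul_assoc]
  · simp [conjSub, Mor.comp, map_mul, Module.End.mul_eq_comp]

theorem conjSub_mul₂ (a b : G) (ha : Normalizes M a) (hb : Normalizes M b)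
    (z : H2 (L.comap M.subtype) (ρ.comp M.subtype)) :
    (conjSub L ρ (a * b) (ha.mul hb)).map₂ z =
      (conjSub L ρ a ha).map₂ ((conjSub L ρ b hb).map₂ z) := by
  rw [Mor.map₂_map₂]
  refine Mor.map₂_congr ?_ ?_ z
  · ext m
    simp [conjSub, Mor.comp, mul_assoc]
  · simp [conjSub, Mor.comp, map_mul, Module.End.mul_eq_comp]

theorem conjSub_one₁ (h : Normalizes M (1 : G)) (z : H1 (L.comap M.subtype) (ρ.comp M.subtype)) :
    (conjSub L ρ 1 h).map₁ z = z := by
  obtain ⟨F, rfl⟩ := H1mk_surjective z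
  rw [Mor.map₁_mk]
  refine congrArg _ (Subtype.ext (funext fun m => ?_))
  simp [conjSub]

theorem conjSub_one₂ (h : Normalizes M (1 : G)) (z : H2 (L.comap M.subtype) (ρ.comp M.subtype)) :
    (conjSub L ρ 1 h).map₂ z = z := by
  obtain ⟨F, rfl⟩ := H2mk_surjective z
  rw [Mor.map₂_mk]
  refine congrArg _ (Subtype.ext (funext fun m => ?_))
  obtain ⟨m, m'⟩ := m
  simp [conjSub]

section Right

variable (h : G) (hh : Normalizes M h)

/-- Right translation on `G ⧸ M`. -/
def rightMul : G ⧸ M → G ⧸ M :=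
  Quotient.map' (· * h) fun a b hab => by
    rw [QuotientGroup.leftRel_apply] at hab ⊢
    have := (hh.inv _).mp hab
    simpa [mul_assoc] using this

theorem rightMul_mk (a : G) : rightMul h hh (a : G ⧸ M) = ((a * h : G) : G ⧸ M) := rfl

theorem rightMul_smul (g : G) (x : G ⧸ M) : rightMul h hh (g • x) = g • rightMul h hh x := by
  induction x using QuotientGroup.induction_on with
  | H a =>
    rw [MulAction.Quotient.smul_coe, rightMul_mk, rightMul_mk, MulAction.Quotient.smul_coe,
      smul_eq_mul, smul_eq_mul, mul_assoc]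

variable (ρ) in
/-- Right translation on the permutation module. -/
def rightTrans : IntertwiningMap (permRep ρ (G ⧸ M)) (permRep ρ (G ⧸ M)) :=
  LinearMap.intertwiningMap_of_isIntertwiningMap _ _
    (LinearMap.pi fun x => LinearMap.proj (rightMul h hh x)) fun g f => funext fun x => by
      simp [rightMul_smul]

/-- Evaluation turns right translation into conjugation, degree one. -/
theorem evalMor_rightTrans₁ (z : H1 L (permRep ρ (G ⧸ M))) :
    (evalMor L ρ M).map₁ ((Mor.ofMap L (rightTrans ρ h hh)).map₁ z) =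
      (conjSub L ρ h hh).map₁ ((evalMor L ρ M).map₁ z) := by
  conv_rhs => rw [← conjMor_map₁ (ρ := permRep ρ (G ⧸ M)) h z]
  rw [Mor.map₁_map₁, Mor.map₁_map₁, Mor.map₁_map₁]
  refine map₁_congr ?_ ?_ z
  · ext m
    simp [conjSub, Mor.comp, Mor.ofMap, evalMor, conjMor, mul_assoc]
  · refine LinearMap.ext fun f => ?_
    show f (rightMul h hh ((1 : G) : G ⧸ M)) = ρ h (permRep ρ (G ⧸ M) h⁻¹ f ((1 : G) : G ⧸ M))
    rw [permRep_apply, ← Module.End.mul_apply, ← map_mul, mul_inv_cancel, map_one, inv_inv,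
      rightMul_mk, MulAction.Quotient.smul_coe, smul_eq_mul, one_mul, mul_one]
    rfl

/-- Evaluation turns right translation into conjugation, degree two. -/
theorem evalMor_rightTrans₂ (z : H2 L (permRep ρ (G ⧸ M))) :
    (evalMor L ρ M).map₂ ((Mor.ofMap L (rightTrans ρ h hh)).map₂ z) =
      (conjSub L ρ h hh).map₂ ((evalMor L ρ M).map₂ z) := by
  conv_rhs => rw [← conjMor_map₂ (ρ := permRep ρ (G ⧸ M)) h z]
  rw [Mor.map₂_map₂, Mor.map₂_map₂, Mor.map₂_map₂]
  refine Mor.map₂_congr ?_ ?_ z
  · ext m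
    simp [conjSub, Mor.comp, Mor.ofMap, evalMor, conjMor, mul_assoc]
  · refine LinearMap.ext fun f => ?_
    show f (rightMul h hh ((1 : G) : G ⧸ M)) = ρ h (permRep ρ (G ⧸ M) h⁻¹ f ((1 : G) : G ⧸ M))
    rw [permRep_apply, ← Module.End.mul_apply, ← map_mul, mul_inv_cancel, map_one, inv_inv,
      rightMul_mk, MulAction.Quotient.smul_coe, smul_eq_mul, one_mul, mul_one]
    rfl

end Right

section Rep

variable (hM : M.Normal)

variable (L ρ) in
/-- The conjugation representation on `H¹` of a normal subgroup. -/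
def conjRep₁ : Representation k G (H1 (L.comap M.subtype) (ρ.comp M.subtype)) where
  toFun h := (conjSub L ρ h (normalizes_of_normal hM h)).map₁
  map_one' := LinearMap.ext fun z => conjSub_one₁ _ z
  map_mul' a b := LinearMap.ext fun z => conjSub_mul₁ a b _ _ z

variable (L ρ) in
/-- The conjugation representation on `H²` of a normal subgroup. -/
def conjRep₂ : Representation k G (H2 (L.comap M.subtype) (ρ.comp M.subtype)) where
  toFun h := (conjSub L ρ h (normalizes_of_normal hM h)).map₂
  map_one' := LinearMap.ext fun z => conjSub_one₂ _ z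
  map_mul' a b := LinearMap.ext fun z => conjSub_mul₂ a b _ _ z

theorem conjRep₁_apply (h : G) (z : H1 (L.comap M.subtype) (ρ.comp M.subtype)) :
    conjRep₁ L ρ hM h z = (conjSub L ρ h (normalizes_of_normal hM h)).map₁ z := rfl

theorem conjRep₂_apply (h : G) (z : H2 (L.comap M.subtype) (ρ.comp M.subtype)) :
    conjRep₂ L ρ hM h z = (conjSub L ρ h (normalizes_of_normal hM h)).map₂ z := rfl

end Rep

end Fermat.Agent.GalCoh.Euler
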