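import Fermat.Agent.GalCoh.Euler.Conj
import Fermat.Agent.GalCoh.EulerDefs
import Fermat.Agent.GalCoh.Descent.DescentS

/-!
# Kummer theory for `S`-units
-/

set_option autoImplicit false
set_option linter.unusedSectionVars false
set_option linter.style.haveILetI false

noncomputable section

open NumberField
open scoped Pointwise NumberField

namespace Fermat.Agent.GalCoh.Euler

open Fermat.Agent.FreyReducible Fermat.Agent.CFT ExtCitation Descent

local notation "Ω" => AlgebraicClosure ℚ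
local notation "Γ" => (AlgebraicClosure ℚ ≃ₐ[ℚ] AlgebraicClosure ℚ)

variable (M : Subgroup Γ) (S : Finset Nat.Primes)

/-- Units of `ℚ̄` fixed by `M` with valuation zero outside `S`. -/
def sUnitSubgroup : Subgroup Ωˣ where
  carrier := {x | (∀ m ∈ M, m (x : Ω) = x) ∧
    ∀ (q : Nat.Primes) A, q ∉ S → A.LiesOverPrime (q : ℕ) → nu q A (x : Ω) = 0}
  one_mem' := ⟨fun m _ => map_one m, fun q _ _ hA => nu_one q.2 hA⟩
  mul_mem' {x y} hx hy := ⟨fun m hm => by rw [Units.val_mul, map_mul, hx.1 m hm, hy.1 m hm],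
    fun q A hq hA => by
      rw [Units.val_mul, nu_mul q.2 hA x.ne_zero y.ne_zero, hx.2 q A hq hA, hy.2 q A hq hA,
        add_zero]⟩
  inv_mem' {x} hx := ⟨fun m hm => by rw [Units.val_inv_eq_inv_val, map_inv₀, hx.1 m hm],
    fun q A hq hA => by
      rw [Units.val_inv_eq_inv_val, nu_inv q.2 hA x.ne_zero, hx.2 q A hq hA, neg_zero]⟩

/-- The `S`-units of the fixed field, additively. -/
abbrev SU : Type := Additive ↥(sUnitSubgroup M S)

variable {M S}

/-- The element of `ℚ̄` of an `S`-unit. -/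
def suVal (x : SU M S) : Ω := ((x.toMul : ↥(sUnitSubgroup M S)) : Ωˣ)

theorem suVal_ne_zero (x : SU M S) : suVal x ≠ 0 :=
  ((x.toMul : ↥(sUnitSubgroup M S)) : Ωˣ).ne_zero

theorem suVal_fixed (x : SU M S) {m : Γ} (hm : m ∈ M) : m (suVal x) = suVal x :=
  x.toMul.2.1 m hm

theorem suVal_nu (x : SU M S) {q : Nat.Primes} {A : ValuationSubring Ω} (hq : q ∉ S)
    (hA : A.LiesOverPrime (q : ℕ)) : nu q A (suVal x) = 0 :=
  x.toMul.2.2 q A hq hA

theorem suVal_add (x y : SU M S) : suVal (x + y) = suVal x * suVal y := by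
  simp [suVal, toMul_add]

theorem suVal_nsmul (n : ℕ) (x : SU M S) : suVal (n • x) = suVal x ^ n := by
  simp [suVal, toMul_nsmul]

theorem suVal_injective : Function.Injective (suVal (M := M) (S := S)) := fun _ _ h =>
  Additive.toMul.injective (Subtype.ext (Units.ext h))

theorem exists_suVal_eq {a : Ω} (ha : a ≠ 0) (h1 : ∀ m ∈ M, m a = a)
    (h2 : ∀ (q : Nat.Primes) A, q ∉ S → A.LiesOverPrime (q : ℕ) → nu q A a = 0) :
    ∃ x : SU M S, suVal x = a :=
  ⟨Additive.ofMul ⟨Units.mk0 a ha, h1, h2⟩, rfl⟩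

/-- The translate of an `S`-unit by an element normalising `M`. -/
def suTranslate (δ : Γ) (hδ : Normalizes M δ) (x : SU M S) : SU M S :=
  Additive.ofMul ⟨Units.map (δ.toAlgHom.toRingHom.toMonoidHom) (x.toMul : ↥(sUnitSubgroup M S)).1,
    fun m hm => by
      have h := suVal_fixed x ((hδ.inv m).mp hm)
      rw [inv_inv, AlgEquiv.mul_apply, AlgEquiv.mul_apply, AlgEquiv.aut_inv,
        AlgEquiv.symm_apply_eq] at h
      exact h,
    fun q A hq hA => by
      show nu q A (δ (suVal x)) = 0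
      have h := nu_smul q.2 (GalCoh.liesOverPrime_smul hA δ⁻¹) δ (suVal_ne_zero x)
      rw [smul_inv_smul] at h
      rw [h]
      exact suVal_nu x hq (GalCoh.liesOverPrime_smul hA δ⁻¹)⟩

@[simp] theorem suVal_suTranslate (δ : Γ) (hδ : Normalizes M δ) (x : SU M S) :
    suVal (suTranslate δ hδ x) = δ (suVal x) := rfl

variable {p : ℕ} [Fact p.Prime]

/-- A root of an `S`-unit gives a level. -/
theorem exists_root_isUnramified (hM : (levelsS S).mem M) (hpS : pPrime p ∈ S) (x : SU M S)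
    {y : Ω} (hy : y ^ p = suVal x) :
    ∃ F : IntermediateField ℚ Ω, F.IsUnramifiedOutside S ∧ y ∈ F := by
  obtain ⟨E, hE, hEM⟩ := hM
  haveI := hE.1
  have hxE : suVal x ∈ E := mem_of_fixed fun σ hσ => suVal_fixed x (hEM hσ)
  have hy0 : y ≠ 0 := fun h => suVal_ne_zero x (by
    rw [← hy, h, zero_pow (Fact.out : p.Prime).ne_zero])
  obtain ⟨F, hF, -, -, hyF⟩ := exists_root_level hpS hE 1 (fun _ : Unit => y) (fun _ => hy0)
    (fun _ => by rw [pow_one]; exact hy ▸ hxE) fun _ q A hq hA =>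
      ⟨1, one_mem E, one_ne_zero, by
        rw [pow_one, show y ^ ((pPrime p : Nat.Primes) : ℕ) = suVal x from hy, nu_one q.2 hA,
          suVal_nu x hq hA, mul_zero]⟩
  exact ⟨F, hF, hyF ()⟩

variable (hmu : ∀ m ∈ M, cycloChar p m = 1)

include hmu in
theorem apply_root_pow (x : SU M S) {m : Γ} (hm : m ∈ M) :
    m (pRoot p (suVal x) ^ p) = pRoot p (suVal x) ^ p := by
  rw [pRoot_pow (Fact.out : p.Prime).pos, suVal_fixed x hm]

theorem pRoot_ne_zero (x : SU M S) : pRoot p (suVal x) ≠ 0 := fun h => suVal_ne_zero x (by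
  rw [← pRoot_pow (Fact.out : p.Prime).pos (suVal x), h, zero_pow (Fact.out : p.Prime).ne_zero])

include hmu in
/-- The Kummer cochain does not depend on the root. -/
theorem kummer_congr {y y' : Ω} (hy0 : y ≠ 0) (h : y' ^ p = y ^ p) {m : Γ} (hm : m ∈ M) :
    kummer (p := p) y' m = kummer y m := by
  obtain ⟨i, hi⟩ := exists_mu_eq (p := p) (z := y' / y)
    (by rw [div_pow, h, div_self (pow_ne_zero _ hy0)])
  have e : y' = mu p i * y := by rw [hi, div_mul_cancel₀ _ hy0]
  rw [kummer, kummer, e, map_mul, apply_mu_eq (hmu m hm), mul_div_mul_left _ _ (mu_ne_zero i)]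

variable (hpS : pPrime p ∈ S) (hM : (levelsS S).mem M)

include hmu hM hpS in
theorem kummer_mem_Z1 (x : SU M S) :
    (fun m : ↥M => kummer (p := p) (pRoot p (suVal x)) (m : Γ)) ∈
      Z1 (levelsSOn M S) (muOn p M) := by
  rw [mem_Z1_iff]
  have hfix := fun (m : ↥M) => apply_root_pow hmu x m.2
  refine ⟨fun a b => ?_, ?_⟩
  · show kummer _ ((a : Γ) * (b : Γ)) = muRep p (a : Γ) (kummer _ (b : Γ)) + kummer _ (a : Γ)
    rw [muRep_apply, kummer_mul (pRoot_ne_zero x) (hfix a) (hfix b)]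
  · obtain ⟨F, hF, hyF⟩ := exists_root_isUnramified hM hpS x (pRoot_pow (Fact.out : p.Prime).pos _)
    refine ⟨F.fixingSubgroup.comap M.subtype, ⟨_, ⟨F, hF, le_rfl⟩, le_rfl⟩, fun g s hs => ?_⟩
    show kummer _ ((g : Γ) * (s : Γ)) = kummer _ (g : Γ)
    rw [kummer, kummer, AlgEquiv.mul_apply,
      (IntermediateField.mem_fixingSubgroup_iff _ (s : Γ)).mp hs _ hyF]

/-- The Kummer map. -/
def kummerHom : SU M S →+ H1 (levelsSOn M S) (muOn p M) where
  toFun x := H1mk (levelsSOn M S) (muOn p M) ⟨_, kummer_mem_Z1 hmu hpS hM x⟩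
  map_zero' := by
    rw [H1mk_eq_zero_iff, mem_B1_iff]
    refine ⟨0, fun m => ?_⟩
    show kummer (p := p) (pRoot p (suVal (0 : SU M S))) (m : Γ) = _
    have h1 : suVal (0 : SU M S) = 1 := rfl
    rw [map_zero, sub_zero, h1, kummer_congr hmu one_ne_zero (y' := pRoot p 1)
      (by rw [pRoot_pow (Fact.out : p.Prime).pos, one_pow]) m.2, kummer, map_one, div_one]
    exact mu_injective (by rw [mu_muLog (one_pow p), mu_zero])
  map_add' x y := by
    rw [← map_add]
    refine congrArg _ (Subtype.ext (funext fun m => mu_injective (p := p) ?_))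
    have hx := pRoot_ne_zero (p := p) x
    have hy := pRoot_ne_zero (p := p) y
    show mu p (kummer (pRoot p (suVal (x + y))) (m : Γ)) =
      mu p (kummer (pRoot p (suVal x)) (m : Γ) + kummer (pRoot p (suVal y)) (m : Γ))
    rw [kummer_congr hmu (mul_ne_zero hx hy) (y' := pRoot p (suVal (x + y)))
      (by rw [mul_pow, pRoot_pow (Fact.out : p.Prime).pos, pRoot_pow (Fact.out : p.Prime).pos,
        pRoot_pow (Fact.out : p.Prime).pos, suVal_add]) m.2, mu_add,
      mu_kummer hx (apply_root_pow hmu x m.2), mu_kummer hy (apply_root_pow hmu y m.2),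
      mu_kummer (mul_ne_zero hx hy) (by
        rw [mul_pow, map_mul, apply_root_pow hmu x m.2, apply_root_pow hmu y m.2]),
      map_mul, mul_div_mul_comm]

theorem kummerHom_eq_zero_iff (x : SU M S) :
    kummerHom hmu hpS hM x = 0 ↔ ∃ z : SU M S, p • z = x := by
  constructor
  · intro h
    obtain ⟨v, hv⟩ := mem_B1_iff.mp (H1mk_eq_zero_iff.mp h)
    have hfix : ∀ m ∈ M, m (pRoot p (suVal x)) = pRoot p (suVal x) := fun m hm => by
      have h0 : muOn p M ⟨m, hm⟩ v = v := by
        show muRep p m v = v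
        rw [muRep_apply, hmu m hm, Units.val_one, one_mul]
      have h2 : kummer (p := p) (pRoot p (suVal x)) m = 0 := by
        have := hv ⟨m, hm⟩
        rw [h0, sub_self] at this
        exact this
      have h1 := mu_kummer (pRoot_ne_zero x) (apply_root_pow hmu x hm)
      rw [h2, mu_zero, eq_comm, div_eq_one_iff_eq (pRoot_ne_zero x)] at h1
      exact h1
    obtain ⟨z, hz⟩ := exists_suVal_eq (S := S) (pRoot_ne_zero (p := p) x) hfix fun q A hq hA => by
      have := nu_pow q.2 hA (pRoot_ne_zero (p := p) x) p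
      rw [pRoot_pow (Fact.out : p.Prime).pos, suVal_nu x hq hA] at this
      exact (mul_eq_zero.mp this.symm).resolve_left (Nat.cast_ne_zero.mpr (Fact.out : p.Prime).ne_zero)
    exact ⟨z, suVal_injective (by rw [suVal_nsmul, hz, pRoot_pow (Fact.out : p.Prime).pos])⟩
  · rintro ⟨z, rfl⟩
    rw [map_nsmul, ← Nat.cast_smul_eq_nsmul (ZMod p), ZMod.natCast_self, zero_smul]

theorem kummerHom_surjective [NumberField (IntermediateField.fixedField M : IntermediateField ℚ Ω)]
    (hur : (IntermediateField.fixedField M : IntermediateField ℚ Ω).IsUnramifiedOutside S)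
    (hfix : (IntermediateField.fixedField M : IntermediateField ℚ Ω).fixingSubgroup = M)
    (hgen : GenClass (primesOver S (IntermediateField.fixedField M : IntermediateField ℚ Ω))) :
    Function.Surjective (kummerHom hmu hpS hM) := by
  intro z
  obtain ⟨⟨c, hc⟩, rfl⟩ := H1mk_surjective z
  obtain ⟨hcoc, U, ⟨V, hV, hVU⟩, hU⟩ := mem_Z1_iff.mp hc
  obtain ⟨F, hF, hFV⟩ := id hV
  obtain ⟨E, hE, hEM⟩ := id hM
  haveI := (hE.sup hF).1
  let a : Γ → Ω := fun s => mu p (ext₁ c s)
  obtain ⟨x, hx0, hx⟩ := hilbert90 (J := M) (a := a)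
    (show fullLevels.mem V from ⟨F, hF.1, hFV⟩) (fun s _ => mu_ne_zero _) (fun s hs t ht => by
      have h := hcoc ⟨s, hs⟩ ⟨t, ht⟩
      simp only [a, apply_mu, ← mu_add]
      congr 1
      rw [ext₁, dif_pos (M.mul_mem hs ht), ext₁, dif_pos ht, ext₁, dif_pos hs]
      exact h.trans (congrArg (· + _) (muRep_apply p s _)))
    fun s hs t ht htV => by
      simp only [a, ext₁, dif_pos (M.mul_mem hs ht), dif_pos hs]
      exact congrArg (mu p) (hU ⟨s, hs⟩ ⟨t, ht⟩ (hVU htV))
  have hxE : x ∈ E ⊔ F := mem_of_fixed fun σ hσ => by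
    have hσM : σ ∈ M := hEM (IntermediateField.fixingSubgroup_antitone le_sup_left hσ)
    have hσV : σ ∈ V := hFV (IntermediateField.fixingSubgroup_antitone le_sup_right hσ)
    have h0 : c ⟨σ, hσM⟩ = 0 := by
      have h1 := hU 1 ⟨σ, hσM⟩ (hVU hσV)
      rw [one_mul, Z1.map_one hc] at h1
      exact h1
    have h2 := hx σ hσM
    simp only [a, ext₁, dif_pos hσM, h0, mu_zero, eq_comm (a := (1 : Ω)),
      div_eq_one_iff_eq hx0] at h2
    exact h2
  let D : ValuationSubring Ω → ℤ := fun A => intNu S A x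
  have hD : ∀ (q : Nat.Primes) A, q ∉ S → A.LiesOverPrime (q : ℕ) → nu q A x = D A :=
    fun q A hq hA => intNu_spec hq hA (exists_int_nu (hE.sup hF) hq hA hxE hx0)
  have hM' : ∀ n ∈ (IntermediateField.fixedField M : IntermediateField ℚ Ω).fixingSubgroup,
      n ∈ M := fun n hn => hfix ▸ hn
  obtain ⟨b, hb, hb0, hbD⟩ := exists_base_elem hur hgen D
    (fun n hn q A hq hA => Int.cast_injective (α := ℚ) (by
      rw [← hD q _ hq (GalCoh.liesOverPrime_smul hA n), ← hD q A hq hA]
      have hnM := hM' n hn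
      have hn1 := M.inv_mem hnM
      have h1 := hx n⁻¹ hn1
      rw [eq_div_iff hx0] at h1
      have h2 := nu_smul q.2 hA n (show n⁻¹ x ≠ 0 by simpa using hx0)
      rw [AlgEquiv.aut_inv, AlgEquiv.apply_symm_apply] at h2
      rw [h2, ← AlgEquiv.aut_inv, ← h1, nu_mul q.2 hA (mu_ne_zero _) hx0,
        nu_of_pow_eq_one q.2 hA (Fact.out : p.Prime).ne_zero (mu_pow _), zero_add]))
    (by
      obtain ⟨T, hT⟩ := exists_finite_nu hx0
      exact ⟨T, fun q A hq hqT hA => Int.cast_injective (α := ℚ) (by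
        rw [← hD q A hq hA, hT q A hqT hA, Int.cast_zero])⟩)
  have hbfix : ∀ m ∈ M, m b = b := fun m hm =>
    (IntermediateField.mem_fixedField_iff _ _).mp hb m hm
  set y := x / b with hy
  have hy0 : y ≠ 0 := div_ne_zero hx0 hb0
  have hmy : ∀ (m : Γ) (hm : m ∈ M), m y / y = mu p (c ⟨m, hm⟩) := fun m hm => by
    have h2 := hx m hm
    simp only [a, ext₁, dif_pos hm] at h2
    rw [h2, hy, map_div₀, hbfix m hm]
    field_simp
  obtain ⟨u, hu⟩ := exists_suVal_eq (M := M) (S := S) (pow_ne_zero p hy0) (fun m hm => by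
      have h1 := congrArg (· ^ p) (hmy m hm)
      simp only [div_pow, mu_pow, ← map_pow, div_eq_one_iff_eq (pow_ne_zero p hy0)] at h1
      exact h1)
    (fun q A hq hA => by
      rw [nu_pow q.2 hA hy0, hy, nu_div q.2 hA hx0 hb0, hD q A hq hA, hbD q A hq hA, sub_self,
        mul_zero])
  refine ⟨u, congrArg _ (Subtype.ext (funext fun m => ?_))⟩
  show kummer (p := p) (pRoot p (suVal u)) (m : Γ) = c m
  rw [kummer_congr hmu hy0 (by rw [pRoot_pow (Fact.out : p.Prime).pos, hu]) m.2]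
  refine mu_injective ?_
  rw [mu_kummer hy0 (by rw [← hu, suVal_fixed u m.2]), hmy _ m.2]

theorem kummerHom_suTranslate (δ : Γ) (hδ : Normalizes M δ) (x : SU M S) :
    kummerHom hmu hpS hM (suTranslate δ hδ x) =
      (conjSub (levelsS S) (muRep p) δ hδ).map₁ (kummerHom hmu hpS hM x) := by
  show H1mk (levelsSOn M S) (muOn p M) ⟨_, kummer_mem_Z1 hmu hpS hM (suTranslate δ hδ x)⟩ =
    (conjSub (levelsS S) (muRep p) δ hδ).map₁
      (H1mk (levelsSOn M S) (muOn p M) ⟨_, kummer_mem_Z1 hmu hpS hM x⟩)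
  rw [Mor.map₁_mk]
  refine congrArg _ (Subtype.ext (funext fun m => mu_injective (p := p) ?_))
  have hr := pRoot_ne_zero (p := p) x
  have hm' : δ⁻¹ * (m : Γ) * δ ∈ M := by
    have := (hδ.inv (m : Γ)).mp m.2
    rwa [inv_inv] at this
  show mu p (kummer (pRoot p (suVal (suTranslate δ hδ x))) (m : Γ)) =
    mu p (muRep p δ (kummer (pRoot p (suVal x)) (δ⁻¹ * (m : Γ) * δ⁻¹⁻¹)))
  have hfix : (m : Γ) (δ (pRoot p (suVal x)) ^ p) = δ (pRoot p (suVal x)) ^ p := by
    rw [← map_pow, pRoot_pow (Fact.out : p.Prime).pos]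
    exact suVal_fixed (suTranslate δ hδ x) m.2
  rw [inv_inv, muRep_apply, ← apply_mu, mu_kummer hr (apply_root_pow hmu x hm'),
    kummer_congr hmu (y := δ (pRoot p (suVal x))) (by simpa using hr)
      (by rw [pRoot_pow (Fact.out : p.Prime).pos, ← map_pow, pRoot_pow (Fact.out : p.Prime).pos,
        suVal_suTranslate]) m.2,
    mu_kummer (by simpa using hr) hfix, map_div₀, AlgEquiv.mul_apply, AlgEquiv.mul_apply,
    AlgEquiv.aut_inv, AlgEquiv.apply_symm_apply]

end Fermat.Agent.GalCoh.Euler
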