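import Fermat.Agent.GalCoh.CorBase
import Fermat.Agent.GalCoh.Euler.Conj

/-!
# The invariants of the classes of degree two with values in `μ_p`

For `S` large, `H²` of a subgroup `K` with trivial action on `μ_p` is the space of functions on its
relevant places over `S ∪ {∞}` with sum zero.
-/

set_option autoImplicit false
set_option linter.unusedSectionVars false
set_option linter.style.haveILetI false

noncomputable section

namespace Fermat.Agent.GalCoh.Euler

open ExtCitation MulAction

local notation "Γ" => (AlgebraicClosure ℚ ≃ₐ[ℚ] AlgebraicClosure ℚ)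

variable {p : ℕ} [Fact p.Prime] {S : Finset Nat.Primes} {K N : Subgroup Γ}

theorem map₂_eq_zero_of_zero {k G G' V W : Type} [CommRing k] [Group G] [Group G'] [AddCommGroup V]
    [Module k V] [AddCommGroup W] [Module k W] {L : Levels G} {L' : Levels G'}
    {ρ : Representation k G V} {σ : Representation k G' W} (m : Mor L L' ρ σ) (h : m.φ = 0)
    (z : H2 L ρ) : m.map₂ z = 0 := by
  obtain ⟨F, rfl⟩ := H2mk_surjective z
  rw [Mor.map₂_mk]
  refine (congrArg _ (Subtype.ext (funext fun q => ?_))).trans (map_zero (H2mk L' σ))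
  show m.φ _ = 0
  rw [h]
  rfl

variable (S K)

/-- Being above the same place of the field fixed by `K`. -/
def placeSetoid (u : extArithIndex S) : Setoid (Γ ⧸ K) :=
  @MulAction.orbitRel (placeGroup (toPlace u)) (Γ ⧸ K) _ (pullAction (placeLoc (toPlace u)) (Γ ⧸ K))

/-- The places of the fixed field of `K` above `S ∪ {∞}`. -/
def PlaceIdx : Type := Σ u : extArithIndex S, Quotient (placeSetoid S K u)

variable {S K}

theorem placeSetoid_rel {u : extArithIndex S} {x y : Γ ⧸ K} :
    (placeSetoid S K u).r x y ↔ ∃ d, placeLoc (toPlace u) d • y = x :=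
  Iff.rfl

theorem placeSetoid_mk_eq {u : extArithIndex S} {x y : Γ ⧸ K} :
    (Quotient.mk (placeSetoid S K u) x) = Quotient.mk _ y ↔
      ∃ d, placeLoc (toPlace u) d • y = x :=
  ⟨fun h => placeSetoid_rel.mp (Quotient.exact h), fun h => Quotient.sound (placeSetoid_rel.mpr h)⟩

instance [Finite (Γ ⧸ K)] : Finite (PlaceIdx S K) :=
  inferInstanceAs (Finite (Σ u : extArithIndex S, Quotient (placeSetoid S K u)))

theorem exists_toPlace_eq {v : Place} (h : InPlaces S v) : ∃ u : extArithIndex S, toPlace u = v := by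
  rcases v with u | q
  · exact ⟨Sum.inl u, rfl⟩
  · exact ⟨Sum.inr ⟨q, h⟩, rfl⟩

theorem toPlace_injective : Function.Injective (toPlace (S := S))
  | Sum.inl _, Sum.inl _, _ => rfl
  | Sum.inl _, Sum.inr _, h => nomatch h
  | Sum.inr _, Sum.inl _, h => nomatch h
  | Sum.inr _, Sum.inr _, h => congrArg Sum.inr (Subtype.ext (Sum.inr_injective h))

theorem placePoint_out_inv (x : Γ ⧸ K) : placePoint K x.out⁻¹ = x := by
  simp [placePoint]

/-- The relevant places: finite ones, and real ones when `p = 2`. -/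
def IsRelevantIdx (p : ℕ) (i : PlaceIdx S K) : Prop :=
  match i.1 with
  | Sum.inl _ => p = 2 ∧ ∀ x : Γ ⧸ K, Quotient.mk _ x = i.2 → complexConjugation • x = x
  | Sum.inr _ => True

variable (p S K)

/-- Classes of the permutation module of `K`. -/
abbrev PX2 : Type := H2 (levelsS S) (permRep (muRep p) (Γ ⧸ K))

variable {p S K}

/-- The component at a point of `Γ ⧸ K`. -/
def cpt (u : extArithIndex S) (x : Γ ⧸ K) :
    PX2 p S K →ₗ[ZMod p]
      H2 ((levelsOn K).comap (decompToH K (toPlace u) x.out⁻¹))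
        ((muOn p K).comp (decompToH K (toPlace u) x.out⁻¹)) :=
  compS p S K (toPlace u) x.out⁻¹ ∘ₗ (evalMor (levelsS S) (muRep p) K).map₂

theorem cpt_eq_pointLoc (u : extArithIndex S) (x : Γ ⧸ K) (W : PX2 p S K) :
    cpt u x W = (pointLoc p (levelsS S) (compat_levelsS S) K (toPlace u) x.out⁻¹).map₂ W := by
  rw [← placeMor_evalMor]
  rfl

theorem compat_locLevels (S : Finset Nat.Primes) (v : Place) :
    (levelsS S).Compat (localLevels (placeLoc v)) (placeLoc v) :=
  (compat_levelsS S).comp (fullLevels.compat_comap _)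

section Mask

variable [Fintype (Γ ⧸ K)] (p)

open Classical in
/-- The sum over the points above a place. -/
def maskMor (u : extArithIndex S) (o : Quotient (placeSetoid S K u)) :
    Mor (levelsS S) (localLevels (placeLoc (toPlace u))) (permRep (muRep p) (Γ ⧸ K))
      ((muRep p).comp (placeLoc (toPlace u))) where
  f := placeLoc (toPlace u)
  φ := ∑ x ∈ Finset.univ.filter fun x : Γ ⧸ K => Quotient.mk _ x = o, LinearMap.proj x
  comm d f := by
    simp only [LinearMap.sum_apply, LinearMap.proj_apply, permRep_apply, map_sum,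
      MonoidHom.coe_comp, Function.comp_apply]
    refine Finset.sum_equiv (MulAction.toPerm (placeLoc (toPlace u) d)⁻¹) (fun x => ?_)
      fun x _ => rfl
    simp only [Finset.mem_filter, Finset.mem_univ, true_and, MulAction.toPerm_apply]
    have : Quotient.mk (placeSetoid S K u) ((placeLoc (toPlace u) d)⁻¹ • x) = Quotient.mk _ x :=
      placeSetoid_mk_eq.mpr ⟨d⁻¹, by rw [map_inv]⟩
    rw [this]
  compat := compat_locLevels S _

variable {p}

/-- If all components above a place vanish, so does the sum over the place. -/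
theorem maskMor_eq_zero (hK : (levelsS S).mem K) (hρ : IsCtsRep (levelsS S) (muRep p))
    (u : extArithIndex S) (o : Quotient (placeSetoid S K u)) (W : PX2 p S K)
    (h : ∀ x, Quotient.mk _ x = o → cpt u x W = 0) : (maskMor p u o).map₂ W = 0 := by
  classical
  let := pullAction (placeLoc (toPlace u)) (Γ ⧸ K)
  have hc := compat_locLevels S (toPlace u)
  let mI : Representation.IntertwiningMap
      (permRep ((muRep p).comp (placeLoc (toPlace u))) (Γ ⧸ K))
      (permRep ((muRep p).comp (placeLoc (toPlace u))) (Γ ⧸ K)) :=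
    LinearMap.intertwiningMap_of_isIntertwiningMap _ _
      (LinearMap.pi fun x => if Quotient.mk (placeSetoid S K u) x = o then LinearMap.proj x else 0)
      fun d f => funext fun x => by
        have hx : Quotient.mk (placeSetoid S K u) (d⁻¹ • x) = Quotient.mk _ x :=
          placeSetoid_mk_eq.mpr ⟨d⁻¹, rfl⟩
        simp only [LinearMap.pi_apply, permRep_apply, hx]
        split_ifs <;> simp
  let W₁ := (permRes (levelsS S) (localLevels (placeLoc (toPlace u))) (muRep p) (Γ ⧸ K)
      (placeLoc (toPlace u)) hc).map₂ W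
  have hW : (Mor.ofMap (localLevels (placeLoc (toPlace u))) mI).map₂ W₁ = 0 := by
    refine eq_zero_of_pointMor_eq_zero (hρ.comp hc) (fun x => ?_) _ fun q => ?_
    · obtain ⟨M, hM, hMn, hMK⟩ := (levelsS S).exists_normal hK
      refine (localLevels _).mono (U := M.comap (placeLoc (toPlace u)))
        ⟨M, by simpa using compat_levelsS S hM, le_rfl⟩ fun d hd => ?_
      exact smul_eq_self_of_normal hMn hMK hd x
    · generalize q.out = x
      by_cases hx : Quotient.mk (placeSetoid S K u) x = o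
      · have h1 := toStabMor_pointLoc (compat_levelsS S) (toPlace u) x.out⁻¹ W
        rw [← cpt_eq_pointLoc, h x hx, map_zero, placePoint_out_inv] at h1
        rw [Mor.map₂_map₂]
        refine Eq.trans ?_ h1.symm
        refine Mor.map₂_congr ?_ ?_ W₁
        · rfl
        refine LinearMap.ext fun f => ?_
        show (if Quotient.mk (placeSetoid S K u) x = o then LinearMap.proj x else 0) f = f x
        rw [if_pos hx]
        rfl
      · rw [Mor.map₂_map₂]
        refine map₂_eq_zero_of_zero _ (LinearMap.ext fun f => ?_) W₁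
        show (if Quotient.mk (placeSetoid S K u) x = o then LinearMap.proj x else 0) f = 0
        rw [if_neg hx]
        rfl
  have hm := congrArg (Mor.ofMap (localLevels (placeLoc (toPlace u)))
    (sumMap ((muRep p).comp (placeLoc (toPlace u))) (Γ ⧸ K))).map₂ hW
  rw [map_zero] at hm
  simp only [W₁, Mor.map₂_map₂] at hm
  refine Eq.trans (Mor.map₂_congr ?_ ?_ W) hm
  · ext d; rfl
  · refine LinearMap.ext fun f => ?_
    show (∑ x ∈ Finset.univ.filter fun x : Γ ⧸ K => Quotient.mk _ x = o,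
      (LinearMap.proj x : (Γ ⧸ K → ZMod p) →ₗ[ZMod p] ZMod p)) f = sumMap ((muRep p).comp (placeLoc (toPlace u))) (Γ ⧸ K) (mI f)
    rw [sumMap_apply, LinearMap.sum_apply, Finset.sum_filter]
    refine Finset.sum_congr rfl fun x _ => ?_
    show _ = (if Quotient.mk (placeSetoid S K u) x = o then LinearMap.proj x else 0) f
    split_ifs <;> rfl

/-- Above a place with one point, the sum is the component. -/
theorem cpt_eq_zero_of_maskMor (u : extArithIndex S) (x : Γ ⧸ K)
    (hfix : ∀ d, placeLoc (toPlace u) d • x = x) (W : PX2 p S K)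
    (h : (maskMor p u (Quotient.mk _ x)).map₂ W = 0) : cpt u x W = 0 := by
  classical
  have hset : (Finset.univ.filter fun y : Γ ⧸ K =>
      Quotient.mk (placeSetoid S K u) y = Quotient.mk _ x) = {x} := by
    ext y
    simp only [Finset.mem_filter, Finset.mem_univ, true_and, Finset.mem_singleton,
      placeSetoid_mk_eq]
    exact ⟨fun ⟨d, hd⟩ => by rw [← hd, hfix], fun e => ⟨1, by rw [map_one, one_smul, e]⟩⟩
  let g : Γ := x.out⁻¹
  let T : Mor (localLevels (placeLoc (toPlace u))) ((levelsOn K).comap (decompToH K (toPlace u) g))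
      ((muRep p).comp (placeLoc (toPlace u))) ((muOn p K).comp (decompToH K (toPlace u) g)) :=
    toSplit p K (toPlace u) g
  have h1 := congrArg T.map₂ h
  rw [map_zero, Mor.map₂_map₂] at h1
  rw [cpt_eq_pointLoc, ← h1]
  refine Mor.map₂_congr ?_ ?_ W
  · rfl
  refine LinearMap.ext fun f => ?_
  show muRep p g (f (placePoint K g)) = muRep p g
    ((∑ y ∈ Finset.univ.filter fun y : Γ ⧸ K => Quotient.mk (placeSetoid S K u) y = Quotient.mk _ x,
      (LinearMap.proj y : (Γ ⧸ K → ZMod p) →ₗ[ZMod p] ZMod p)) f)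
  rw [hset, Finset.sum_singleton, show placePoint K g = x from placePoint_out_inv x]
  rfl

end Mask

variable [Fintype (Γ ⧸ K)]
  (inv : ∀ v : Place,
    H2 (localLevels (placeLoc v)) ((muRep p).comp (placeLoc v)) →ₗ[ZMod p] ZMod p)

/-- The invariants of a class at the places above `S ∪ {∞}`. -/
def theta : PX2 p S K →ₗ[ZMod p] (PlaceIdx S K → ZMod p) :=
  LinearMap.pi fun i => inv (toPlace i.1) ∘ₗ (maskMor p i.1 i.2).map₂

theorem theta_apply (W : PX2 p S K) (i : PlaceIdx S K) :
    theta inv W i = inv (toPlace i.1) ((maskMor p i.1 i.2).map₂ W) := rfl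

theorem sum_theta [Fintype (PlaceIdx S K)] (hsum : ∀ z : H2 (levelsS S) (muRep p),
      ∑ u : extArithIndex S, inv (toPlace u)
        ((Mor.res (levelsS S) (localLevels (placeLoc (toPlace u))) (muRep p)
          (placeLoc (toPlace u)) (compat_locLevels S _)).map₂ z) = 0)
    (W : PX2 p S K) : ∑ i, theta inv W i = 0 := by
  classical
  haveI : ∀ u : extArithIndex S, Fintype (Quotient (placeSetoid S K u)) := fun u =>
    Fintype.ofFinite _
  rw [← hsum ((Mor.ofMap (levelsS S) (sumMap (muRep p) (Γ ⧸ K))).map₂ W)]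
  have e : (Finset.univ : Finset (PlaceIdx S K)) =
      (Finset.univ : Finset (Σ u : extArithIndex S, Quotient (placeSetoid S K u))) :=
    Finset.ext fun i => ⟨fun _ => Finset.mem_univ (α := Σ u : extArithIndex S, Quotient (placeSetoid S K u)) i,
      fun _ => Finset.mem_univ (α := PlaceIdx S K) i⟩
  rw [e]
  refine (Fintype.sum_sigma (fun i : Σ u : extArithIndex S, Quotient (placeSetoid S K u) =>
    theta inv W i)).trans (Finset.sum_congr rfl fun u _ => ?_)
  simp only [theta_apply]
  refine (map_sum (inv (toPlace u)) _ _).symm.trans (congrArg _ ?_)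
  rw [Mor.map₂_map₂]
  refine (Mor.map₂_eq_sum _ (fun o => maskMor p u o) (fun o => rfl) (LinearMap.ext fun f => ?_)
    W).symm
  show sumMap (muRep p) (Γ ⧸ K) f = (∑ o : Quotient (placeSetoid S K u), ∑ x ∈ Finset.univ.filter
    fun x : Γ ⧸ K => Quotient.mk _ x = o,
      (LinearMap.proj x : (Γ ⧸ K → ZMod p) →ₗ[ZMod p] ZMod p)) f
  rw [sumMap_apply, Finset.sum_fiberwise, LinearMap.sum_apply]
  rfl

section Large

variable (h : LargeS p S N) (hC : CFTInputs p) (hK : N ≤ K) (hmu : ∀ σ ∈ K, cycloChar p σ = 1)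
  (hinj : ∀ v, Function.Injective (inv v))

include h hK hmu in
theorem cpt_eq_zero_of_mk_eq {u : extArithIndex S} {x y : Γ ⧸ K}
    (hxy : Quotient.mk (placeSetoid S K u) x = Quotient.mk _ y) {W : PX2 p S K}
    (hW : cpt u x W = 0) : cpt u y W = 0 := by
  obtain ⟨d, hd⟩ := placeSetoid_mk_eq.mp hxy.symm
  exact compS_eq_zero_of_samePlace hmu
    (samePlace_of_smul (by rwa [placePoint_out_inv, placePoint_out_inv])) hW

include h hK hmu hinj in
theorem theta_eq_zero_of_cpt {i : PlaceIdx S K} {x : Γ ⧸ K} (hx : Quotient.mk _ x = i.2)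
    {W : PX2 p S K} (hW : cpt i.1 x W = 0) : theta inv W i = 0 := by
  rw [theta_apply, maskMor_eq_zero (h.mem_of_le hK) h.isCtsRep_muRep i.1 i.2 W
    (fun y hy => cpt_eq_zero_of_mk_eq h hK hmu (hx.trans hy.symm) hW), map_zero]

include hinj in
theorem cpt_eq_zero_of_theta_fix {i : PlaceIdx S K} {x : Γ ⧸ K} (hx : Quotient.mk _ x = i.2)
    (hfix : ∀ d, placeLoc (toPlace i.1) d • x = x) {W : PX2 p S K} (hW : theta inv W i = 0) :
    cpt i.1 x W = 0 := by
  refine cpt_eq_zero_of_maskMor i.1 x hfix W ((injective_iff_map_eq_zero _).mp (hinj _) _ ?_)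
  rw [hx]
  exact hW

include h hK in
theorem cpt_eq_zero_of_not_relevant {u : Unit} {x : Γ ⧸ K}
    (hx : ¬ (p = 2 ∧ complexConjugation • x = x)) (W : PX2 p S K) :
    cpt (Sum.inl u : extArithIndex S) x W = 0 := by
  refine compS_inl_eq_zero h.split_level u x.out⁻¹ fun hg => ?_
  refine realVanish_of_ne_two (fun hp => hx ⟨hp, ?_⟩) _ _ x.out⁻¹ hg
  conv_rhs => rw [← x.out_eq']
  conv_lhs => rw [← x.out_eq', MulAction.Quotient.smul_coe]
  rw [eq_comm, QuotientGroup.eq, smul_eq_mul, ← mul_assoc]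
  simpa [conjC] using hg

include h hK hmu hinj in
theorem theta_eq_zero_of_not_relevant {i : PlaceIdx S K} (hi : ¬ IsRelevantIdx p i)
    (W : PX2 p S K) : theta inv W i = 0 := by
  obtain ⟨u | q, o⟩ := i
  · obtain ⟨x, hx, hxne⟩ : ∃ x : Γ ⧸ K, Quotient.mk _ x = o ∧
        ¬ (p = 2 ∧ complexConjugation • x = x) := by
      obtain ⟨x₀, hx₀⟩ := Quotient.exists_rep o
      by_cases hp : p = 2
      · obtain ⟨x, hx, hne⟩ : ∃ x : Γ ⧸ K, Quotient.mk _ x = o ∧
            complexConjugation • x ≠ x := by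
          by_contra! hall
          exact hi ⟨hp, hall⟩
        exact ⟨x, hx, fun e => hne e.2⟩
      · exact ⟨x₀, hx₀, fun e => hp e.1⟩
    exact theta_eq_zero_of_cpt inv h hK hmu hinj hx (cpt_eq_zero_of_not_relevant h hK hxne W)
  · exact absurd trivial hi

include h hK in
theorem fix_of_split {q : Nat.Primes} (hqS : q ∈ S) (hq : SplitIn N q) (x : Γ ⧸ K)
    (d : placeGroup (toPlace (Sum.inr ⟨q, hqS⟩ : extArithIndex S))) :
    placeLoc (toPlace (Sum.inr ⟨q, hqS⟩ : extArithIndex S)) d • x = x :=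
  splitIn_smul_eq hq h.split_level.normal hK d x

theorem fix_of_real {u : Unit} {x : Γ ⧸ K} (hx : complexConjugation • x = x)
    (d : placeGroup (toPlace (Sum.inl u : extArithIndex S))) :
    placeLoc (toPlace (Sum.inl u : extArithIndex S)) d • x = x := by
  rcases arch_cases u d with rfl | hd
  · exact (congrArg (· • x) (map_one _)).trans (one_smul _ x)
  · exact (congrArg (· • x) hd).trans hx

include h hC hK hmu in
/-- A class supported at a given relevant place and a split one, nonzero at the given one. -/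
theorem exists_pair (i₀ : PlaceIdx S K) {q₀ : Nat.Primes} (hq₀S : q₀ ∈ S) (hq₀ : SplitIn N q₀)
    (hi₀ : i₀ = ⟨Sum.inr ⟨q₀, hq₀S⟩, Quotient.mk _ (placePoint K 1)⟩)
    (i : PlaceIdx S K) (hi : IsRelevantIdx p i) (hne : i ≠ i₀) :
    ∃ W : PX2 p S K,
      (∀ x, Quotient.mk _ x = i.2 → cpt i.1 x W ≠ 0) ∧
      ((∃ q, i.1 = Sum.inr q) → ∀ x, Quotient.mk _ x = i₀.2 → cpt i₀.1 x W ≠ 0) ∧
      ∀ j, j ≠ i → j ≠ i₀ → ∀ x, Quotient.mk _ x = j.2 → cpt j.1 x W = 0 := by
  subst hi₀
  obtain ⟨u, o⟩ := i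
  obtain ⟨x, rfl⟩ := Quotient.exists_rep o
  set u₀ : extArithIndex S := Sum.inr ⟨q₀, hq₀S⟩
  have hρ := h.isCtsRep_muRep
  have hKm := h.mem_of_le hK
  have htrans : ∀ {u' u'' : extArithIndex S} {g g' : Γ},
      SamePlace K (toPlace u') g (toPlace u'') g' →
        (⟨u', Quotient.mk _ (placePoint K g)⟩ : PlaceIdx S K) =
          ⟨u'', Quotient.mk _ (placePoint K g')⟩ := by
    rintro u' u'' g g' ⟨he, k, hk, d, hd⟩
    obtain rfl := toPlace_injective he
    refine congrArg (Sigma.mk u') (placeSetoid_mk_eq.mpr ⟨d, ?_⟩)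
    subst hd
    rw [placePoint, MulAction.Quotient.smul_coe, QuotientGroup.eq]
    simpa [mul_assoc] using K.inv_mem hk
  have hsw : ∀ {g : Γ}, ¬ SamePlace K (Sum.inr q₀) 1 (toPlace u) g ∨ placePoint K g ≠ x := by
    intro g
    by_cases hg : placePoint K g = x
    · refine Or.inl fun hs => hne ?_
      rw [← hg]
      exact (htrans (u' := u₀) hs).symm
    · exact Or.inr hg
  have hidx : ∀ (j : PlaceIdx S K) y, Quotient.mk _ y = j.2 →
      j = ⟨j.1, Quotient.mk _ (placePoint K y.out⁻¹)⟩ := fun j y hy => by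
    rw [placePoint_out_inv, hy]; rfl
  have hns : ¬ SamePlace K (Sum.inr q₀) 1 (toPlace u) x.out⁻¹ :=
    (hsw (g := x.out⁻¹)).resolve_right (fun hh => hh (placePoint_out_inv x))
  suffices H : ∃ z : H2 (levelsSOn K S) (muOn p K),
      compS p S K (toPlace u) x.out⁻¹ z ≠ 0 ∧
      ((∃ q, u = Sum.inr q) → compS p S K (Sum.inr q₀) 1 z ≠ 0) ∧
      ∀ v g, ¬ SamePlace K (toPlace u) x.out⁻¹ v g → ¬ SamePlace K (Sum.inr q₀) 1 v g →
        compS p S K v g z = 0 by
    obtain ⟨z, h1, h2, h3⟩ := H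
    obtain ⟨W, rfl⟩ := (evalMor_map₂_bijective (ρ := muRep p) hρ hKm).2 z
    refine ⟨W, fun y hy h0 => h1 ?_, fun hf y hy h0 => h2 hf ?_, fun j hj hj₀ y hy => ?_⟩
    · exact compS_eq_zero_of_samePlace hmu (samePlace_out _ _)
        (cpt_eq_zero_of_mk_eq h hK hmu (hy.trans (congrArg _ (placePoint_out_inv x).symm)) h0)
    · exact compS_eq_zero_of_samePlace hmu (samePlace_out _ _)
        (cpt_eq_zero_of_mk_eq h hK hmu (y := placePoint K 1) hy h0)
    · refine h3 _ _ (fun hs => hj ?_) fun hs => hj₀ ?_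
      · refine (hidx j y hy).trans ((htrans hs).symm.trans ?_)
        rw [placePoint_out_inv]
      · exact (hidx j y hy).trans (htrans (u' := u₀) hs).symm
  rcases u with u | ⟨q, hqS⟩
  · obtain ⟨hp, hreal⟩ := hi
    have hfx : complexConjugation • x = x := hreal x rfl
    have hg : x.out⁻¹ * complexConjugation * x.out⁻¹⁻¹ ∈ K := by
      rw [← x.out_eq', MulAction.Quotient.smul_coe, eq_comm, QuotientGroup.eq, smul_eq_mul,
        ← mul_assoc] at hfx
      rw [inv_inv]
      exact hfx
    obtain ⟨z₀, h1, h3⟩ := (hC.twoPlaceClasses N h.split_level.mem h.split_level.normal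
      h.split_level.mu h.split_level.complex q₀ hq₀ 1).2 hp K hK u x.out⁻¹ hg
    obtain ⟨z, hz⟩ := (h.good K hK).surj z₀ fun v g hv =>
      h3 v g (fun hs => hv (by obtain ⟨rfl, -⟩ := hs; trivial))
        fun hs => hv (by obtain ⟨rfl, -⟩ := hs; exact hq₀S)
    have hzc : ∀ v g, compS p S K v g z = (placeMor p K v g).map₂ z₀ := fun v g => by
      rw [compS, LinearMap.comp_apply, hz]
    exact ⟨z, by rw [hzc]; exact h1, (fun e => e.elim fun q hq => nomatch hq),
      fun v g hw hs => (hzc v g).trans (h3 v g hw hs)⟩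
  · obtain ⟨y₀, hy2, hy3⟩ := (hC.twoPlaceClasses N h.split_level.mem h.split_level.normal
      h.split_level.mu h.split_level.complex q₀ hq₀ 1).1 q x.out⁻¹ fun hs => by
        obtain ⟨e, k, hk, d, hd⟩ := hs
        exact hns ⟨e, k, hK hk, d, hd⟩
    obtain ⟨y, hy⟩ := (h.good N le_rfl).surj y₀ fun v g hv => by
      refine hy3 v g (fun hs => hv ?_) fun hs => hv ?_
      · obtain ⟨rfl, -⟩ := hs; exact hq₀S
      · obtain ⟨rfl, -⟩ := hs; exact hqS
    have hyc : ∀ v g, compS p S N v g y = (placeMor p N v g).map₂ y₀ := fun v g => by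
      rw [compS, LinearMap.comp_apply, hy]
    have lift : ∀ {v v' : Place} {g g' : Γ}, SamePlace N v g v' g' → SamePlace K v g v' g' :=
      fun ⟨e, k, hk, d, hd⟩ => ⟨e, k, hK hk, d, hd⟩
    have hsupp : ∀ v g, ¬ SamePlace K (Sum.inr q) x.out⁻¹ v g →
        ¬ SamePlace K (Sum.inr q₀) 1 v g → compS p S K v g (corNK h K y) = 0 := by
      refine fun v g hw hs => compS_corNK_eq_zero h v g y fun g' hg' => ?_
      rw [hyc]
      exact hy3 v g' (fun h1 => hs ((lift h1).trans hg'.symm))
        fun h1 => hw ((lift h1).trans hg'.symm)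
    have hs0 : compS p S K (Sum.inr q₀) 1 (corNK h K y) ≠ 0 := by
      refine compS_corNK_ne_zero h hK hq₀ 1 y (fun g hg hgn => ?_) (by rwa [hyc])
      rw [hyc]
      exact hy3 _ g hgn fun h1 => hns (hg.trans (lift h1).symm)
    refine ⟨corNK h K y, fun h0 => ?_, fun _ => hs0, hsupp⟩
    refine hs0 (compS_split_eq_zero h hK hC.reciprocity hq₀S hq₀ 1 _ fun v g hv hs => ?_)
    by_cases hw : SamePlace K (Sum.inr q) x.out⁻¹ v g
    · exact compS_eq_zero_of_samePlace hmu hw h0
    · exact hsupp v g hw hs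

variable (hsum : ∀ z : H2 (levelsS S) (muRep p),
    ∑ u : extArithIndex S, inv (toPlace u)
      ((Mor.res (levelsS S) (localLevels (placeLoc (toPlace u))) (muRep p)
        (placeLoc (toPlace u)) (compat_locLevels S _)).map₂ z) = 0)

include h hC hK hmu hinj hsum in
/-- The image of a pair class. -/
theorem exists_theta_pair [Fintype (PlaceIdx S K)] (i₀ : PlaceIdx S K) {q₀ : Nat.Primes}
    (hq₀S : q₀ ∈ S) (hq₀ : SplitIn N q₀)
    (hi₀ : i₀ = ⟨Sum.inr ⟨q₀, hq₀S⟩, Quotient.mk _ (placePoint K 1)⟩)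
    (i : PlaceIdx S K) (hi : IsRelevantIdx p i) (hne : i ≠ i₀) :
    ∃ W : PX2 p S K, theta inv W i ≠ 0 ∧ theta inv W i₀ = -theta inv W i ∧
      ∀ j, j ≠ i → j ≠ i₀ → theta inv W j = 0 := by
  classical
  obtain ⟨W, h1, h2, h3⟩ := exists_pair h hC hK hmu i₀ hq₀S hq₀ hi₀ i hi hne
  have hoff : ∀ j, j ≠ i → j ≠ i₀ → theta inv W j = 0 := fun j hj hj₀ => by
    obtain ⟨y, hy⟩ := Quotient.exists_rep j.2
    exact theta_eq_zero_of_cpt inv h hK hmu hinj hy (h3 j hj hj₀ y hy)
  have hs : theta inv W i + theta inv W i₀ = 0 := by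
    refine Eq.trans ?_ (sum_theta inv hsum W)
    exact (Fintype.sum_eq_add i i₀ hne fun j hj => hoff j hj.1 hj.2).symm
  refine ⟨W, ?_, eq_neg_of_add_eq_zero_right hs, hoff⟩
  obtain ⟨u | q, o⟩ := i
  · obtain ⟨x, hx⟩ := Quotient.exists_rep o
    exact fun h0 => h1 x hx
      (cpt_eq_zero_of_theta_fix inv hinj hx (fix_of_real (hi.2 x hx)) h0)
  · intro h0
    rw [h0, zero_add] at hs
    subst hi₀
    exact h2 ⟨q, rfl⟩ _ rfl
      (cpt_eq_zero_of_theta_fix inv hinj rfl (fix_of_split h hK hq₀S hq₀ _) hs)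

include h hC hK hmu hinj hsum in
theorem theta_injective : Function.Injective (theta inv : PX2 p S K →ₗ[ZMod p] _) := by
  classical
  haveI : Fintype (PlaceIdx S K) := Fintype.ofFinite _
  obtain ⟨q₀, hq₀S, hq₀⟩ := h.split
  set i₀ : PlaceIdx S K := ⟨Sum.inr ⟨q₀, hq₀S⟩, Quotient.mk _ (placePoint K 1)⟩ with hi₀
  rw [injective_iff_map_eq_zero]
  intro W hW
  have hpt : ∀ (u : extArithIndex S) (x : Γ ⧸ K), cpt u x W = 0 := by
    intro u x
    set i : PlaceIdx S K := ⟨u, Quotient.mk _ x⟩ with hi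
    by_cases hi₀' : i = i₀
    · obtain rfl : u = Sum.inr ⟨q₀, hq₀S⟩ := congrArg Sigma.fst hi₀'
      exact cpt_eq_zero_of_theta_fix inv hinj (i := i) rfl (fix_of_split h hK hq₀S hq₀ x)
        (congrFun hW i)
    by_cases hr : IsRelevantIdx p i
    · obtain ⟨W', h1, -, -⟩ := exists_theta_pair inv h hC hK hmu hinj hsum i₀ hq₀S hq₀ hi₀ i hr hi₀'
      have hne : cpt u x W' ≠ 0 := fun h0 =>
        h1 (theta_eq_zero_of_cpt inv h hK hmu hinj (i := i) rfl h0)
      obtain ⟨a, ha⟩ := hC.localH2Cyclic K (h.good K hK).full (toPlace u) x.out⁻¹ _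
        (cpt u x W) hne
      have h0 : theta inv (W - a • W') i = 0 := theta_eq_zero_of_cpt inv h hK hmu hinj (i := i) rfl
        (by rw [map_sub, map_smul, ha, sub_self])
      rw [map_sub, map_smul, hW] at h0
      simp only [Pi.sub_apply, Pi.smul_apply, Pi.zero_apply, zero_sub, neg_eq_zero,
        smul_eq_mul, mul_eq_zero] at h0
      rw [ha, h0.resolve_right h1, zero_smul]
    · rcases u with u | q
      · refine cpt_eq_zero_of_not_relevant h hK (fun hc => hr ⟨hc.1, fun y hy => ?_⟩) W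
        obtain ⟨d, hd⟩ := placeSetoid_mk_eq.mp hy
        rcases arch_cases u d with rfl | hd'
        · replace hd : x = y := ((congrArg (· • x) (map_one _)).trans (one_smul _ x)).symm.trans hd
          rw [← hd, hc.2]
        · have hd'' : y = x := by rw [← hd]; exact (congrArg (· • x) hd').trans hc.2
          rw [hd'', hc.2]
      · exact absurd trivial hr
  refine (evalMor_map₂_bijective (ρ := muRep p) h.isCtsRep_muRep (h.mem_of_le hK)).1 ?_
  rw [map_zero]
  refine (h.good K hK).eq_zero hC.hasseInjective _ fun v g hv => ?_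
  obtain ⟨u, rfl⟩ := exists_toPlace_eq hv
  exact compS_eq_zero_of_samePlace hmu (samePlace_out _ _) (hpt u (placePoint K g))

/-- Functions on the relevant places with sum zero. -/
def relSumZero (p : ℕ) [Fact p.Prime] (S : Finset Nat.Primes) (K : Subgroup Γ)
    [Fintype (PlaceIdx S K)] : Submodule (ZMod p) (PlaceIdx S K → ZMod p) where
  carrier := {F | (∀ i, ¬ IsRelevantIdx p i → F i = 0) ∧ ∑ i, F i = 0}
  zero_mem' := ⟨fun _ _ => rfl, Finset.sum_eq_zero fun _ _ => rfl⟩
  add_mem' ha hb := ⟨fun i hi => by rw [Pi.add_apply, ha.1 i hi, hb.1 i hi, add_zero],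
    by simp [Finset.sum_add_distrib, ha.2, hb.2]⟩
  smul_mem' a F hF := ⟨fun i hi => by rw [Pi.smul_apply, hF.1 i hi, smul_zero],
    by simp [← Finset.mul_sum, hF.2]⟩

include h hC hK hmu hinj hsum in
theorem range_theta [Fintype (PlaceIdx S K)] :
    LinearMap.range (theta inv : PX2 p S K →ₗ[ZMod p] _) = relSumZero p S K := by
  classical
  refine le_antisymm ?_ ?_
  · rintro _ ⟨W, rfl⟩
    exact ⟨fun i hi => theta_eq_zero_of_not_relevant inv h hK hmu hinj hi W, sum_theta inv hsum W⟩
  · intro F hF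
    obtain ⟨q₀, hq₀S, hq₀⟩ := h.split
    set i₀ : PlaceIdx S K := ⟨Sum.inr ⟨q₀, hq₀S⟩, Quotient.mk _ (placePoint K 1)⟩ with hi₀
    have hv : ∀ i, ∃ W : PX2 p S K, ∀ j, j ≠ i₀ →
        theta inv W j = if j = i then F i else 0 := by
      intro i
      by_cases hr : IsRelevantIdx p i ∧ i ≠ i₀
      · obtain ⟨W, h1, -, h3⟩ :=
          exists_theta_pair inv h hC hK hmu hinj hsum i₀ hq₀S hq₀ hi₀ i hr.1 hr.2
        refine ⟨(F i * (theta inv W i)⁻¹) • W, fun j hj => ?_⟩
        rw [map_smul, Pi.smul_apply, smul_eq_mul]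
        split_ifs with e
        · rw [e, inv_mul_cancel_right₀ h1]
        · rw [h3 j e hj, mul_zero]
      · refine ⟨0, fun j hj => ?_⟩
        rw [map_zero, Pi.zero_apply]
        split_ifs with e
        · subst e
          exact (hF.1 j fun hj' => hr ⟨hj', hj⟩).symm
        · rfl
    choose W hW using hv
    refine ⟨∑ i, W i, ?_⟩
    have hoff : ∀ j, j ≠ i₀ → theta inv (∑ i, W i) j = F j := fun j hj => by
      rw [map_sum, Finset.sum_apply, Finset.sum_congr rfl fun i _ => hW i j hj]
      simp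
    funext j
    by_cases hj : j = i₀
    · subst hj
      have h1 := sum_theta inv hsum (∑ i, W i)
      have h2 := hF.2
      rw [← Finset.add_sum_erase _ _ (Finset.mem_univ i₀)] at h1 h2
      rw [Finset.sum_congr rfl fun i hi => hoff i (Finset.ne_of_mem_erase hi)] at h1
      exact add_right_cancel (h1.trans h2.symm)
    · exact hoff j hj

end Large

section Translate

variable (δ : Γ) (hδ : Normalizes K δ)

/-- Translation of the places. -/
def placeMove (i : PlaceIdx S K) : PlaceIdx S K :=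
  ⟨i.1, Quotient.map (rightMul δ hδ) (fun x y hxy => by
    obtain ⟨d, hd⟩ := placeSetoid_rel.mp hxy
    exact placeSetoid_rel.mpr ⟨d, by rw [← rightMul_smul, hd]⟩) i.2⟩

theorem rightMul_inv (x : Γ ⧸ K) : rightMul δ⁻¹ hδ.inv (rightMul δ hδ x) = x := by
  induction x using QuotientGroup.induction_on with
  | H a => rw [rightMul_mk, rightMul_mk, mul_inv_cancel_right]

theorem inv_rightMul (x : Γ ⧸ K) : rightMul δ hδ (rightMul δ⁻¹ hδ.inv x) = x := by
  induction x using QuotientGroup.induction_on with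
  | H a => rw [rightMul_mk, rightMul_mk, inv_mul_cancel_right]

/-- Translation turns into translation. -/
theorem theta_rightTrans (W : PX2 p S K) (i : PlaceIdx S K) :
    theta inv ((Mor.ofMap (levelsS S) (rightTrans (muRep p) δ hδ)).map₂ W) i =
      theta inv W (placeMove δ hδ i) := by
  classical
  rw [theta_apply, theta_apply, Mor.map₂_map₂]
  refine congrArg _ (Mor.map₂_congr ?_ ?_ W)
  · ext d; rfl
  · refine LinearMap.ext fun f => ?_
    show (∑ x ∈ Finset.univ.filter fun x : Γ ⧸ K => Quotient.mk _ x = i.2,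
        (LinearMap.proj x : (Γ ⧸ K → ZMod p) →ₗ[ZMod p] ZMod p))
          (fun x => f (rightMul δ hδ x)) =
      (∑ x ∈ Finset.univ.filter fun x : Γ ⧸ K =>
        Quotient.mk (placeSetoid S K i.1) x = (placeMove δ hδ i).2,
        (LinearMap.proj x : (Γ ⧸ K → ZMod p) →ₗ[ZMod p] ZMod p)) f
    rw [LinearMap.sum_apply, LinearMap.sum_apply]
    refine Finset.sum_nbij' (rightMul δ hδ) (rightMul δ⁻¹ hδ.inv) (fun x hx => ?_) (fun x hx => ?_)
      (fun x _ => rightMul_inv δ hδ x) (fun x _ => inv_rightMul δ hδ x) fun x _ => rfl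
    · simp only [Finset.mem_filter, Finset.mem_univ, true_and] at hx ⊢
      obtain ⟨u, o⟩ := i
      induction o using Quotient.inductionOn with
      | _ y =>
        obtain ⟨d, hd⟩ := placeSetoid_mk_eq.mp hx
        exact placeSetoid_mk_eq.mpr ⟨d, by rw [← hd, rightMul_smul]⟩
    · simp only [Finset.mem_filter, Finset.mem_univ, true_and] at hx ⊢
      obtain ⟨y, hy⟩ := Quotient.exists_rep i.2
      rw [← hy]
      have hx' : Quotient.mk (placeSetoid S K i.1) x = Quotient.mk _ (rightMul δ hδ y) := hx.trans (by simp only [placeMove, ← hy]; rfl)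
      obtain ⟨d, hd⟩ := placeSetoid_mk_eq.mp hx'
      refine placeSetoid_mk_eq.mpr ⟨d, ?_⟩
      rw [← hd, rightMul_smul, rightMul_inv]

end Translate

end Fermat.Agent.GalCoh.Euler
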