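import Fermat.Agent.GalCoh.Euler.Conj
import Mathlib.RepresentationTheory.Invariants

/-!
# Cohomology of a group through a normal subgroup of index prime to the characteristic
-/

set_option autoImplicit false
set_option linter.unusedSectionVars false
set_option linter.style.haveILetI false

noncomputable section

namespace Fermat.Agent.GalCoh.Euler

open Representation (IntertwiningMap)
open Module

variable {k : Type} [Field k] {G : Type} [Group G] {W : Type} [AddCommGroup W] [Module k W]
  {T : Type} [AddCommGroup T] [Module k T]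
  (L : Levels G) (σ : Representation k G W) (τ : Representation k G T) {M : Subgroup G}
  (hM : M.Normal)

/-- Restriction to a subgroup. -/
abbrev resSub (M : Subgroup G) : Mor L (L.comap M.subtype) σ (σ.comp M.subtype) :=
  Mor.res L _ σ M.subtype (L.compat_comap _)

theorem resSub₁_eq (z : H1 L σ) :
    (resSub L σ M).map₁ z = (evalMor L σ M).map₁ ((Mor.ofMap L (constMap σ (G ⧸ M))).map₁ z) := by
  rw [Mor.map₁_map₁]
  exact map₁_congr rfl rfl z

theorem resSub₂_eq (z : H2 L σ) :
    (resSub L σ M).map₂ z = (evalMor L σ M).map₂ ((Mor.ofMap L (constMap σ (G ⧸ M))).map₂ z) := by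
  rw [Mor.map₂_map₂]
  exact Mor.map₂_congr rfl rfl z

theorem sum_const₁ [Fintype (G ⧸ M)] (z : H1 L σ) :
    (Mor.ofMap L (sumMap σ (G ⧸ M))).map₁ ((Mor.ofMap L (constMap σ (G ⧸ M))).map₁ z) =
      (Fintype.card (G ⧸ M) : k) • z := by
  obtain ⟨F, rfl⟩ := H1mk_surjective z
  rw [Mor.map₁_mk, Mor.map₁_mk, ← map_smul]
  refine congrArg _ (Subtype.ext (funext fun g => ?_))
  show sumMap σ (G ⧸ M) (constMap σ (G ⧸ M) ((F : G → W) g)) = _
  rw [sumMap_constMap, ← Nat.cast_smul_eq_nsmul k]
  rfl

theorem sum_const₂ [Fintype (G ⧸ M)] (z : H2 L σ) :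
    (Mor.ofMap L (sumMap σ (G ⧸ M))).map₂ ((Mor.ofMap L (constMap σ (G ⧸ M))).map₂ z) =
      (Fintype.card (G ⧸ M) : k) • z := by
  obtain ⟨F, rfl⟩ := H2mk_surjective z
  rw [Mor.map₂_mk, Mor.map₂_mk, ← map_smul]
  refine congrArg _ (Subtype.ext (funext fun g => ?_))
  show sumMap σ (G ⧸ M) (constMap σ (G ⧸ M) ((F : G × G → W) g)) = _
  rw [sumMap_constMap, ← Nat.cast_smul_eq_nsmul k]
  rfl

theorem const_sum_eq [Fintype (G ⧸ M)] :
    ((constMap σ (G ⧸ M)).toLinearMap ∘ₗ (sumMap σ (G ⧸ M)).toLinearMap) =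
      ∑ q : G ⧸ M, (rightTrans σ q.out (normalizes_of_normal hM q.out)).toLinearMap := by
  refine LinearMap.ext fun f => funext fun x => ?_
  rw [LinearMap.sum_apply, Finset.sum_apply]
  show constMap σ (G ⧸ M) (sumMap σ (G ⧸ M) f) x = ∑ q : G ⧸ M, f (rightMul q.out _ x)
  rw [constMap_apply, sumMap_apply]
  induction x using QuotientGroup.induction_on with
  | H a =>
    refine (Fintype.sum_bijective (fun q : G ⧸ M => rightMul q.out
      (normalizes_of_normal hM q.out) (a : G ⧸ M)) ?_ _ _ fun q => rfl).symm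
    refine Finite.injective_iff_bijective.mp fun q q' h => ?_
    simp only [rightMul_mk, QuotientGroup.eq] at h
    rw [← q.out_eq', ← q'.out_eq', QuotientGroup.eq]
    simpa [mul_assoc] using h

/-- The classes of `M` fixed by conjugation, degree one. -/
abbrev fixed₁ : Submodule k (H1 (L.comap M.subtype) (σ.comp M.subtype)) :=
  (conjRep₁ L σ hM).invariants

/-- The classes of `M` fixed by conjugation, degree two. -/
abbrev fixed₂ : Submodule k (H2 (L.comap M.subtype) (σ.comp M.subtype)) :=
  (conjRep₂ L σ hM).invariants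

theorem resSub₁_mem (z : H1 L σ) : (resSub L σ M).map₁ z ∈ fixed₁ L σ hM := fun h => by
  rw [conjRep₁_apply, resSub₁_eq, ← evalMor_rightTrans₁]
  refine congrArg (evalMor L σ M).map₁ ?_
  rw [Mor.map₁_map₁]
  exact map₁_congr rfl rfl z

theorem resSub₂_mem (z : H2 L σ) : (resSub L σ M).map₂ z ∈ fixed₂ L σ hM := fun h => by
  rw [conjRep₂_apply, resSub₂_eq, ← evalMor_rightTrans₂]
  refine congrArg (evalMor L σ M).map₂ ?_
  rw [Mor.map₂_map₂]
  exact Mor.map₂_congr rfl rfl z

variable (hσ : IsCtsRep L σ) (hm : L.mem M) (hn : (M.index : k) ≠ 0)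

include hn in
theorem card_quot_ne_zero [Fintype (G ⧸ M)] : (Fintype.card (G ⧸ M) : k) ≠ 0 := by
  rw [← Nat.card_eq_fintype_card]
  exact hn

/-- Restriction to a normal subgroup of invertible index, degree one. -/
def resFixed₁ : H1 L σ ≃ₗ[k] ↥(fixed₁ L σ hM) :=
  LinearEquiv.ofBijective ((resSub L σ M).map₁.codRestrict _ (resSub₁_mem L σ hM)) (by
    haveI : Finite (G ⧸ M) := finite_quotient hm
    letI : Fintype (G ⧸ M) := Fintype.ofFinite _
    have hN := card_quot_ne_zero hn
    have hev := evalMor_map₁_bijective (ρ := σ) hσ hm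
    constructor
    · rw [injective_iff_map_eq_zero]
      intro z hz
      have h0 : (resSub L σ M).map₁ z = 0 := congrArg Subtype.val hz
      rw [resSub₁_eq] at h0
      have h1 := hev.1 (h0.trans (map_zero _).symm)
      have h2 := sum_const₁ L σ (M := M) z
      rw [h1, map_zero] at h2
      exact (smul_eq_zero.mp h2.symm).resolve_left hN
    · rintro ⟨z, hz⟩
      obtain ⟨Z, rfl⟩ := hev.2 z
      have hR : ∀ h : G, (Mor.ofMap L (rightTrans σ h (normalizes_of_normal hM h))).map₁ Z = Z :=
        fun h => hev.1 ((evalMor_rightTrans₁ _ _ Z).trans (hz h))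
      have key : (Mor.ofMap L (constMap σ (G ⧸ M))).map₁
          ((Mor.ofMap L (sumMap σ (G ⧸ M))).map₁ Z) = (Fintype.card (G ⧸ M) : k) • Z := by
        rw [Mor.map₁_map₁, map₁_eq_sum _ (fun q : G ⧸ M =>
          Mor.ofMap L (rightTrans σ q.out (normalizes_of_normal hM q.out))) (fun _ => rfl)
          (const_sum_eq σ hM), Finset.sum_congr rfl fun q _ => hR q.out, Finset.sum_const,
          Finset.card_univ, Nat.cast_smul_eq_nsmul]
      refine ⟨(Fintype.card (G ⧸ M) : k)⁻¹ • (Mor.ofMap L (sumMap σ (G ⧸ M))).map₁ Z,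
        Subtype.ext ?_⟩
      show (resSub L σ M).map₁ _ = _
      rw [resSub₁_eq, map_smul, key, smul_smul, inv_mul_cancel₀ hN, one_smul])

/-- Restriction to a normal subgroup of invertible index, degree two. -/
def resFixed₂ : H2 L σ ≃ₗ[k] ↥(fixed₂ L σ hM) :=
  LinearEquiv.ofBijective ((resSub L σ M).map₂.codRestrict _ (resSub₂_mem L σ hM)) (by
    haveI : Finite (G ⧸ M) := finite_quotient hm
    letI : Fintype (G ⧸ M) := Fintype.ofFinite _
    have hN := card_quot_ne_zero hn
    have hev := evalMor_map₂_bijective (ρ := σ) hσ hm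
    constructor
    · rw [injective_iff_map_eq_zero]
      intro z hz
      have h0 : (resSub L σ M).map₂ z = 0 := congrArg Subtype.val hz
      rw [resSub₂_eq] at h0
      have h1 := hev.1 (h0.trans (map_zero _).symm)
      have h2 := sum_const₂ L σ (M := M) z
      rw [h1, map_zero] at h2
      exact (smul_eq_zero.mp h2.symm).resolve_left hN
    · rintro ⟨z, hz⟩
      obtain ⟨Z, rfl⟩ := hev.2 z
      have hR : ∀ h : G, (Mor.ofMap L (rightTrans σ h (normalizes_of_normal hM h))).map₂ Z = Z :=
        fun h => hev.1 ((evalMor_rightTrans₂ _ _ Z).trans (hz h))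
      have key : (Mor.ofMap L (constMap σ (G ⧸ M))).map₂
          ((Mor.ofMap L (sumMap σ (G ⧸ M))).map₂ Z) = (Fintype.card (G ⧸ M) : k) • Z := by
        rw [Mor.map₂_map₂, Mor.map₂_eq_sum _ (fun q : G ⧸ M =>
          Mor.ofMap L (rightTrans σ q.out (normalizes_of_normal hM q.out))) (fun _ => rfl)
          (const_sum_eq σ hM), Finset.sum_congr rfl fun q _ => hR q.out, Finset.sum_const,
          Finset.card_univ, Nat.cast_smul_eq_nsmul]
      refine ⟨(Fintype.card (G ⧸ M) : k)⁻¹ • (Mor.ofMap L (sumMap σ (G ⧸ M))).map₂ Z,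
        Subtype.ext ?_⟩
      show (resSub L σ M).map₂ _ = _
      rw [resSub₂_eq, map_smul, key, smul_smul, inv_mul_cancel₀ hN, one_smul])

section Coefficients

variable (h₁ : ∀ m ∈ M, σ m = 1) (h₂ : ∀ m ∈ M, τ m = 1)

/-- A linear form, as a morphism on the cohomology of `M`. -/
def formMor (u : W →ₗ[k] T) :
    Mor (L.comap M.subtype) (L.comap M.subtype) (σ.comp M.subtype) (τ.comp M.subtype) where
  f := MonoidHom.id _
  φ := u
  comm m w := by
    simp [h₁ _ m.2, h₂ _ m.2]
  compat := Levels.compat_id _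

/-- A class with values in `W`, as a map from linear forms. -/
def toHom₁ : H1 (L.comap M.subtype) (σ.comp M.subtype) →ₗ[k]
    (W →ₗ[k] T) →ₗ[k] H1 (L.comap M.subtype) (τ.comp M.subtype) where
  toFun z :=
    { toFun := fun u => (formMor L σ τ h₁ h₂ u).map₁ z
      map_add' := fun u u' => by
        obtain ⟨F, rfl⟩ := H1mk_surjective z
        simp only [Mor.map₁_mk, ← map_add]
        exact congrArg _ (Subtype.ext rfl)
      map_smul' := fun a u => by
        obtain ⟨F, rfl⟩ := H1mk_surjective z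
        simp only [Mor.map₁_mk, RingHom.id_apply, ← map_smul]
        exact congrArg _ (Subtype.ext rfl) }
  map_add' z z' := LinearMap.ext fun u => map_add (formMor L σ τ h₁ h₂ u).map₁ z z'
  map_smul' a z := LinearMap.ext fun u => (formMor L σ τ h₁ h₂ u).map₁.map_smul a z

/-- A class with values in `W`, as a map from linear forms, degree two. -/
def toHom₂ : H2 (L.comap M.subtype) (σ.comp M.subtype) →ₗ[k]
    (W →ₗ[k] T) →ₗ[k] H2 (L.comap M.subtype) (τ.comp M.subtype) where
  toFun z :=
    { toFun := fun u => (formMor L σ τ h₁ h₂ u).map₂ z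
      map_add' := fun u u' => by
        obtain ⟨F, rfl⟩ := H2mk_surjective z
        simp only [Mor.map₂_mk, ← map_add]
        exact congrArg _ (Subtype.ext rfl)
      map_smul' := fun a u => by
        obtain ⟨F, rfl⟩ := H2mk_surjective z
        simp only [Mor.map₂_mk, RingHom.id_apply, ← map_smul]
        exact congrArg _ (Subtype.ext rfl) }
  map_add' z z' := LinearMap.ext fun u => map_add (formMor L σ τ h₁ h₂ u).map₂ z z'
  map_smul' a z := LinearMap.ext fun u => (formMor L σ τ h₁ h₂ u).map₂.map_smul a z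

theorem toHom₁_conj (h : G) (z : H1 (L.comap M.subtype) (σ.comp M.subtype)) :
    toHom₁ L σ τ h₁ h₂ (conjRep₁ L σ hM h z) =
      Representation.linHom (σ.linHom τ) (conjRep₁ L τ hM) h (toHom₁ L σ τ h₁ h₂ z) := by
  refine LinearMap.ext fun u => ?_
  show (formMor L σ τ h₁ h₂ u).map₁ _ = (conjSub L τ h _).map₁
    ((formMor L σ τ h₁ h₂ (σ.linHom τ h⁻¹ u)).map₁ z)
  rw [conjRep₁_apply, Mor.map₁_map₁, Mor.map₁_map₁]
  refine map₁_congr ?_ ?_ z
  · rfl
  · refine LinearMap.ext fun w => ?_
    show u (σ h w) = τ h (τ h⁻¹ (u (σ h⁻¹⁻¹ w)))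
    rw [← Module.End.mul_apply, ← map_mul, mul_inv_cancel, map_one, inv_inv]
    rfl

theorem toHom₂_conj (h : G) (z : H2 (L.comap M.subtype) (σ.comp M.subtype)) :
    toHom₂ L σ τ h₁ h₂ (conjRep₂ L σ hM h z) =
      Representation.linHom (σ.linHom τ) (conjRep₂ L τ hM) h (toHom₂ L σ τ h₁ h₂ z) := by
  refine LinearMap.ext fun u => ?_
  show (formMor L σ τ h₁ h₂ u).map₂ _ = (conjSub L τ h _).map₂
    ((formMor L σ τ h₁ h₂ (σ.linHom τ h⁻¹ u)).map₂ z)
  rw [conjRep₂_apply, Mor.map₂_map₂, Mor.map₂_map₂]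
  refine Mor.map₂_congr ?_ ?_ z
  · rfl
  · refine LinearMap.ext fun w => ?_
    show u (σ h w) = τ h (τ h⁻¹ (u (σ h⁻¹⁻¹ w)))
    rw [← Module.End.mul_apply, ← map_mul, mul_inv_cancel, map_one, inv_inv]
    rfl

variable [FiniteDimensional k W] (e : T ≃ₗ[k] k)

include e in
theorem toHom₁_bijective : Function.Bijective (toHom₁ L σ τ h₁ h₂) := by
  let b := Module.finBasis k W
  let u : Fin (finrank k W) → (W →ₗ[k] T) := fun i => e.symm.toLinearMap ∘ₗ b.coord i
  let w : Fin (finrank k W) → (T →ₗ[k] W) := fun i => e.toLinearMap.smulRight (b i)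
  let back : Fin (finrank k W) →
      Mor (L.comap M.subtype) (L.comap M.subtype) (τ.comp M.subtype) (σ.comp M.subtype) := fun i =>
    { f := MonoidHom.id _
      φ := w i
      comm := fun m t => by simp [h₁ _ m.2, h₂ _ m.2]
      compat := Levels.compat_id _ }
  have hid : ∀ z, ∑ i, (back i).map₁ (toHom₁ L σ τ h₁ h₂ z (u i)) = z := fun z => by
    have key := map₁_eq_sum (formMor L σ σ h₁ h₁ LinearMap.id)
      (fun i => (formMor L σ τ h₁ h₂ (u i)).comp (back i)) (fun _ => rfl) ?_ z
    · obtain ⟨F, rfl⟩ := H1mk_surjective z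
      rw [Mor.map₁_mk] at key
      refine (Finset.sum_congr rfl fun i _ => ?_).trans key.symm
      exact Mor.map₁_map₁ (formMor L σ τ h₁ h₂ (u i)) (back i) (H1mk (L.comap M.subtype) (σ.comp M.subtype) F)
    · refine LinearMap.ext fun x => ?_
      rw [LinearMap.sum_apply]
      show x = ∑ i, e (e.symm (b.coord i x)) • b i
      simp only [LinearEquiv.apply_symm_apply]
      exact (b.sum_repr x).symm
  refine ⟨fun z z' h => ?_, fun Φ => ⟨∑ i, (back i).map₁ (Φ (u i)), ?_⟩⟩
  · rw [← hid z, ← hid z', h]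
  · refine LinearMap.ext fun v => ?_
    show (formMor L σ τ h₁ h₂ v).map₁ _ = Φ v
    have hv : v = ∑ i, e (v (b i)) • u i := b.ext fun j => by
      rw [LinearMap.sum_apply, Finset.sum_eq_single j]
      · simp [u, ← map_smul]
      · intro i _ hij
        simp [u, Finsupp.single_eq_of_ne hij]
      · simp
    conv_rhs => rw [hv, map_sum]
    rw [map_sum]
    refine Finset.sum_congr rfl fun i _ => ?_
    rw [map_smul, Mor.map₁_map₁]
    obtain ⟨F, hF⟩ := H1mk_surjective (Φ (u i))
    rw [← hF, Mor.map₁_mk, ← map_smul]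
    refine congrArg _ (Subtype.ext (funext fun g => ?_))
    show v (e _ • b i) = e (v (b i)) • _
    rw [map_smul]
    apply e.injective
    rw [map_smul, map_smul, smul_eq_mul, smul_eq_mul, mul_comm]
    rfl

include e in
theorem toHom₂_bijective : Function.Bijective (toHom₂ L σ τ h₁ h₂) := by
  let b := Module.finBasis k W
  let u : Fin (finrank k W) → (W →ₗ[k] T) := fun i => e.symm.toLinearMap ∘ₗ b.coord i
  let w : Fin (finrank k W) → (T →ₗ[k] W) := fun i => e.toLinearMap.smulRight (b i)
  let back : Fin (finrank k W) →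
      Mor (L.comap M.subtype) (L.comap M.subtype) (τ.comp M.subtype) (σ.comp M.subtype) := fun i =>
    { f := MonoidHom.id _
      φ := w i
      comm := fun m t => by simp [h₁ _ m.2, h₂ _ m.2]
      compat := Levels.compat_id _ }
  have hid : ∀ z, ∑ i, (back i).map₂ (toHom₂ L σ τ h₁ h₂ z (u i)) = z := fun z => by
    have key := Mor.map₂_eq_sum (formMor L σ σ h₁ h₁ LinearMap.id)
      (fun i => (formMor L σ τ h₁ h₂ (u i)).comp (back i)) (fun _ => rfl) ?_ z
    · obtain ⟨F, rfl⟩ := H2mk_surjective z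
      rw [Mor.map₂_mk] at key
      refine (Finset.sum_congr rfl fun i _ => ?_).trans key.symm
      exact Mor.map₂_map₂ (formMor L σ τ h₁ h₂ (u i)) (back i) (H2mk (L.comap M.subtype) (σ.comp M.subtype) F)
    · refine LinearMap.ext fun x => ?_
      rw [LinearMap.sum_apply]
      show x = ∑ i, e (e.symm (b.coord i x)) • b i
      simp only [LinearEquiv.apply_symm_apply]
      exact (b.sum_repr x).symm
  refine ⟨fun z z' h => ?_, fun Φ => ⟨∑ i, (back i).map₂ (Φ (u i)), ?_⟩⟩
  · rw [← hid z, ← hid z', h]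
  · refine LinearMap.ext fun v => ?_
    show (formMor L σ τ h₁ h₂ v).map₂ _ = Φ v
    have hv : v = ∑ i, e (v (b i)) • u i := b.ext fun j => by
      rw [LinearMap.sum_apply, Finset.sum_eq_single j]
      · simp [u, ← map_smul]
      · intro i _ hij
        simp [u, Finsupp.single_eq_of_ne hij]
      · simp
    conv_rhs => rw [hv, map_sum]
    rw [map_sum]
    refine Finset.sum_congr rfl fun i _ => ?_
    rw [map_smul, Mor.map₂_map₂]
    obtain ⟨F, hF⟩ := H2mk_surjective (Φ (u i))
    rw [← hF, Mor.map₂_mk, ← map_smul]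
    refine congrArg _ (Subtype.ext (funext fun g => ?_))
    show v (e _ • b i) = e (v (b i)) • _
    rw [map_smul]
    apply e.injective
    rw [map_smul, map_smul, smul_eq_mul, smul_eq_mul, mul_comm]
    rfl

/-- Invariants move along an equivariant equivalence. -/
def invariantsCongr {X Y : Type} [AddCommGroup X] [Module k X] [AddCommGroup Y] [Module k Y]
    {χ : Representation k G X} {ψ : Representation k G Y} (ε : X ≃ₗ[k] Y)
    (hε : ∀ g x, ε (χ g x) = ψ g (ε x)) : ↥χ.invariants ≃ₗ[k] ↥ψ.invariants :=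
  ε.ofSubmodules _ _ <| by
    ext y
    constructor
    · rintro ⟨x, hx, rfl⟩ g
      exact (hε g x).symm.trans (congrArg ε (hx g))
    · exact fun hy => ⟨ε.symm y, fun g => ε.injective
        ((hε g _).trans (by rw [LinearEquiv.apply_symm_apply]; exact hy g)),
          ε.apply_symm_apply y⟩

include hσ hm hn h₁ h₂ e in
theorem finrank_H1_eq : finrank k (H1 L σ) =
    finrank k ↥(Representation.linHom (σ.linHom τ) (conjRep₁ L τ hM)).invariants :=
  ((resFixed₁ L σ hM hσ hm hn).trans
    (invariantsCongr (LinearEquiv.ofBijective _ (toHom₁_bijective L σ τ h₁ h₂ e))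
      (toHom₁_conj L σ τ hM h₁ h₂))).finrank_eq

include hσ hm hn h₁ h₂ e in
theorem finrank_H2_eq : finrank k (H2 L σ) =
    finrank k ↥(Representation.linHom (σ.linHom τ) (conjRep₂ L τ hM)).invariants :=
  ((resFixed₂ L σ hM hσ hm hn).trans
    (invariantsCongr (LinearEquiv.ofBijective _ (toHom₂_bijective L σ τ h₁ h₂ e))
      (toHom₂_conj L σ τ hM h₁ h₂))).finrank_eq

include e in
theorem finrank_H0_eq : finrank k (H0 σ) =
    finrank k ↥(Representation.linHom (σ.linHom τ) τ).invariants := by
  let a : W →ₗ[k] (W →ₗ[k] T) →ₗ[k] T := LinearMap.id.flip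
  have hinj : Function.Injective a := by
    rw [injective_iff_map_eq_zero]
    intro w hw
    refine (Module.finBasis k W).ext_elem fun i => ?_
    have h := congrArg e (LinearMap.congr_fun hw
      (e.symm.toLinearMap ∘ₗ (Module.finBasis k W).coord i))
    simpa [a] using h
  haveI : FiniteDimensional k T := Module.Finite.equiv e.symm
  have hdim : finrank k W = finrank k ((W →ₗ[k] T) →ₗ[k] T) := by
    simp [Module.finrank_linearMap, e.finrank_eq]
  exact (invariantsCongr (LinearEquiv.ofBijective a ⟨hinj,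
    (LinearMap.injective_iff_surjective_of_finrank_eq_finrank hdim).mp hinj⟩) fun g w =>
      LinearMap.ext fun u => by
        show u (σ g w) = τ g (τ g⁻¹ (u (σ g⁻¹⁻¹ w)))
        rw [← Module.End.mul_apply, ← map_mul, mul_inv_cancel, map_one, inv_inv]
        rfl).finrank_eq

include hσ hm hn e h₁ h₂ hM in
theorem finiteDimensional_H1 [FiniteDimensional k T]
    [FiniteDimensional k (H1 (L.comap M.subtype) (τ.comp M.subtype))] :
    FiniteDimensional k (H1 L σ) :=
  FiniteDimensional.of_injective (toHom₁ L σ τ h₁ h₂ ∘ₗ (fixed₁ L σ hM).subtype ∘ₗ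
      (resFixed₁ L σ hM hσ hm hn).toLinearMap)
    ((toHom₁_bijective L σ τ h₁ h₂ e).1.comp (Subtype.val_injective.comp
      (resFixed₁ L σ hM hσ hm hn).injective))

include hσ hm hn e h₁ h₂ hM in
theorem finiteDimensional_H2 [FiniteDimensional k T]
    [FiniteDimensional k (H2 (L.comap M.subtype) (τ.comp M.subtype))] :
    FiniteDimensional k (H2 L σ) :=
  FiniteDimensional.of_injective (toHom₂ L σ τ h₁ h₂ ∘ₗ (fixed₂ L σ hM).subtype ∘ₗ
      (resFixed₂ L σ hM hσ hm hn).toLinearMap)
    ((toHom₂_bijective L σ τ h₁ h₂ e).1.comp (Subtype.val_injective.comp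
      (resFixed₂ L σ hM hσ hm hn).injective))

end Coefficients

section Count

variable {U X Y Z : Type} [AddCommGroup U] [Module k U] [AddCommGroup X] [Module k X]
  [AddCommGroup Y] [Module k Y] [AddCommGroup Z] [Module k Z]
  [FiniteDimensional k U] [FiniteDimensional k Y]

/-- The number of equivariant maps. -/
def invDim (υ : Representation k G U) (χ : Representation k G X) : ℤ :=
  (finrank k ↥(υ.linHom χ).invariants : ℤ)

variable (υ : Representation k G U) {χ : Representation k G X} {ψ : Representation k G Y}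
  {ω : Representation k G Z}

theorem invDim_congr (ε : X ≃ₗ[k] Y) (hε : ∀ g x, ε (χ g x) = ψ g (ε x)) :
    invDim υ χ = invDim υ ψ := by
  refine congrArg Nat.cast (invariantsCongr (LinearEquiv.congrRight ε) fun g f => ?_).finrank_eq
  refine LinearMap.ext fun u => ?_
  exact hε g _

/-- Equivariant maps into an exact sequence, when the action factors through a finite quotient of
invertible order. -/
theorem invDim_add [M.Normal] [Fintype (G ⧸ M)] (hN : (Fintype.card (G ⧸ M) : k) ≠ 0)
    (hυ : ∀ m ∈ M, υ m = 1) (hψ : ∀ m ∈ M, ψ m = 1)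
    (i : IntertwiningMap χ ψ) (j : IntertwiningMap ψ ω) (hi : Function.Injective i)
    (hj : Function.Surjective j) (hex : ∀ b, j b = 0 ↔ ∃ a, i a = b) :
    invDim υ ψ = invDim υ χ + invDim υ ω := by
  let J : ↥(υ.linHom ψ).invariants →ₗ[k] ↥(υ.linHom ω).invariants :=
    ((LinearMap.llcomp k U Y Z j.toLinearMap).comp (υ.linHom ψ).invariants.subtype).codRestrict _
      fun f g => LinearMap.ext fun u => by
        show ω g (j (f.1 (υ g⁻¹ u))) = j (f.1 u)
        rw [← j.isIntertwining]
        exact congrArg j (LinearMap.congr_fun (f.2 g) u)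
  have hJ : Function.Surjective J := by
    intro f
    obtain ⟨s, hs⟩ := j.toLinearMap.exists_rightInverse_of_surjective (LinearMap.range_eq_top.mpr hj)
    let F := υ.linHom ψ
    have hF : ∀ m ∈ M, F m = 1 := fun m hm => LinearMap.ext fun l => by
      rw [Representation.linHom_apply, hψ m hm, hυ _ (M.inv_mem hm)]
      rfl
    have hrep : ∀ g : G, ∀ q : G ⧸ M, F g * F q.out = F (g • q).out := fun g q => by
      rw [← map_mul]
      have h1 : (g * q.out)⁻¹ * (g • q).out ∈ M := by
        rw [← QuotientGroup.eq, QuotientGroup.out_eq']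
        conv_rhs => rw [← q.out_eq']
        rfl
      rw [show (g • q).out = g * q.out * ((g * q.out)⁻¹ * (g • q).out) by group,
        map_mul F (g * q.out), hF _ h1, mul_one]
    let l := s ∘ₗ f.1
    let avg : U →ₗ[k] Y := (Fintype.card (G ⧸ M) : k)⁻¹ • ∑ q : G ⧸ M, F q.out l
    have havg : avg ∈ F.invariants := fun g => by
      simp only [avg, map_smul, map_sum, ← Module.End.mul_apply, hrep]
      exact congrArg _ (Fintype.sum_bijective (g • ·) (MulAction.bijective g) _ _ fun q => rfl)
    refine ⟨⟨avg, havg⟩, Subtype.ext (LinearMap.ext fun u => ?_)⟩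
    show j (avg u) = f.1 u
    have hjl : ∀ v, j (l v) = f.1 v := fun v => LinearMap.congr_fun hs _
    simp only [avg, LinearMap.smul_apply, LinearMap.sum_apply, map_smul, map_sum]
    rw [Finset.sum_eq_card_nsmul (b := f.1 u), Finset.card_univ, ← Nat.cast_smul_eq_nsmul k,
      smul_smul, inv_mul_cancel₀ hN, one_smul]
    intro q _
    show j (ψ q.out (l (υ q.out⁻¹ u))) = f.1 u
    rw [j.isIntertwining, hjl]
    exact LinearMap.congr_fun (f.2 q.out) u
  haveI : FiniteDimensional k X := FiniteDimensional.of_injective i.toLinearMap hi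
  let I : ↥(υ.linHom χ).invariants →ₗ[k] ↥(υ.linHom ψ).invariants :=
    ((LinearMap.llcomp k U X Y i.toLinearMap).comp (υ.linHom χ).invariants.subtype).codRestrict _
      fun f g => LinearMap.ext fun u => by
        show ψ g (i (f.1 (υ g⁻¹ u))) = i (f.1 u)
        rw [← i.isIntertwining]
        exact congrArg i (LinearMap.congr_fun (f.2 g) u)
  have hI : Function.Injective I := fun f f' h =>
    Subtype.ext (LinearMap.ext fun u => hi (LinearMap.congr_fun (congrArg Subtype.val h) u))
  have hker : LinearMap.ker J = LinearMap.range I := by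
    ext f
    constructor
    · intro h
      obtain ⟨q, hq⟩ := i.toLinearMap.exists_leftInverse_of_injective (LinearMap.ker_eq_bot.mpr hi)
      have hiq : ∀ u, i (q (f.1 u)) = f.1 u := fun u => by
        obtain ⟨a, (ha : i a = f.1 u)⟩ := (hex _).mp (LinearMap.congr_fun (congrArg Subtype.val h) u)
        rw [← ha]
        exact congrArg i (LinearMap.congr_fun hq a)
      refine ⟨⟨q ∘ₗ f.1, fun g => LinearMap.ext fun u => hi ?_⟩,
        Subtype.ext (LinearMap.ext hiq)⟩
      show i (χ g (q (f.1 (υ g⁻¹ u)))) = i (q (f.1 u))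
      rw [i.isIntertwining, show i (q (f.1 u)) = f.1 u from hiq u]
      refine (congrArg (ψ g) (hiq _)).trans ?_
      exact LinearMap.congr_fun (f.2 g) u
    · rintro ⟨f', rfl⟩
      exact Subtype.ext (LinearMap.ext fun u => (hex _).mpr ⟨f'.1 u, rfl⟩)
  have h := LinearMap.finrank_range_add_finrank_ker J
  rw [hker, LinearMap.finrank_range_of_inj hI, LinearMap.range_eq_top.mpr hJ, finrank_top] at h
  simp only [invDim, ← h]
  push_cast
  ring

end Count

end Fermat.Agent.GalCoh.Euler
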