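import Fermat.Agent.GalCoh.Euler.Units
import Fermat.Agent.GalCoh.Euler.Invariants
import Fermat.Agent.GalCoh.Euler.Arch

/-!
# The irrelevant places against the archimedean term

For `M` normal in `C` of index prime to `p`, equivariant maps from the linear forms on `W` to the
functions on the irrelevant places of `M` are the sections changing sign under complex conjugation
and supported at irrelevant points; their dimension is the archimedean defect.
-/

set_option autoImplicit false
set_option linter.unusedSectionVars false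
set_option linter.style.haveILetI false

noncomputable section

namespace Fermat.Agent.GalCoh.Euler

open Module ExtCitation Descent

local notation "Γ" => (AlgebraicClosure ℚ ≃ₐ[ℚ] AlgebraicClosure ℚ)

variable {p : ℕ} [Fact p.Prime]

theorem cycloChar_complexConjugation : (cycloChar p complexConjugation : ZMod p) = -1 := by
  have hι : ‖complexEmbedding (mu p (1 : ZMod p))‖ = 1 := by
    refine (pow_eq_one_iff_of_nonneg (norm_nonneg _) (Fact.out : p.Prime).ne_zero).mp ?_
    rw [← norm_pow, ← map_pow, mu_pow, map_one, norm_one]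
  have h1 : complexConjugation (mu p (1 : ZMod p)) = (mu p (1 : ZMod p))⁻¹ := by
    refine complexEmbedding.toRingHom.injective ?_
    show complexEmbedding (complexConjugation (mu p 1)) = complexEmbedding (mu p 1)⁻¹
    rw [complexEmbedding_complexConjugation, map_inv₀, Complex.inv_eq_conj hι]
  rw [apply_mu, mul_one] at h1
  refine eq_neg_of_add_eq_zero_left (mu_injective (p := p) ?_)
  rw [mu_add, h1, inv_mul_cancel₀ (mu_ne_zero _), mu_zero]

variable {S : Finset Nat.Primes} {C M : Subgroup Γ}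

/-- The archimedean place below a point. -/
def pidx (g : Γ) : PlaceIdx S M := ⟨Sum.inl (), Quotient.mk _ (QuotientGroup.mk g)⟩

theorem pidx_eq_iff {g g' : Γ} : (pidx g : PlaceIdx S M) = pidx g' ↔
    ∃ m ∈ M, g = g' * m ∨ g = complexConjugation * g' * m := by
  refine Iff.trans (Iff.intro (fun h => eq_of_heq (Sigma.ext_iff.mp h).2)
    (fun h : (pidx g : PlaceIdx S M).2 = Quotient.mk _ (QuotientGroup.mk g') =>
      congrArg (Sigma.mk (Sum.inl () : extArithIndex S)) h)) (placeSetoid_mk_eq.trans ?_)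
  constructor
  · rintro ⟨d, hd⟩
    rw [MulAction.Quotient.smul_coe, QuotientGroup.eq, smul_eq_mul] at hd
    refine ⟨_, hd, ?_⟩
    rcases arch_cases () d with rfl | hd'
    · refine Or.inl ?_
      rw [show placeLoc (toPlace (Sum.inl () : extArithIndex S)) (1 : placeGroup (Sum.inl ())) =
        (1 : Γ) from map_one _]
      group
    · refine Or.inr ?_
      rw [show placeLoc (toPlace (Sum.inl () : extArithIndex S)) d = complexConjugation from hd']
      group
  · rintro ⟨m, hm, rfl | rfl⟩
    · exact ⟨1, by rw [map_one, one_smul, QuotientGroup.mk_mul_of_mem _ hm]⟩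
    · refine ⟨(⟨complexConjugation, Subgroup.mem_zpowers _⟩ : ↥archimedeanDecomposition), ?_⟩
      rw [QuotientGroup.mk_mul_of_mem _ hm]
      rfl

theorem isRelevantIdx_pidx (g : Γ) : IsRelevantIdx p (pidx g : PlaceIdx S M) ↔
    p = 2 ∧ complexConjugation • (QuotientGroup.mk g : Γ ⧸ M) = QuotientGroup.mk g := by
  constructor
  · rintro ⟨hp, h⟩
    exact ⟨hp, h _ rfl⟩
  · rintro ⟨hp, h⟩
    refine ⟨hp, fun x hx => ?_⟩
    obtain ⟨d, hd⟩ := placeSetoid_mk_eq.mp hx
    rcases arch_cases () d with rfl | hd'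
    · have he : x = (QuotientGroup.mk g : Γ ⧸ M) :=
        hd.symm.trans ((congrArg (· • _) (map_one _)).trans (one_smul Γ _))
      rw [he, h]
    · have he : x = (QuotientGroup.mk g : Γ ⧸ M) :=
        hd.symm.trans ((congrArg (· • _) hd').trans h)
      rw [he, h]

theorem exists_pidx_eq {i : PlaceIdx S M} (hi : ¬ IsRelevantIdx p i) : ∃ g, pidx g = i := by
  obtain ⟨u | q, o⟩ := i
  · induction o using Quotient.inductionOn with
    | _ x =>
      induction x using QuotientGroup.induction_on with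
      | H g => exact ⟨g, rfl⟩
  · exact absurd trivial hi

variable (hMC : M ≤ C) [hn : (M.subgroupOf C).Normal]

theorem isRelevantIdx_translate (g : ↥C ⧸ M.subgroupOf C) {i : PlaceIdx S M}
    (hi : IsRelevantIdx p i) : IsRelevantIdx p (placeTranslate S hMC g i) := by
  induction g using QuotientGroup.induction_on with
  | H δ =>
    obtain ⟨u | q, o⟩ := i
    · obtain ⟨hp, h⟩ := hi
      refine ⟨hp, fun x hx => ?_⟩
      induction o using Quotient.inductionOn with
      | _ y =>
        obtain ⟨d, hd⟩ := placeSetoid_mk_eq.mp hx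
        obtain rfl := hd
        exact ((congrArg (complexConjugation • ·) (rightMul_smul _ _ _ _).symm).trans
          ((rightMul_smul _ _ _ _).symm.trans
            (congrArg _ (h _ (placeSetoid_mk_eq.mpr ⟨d, rfl⟩))))).trans (rightMul_smul _ _ _ _)
    · trivial

theorem placeTranslate_inv_pidx (δ : ↥C) (g : Γ) :
    placeTranslate S hMC (QuotientGroup.mk δ⁻¹) (pidx g) = pidx (g * (δ : Γ)) := by
  rw [placeTranslate_mk]
  exact congrArg (fun y => (⟨(Sum.inl () : extArithIndex S), Quotient.mk _ y⟩ : PlaceIdx S M))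
    ((rightMul_mk _ _ g).trans (by simp))

variable (p S M) in
/-- The irrelevant places. -/
abbrev IrrIdx : Type := {i : PlaceIdx S M // ¬ IsRelevantIdx p i}

theorem not_isRelevantIdx_translate (g : ↥C ⧸ M.subgroupOf C) (i : IrrIdx p S M) :
    ¬ IsRelevantIdx p (placeTranslate S hMC g i.1) := fun h => i.2 (by
  have h' := isRelevantIdx_translate hMC g⁻¹ h
  rwa [← Equiv.Perm.mul_apply, ← map_mul, inv_mul_cancel, map_one, Equiv.Perm.one_apply] at h')

variable (p S) in
/-- The functions on the irrelevant places. -/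
def irrRep : Representation (ZMod p) ↥C (IrrIdx p S M → ZMod p) where
  toFun δ := LinearMap.pi fun i =>
    LinearMap.proj ⟨placeTranslate S hMC (QuotientGroup.mk δ⁻¹) i.1,
      not_isRelevantIdx_translate hMC _ i⟩
  map_one' := LinearMap.ext fun F => funext fun i => congrArg F (Subtype.ext (by
    show placeTranslate S hMC _ i.1 = i.1
    rw [inv_one, QuotientGroup.mk_one, map_one]; rfl))
  map_mul' a b := LinearMap.ext fun F => funext fun i => congrArg F (Subtype.ext (by
    show placeTranslate S hMC _ i.1 = placeTranslate S hMC _ (placeTranslate S hMC _ i.1)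
    rw [mul_inv_rev, QuotientGroup.mk_mul, map_mul]; rfl))

theorem irrRep_apply (δ : ↥C) (F : IrrIdx p S M → ZMod p) (i : IrrIdx p S M) :
    irrRep p S hMC δ F i = F ⟨placeTranslate S hMC (QuotientGroup.mk δ⁻¹) i.1,
      not_isRelevantIdx_translate hMC _ i⟩ := rfl

section Sections

variable {W : Type} [AddCommGroup W] [Module (ZMod p) W] [FiniteDimensional (ZMod p) W]
  (σ : Representation (ZMod p) ↥C W)

variable (p M) in
/-- Sections changing sign under complex conjugation, supported at irrelevant points. -/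
def antiSec : Submodule (ZMod p) (Γ → W) where
  carrier := {φ | φ ∈ secSpace C σ ∧ (∀ g, φ (complexConjugation * g) = -φ g) ∧
    ∀ g, p = 2 → complexConjugation • (QuotientGroup.mk g : Γ ⧸ M) = QuotientGroup.mk g → φ g = 0}
  zero_mem' := ⟨zero_mem _, fun g => by simp, fun g _ _ => rfl⟩
  add_mem' ha hb := ⟨add_mem ha.1 hb.1, fun g => by simp [ha.2.1 g, hb.2.1 g, add_comm],
    fun g hp h => by simp [ha.2.2 g hp h, hb.2.2 g hp h]⟩
  smul_mem' a φ hφ := ⟨Submodule.smul_mem _ a hφ.1, fun g => by simp [hφ.2.1 g],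
    fun g hp h => by simp [hφ.2.2 g hp h]⟩

variable (p S M) in
/-- A point above an irrelevant place. -/
def irrPt (i : IrrIdx p S M) : Γ := (exists_pidx_eq i.2).choose

theorem pidx_irrPt (i : IrrIdx p S M) : pidx (irrPt p S M i) = i.1 :=
  (exists_pidx_eq i.2).choose_spec

variable {σ} (hσM : ∀ x : ↥C, (x : Γ) ∈ M → σ x = 1) (hmu : ∀ m ∈ M, cycloChar p m = 1)

include hσM hMC in
theorem secSpace_mul_mem {φ : Γ → W} (hφ : φ ∈ secSpace C σ) (g : Γ) {m : Γ} (hm : m ∈ M) :
    φ (g * m) = φ g := by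
  rw [hφ g m (hMC hm), actAt_of_mem C σ (C.inv_mem (hMC hm)), hσM _ (M.inv_mem hm)]
  rfl

include hσM hMC hmu in
theorem twisted_congr {φ : Γ → W} (hφ : φ ∈ antiSec p M σ) (u : W →ₗ[ZMod p] ZMod p) {g g' : Γ}
    (h : (pidx g : PlaceIdx S M) = pidx g') :
    (cycloChar p g : ZMod p) * u (φ g) = (cycloChar p g' : ZMod p) * u (φ g') := by
  obtain ⟨m, hm, rfl | rfl⟩ := pidx_eq_iff.mp h
  · rw [secSpace_mul_mem hMC hσM hφ.1 _ hm, map_mul, hmu m hm, mul_one]
  · rw [secSpace_mul_mem hMC hσM hφ.1 _ hm, hφ.2.1, map_neg, map_mul, map_mul, hmu m hm, mul_one,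
      Units.val_mul, cycloChar_complexConjugation]
    ring

variable (S σ) in
/-- An antisection gives an equivariant family on the irrelevant places. -/
def toIrr : ↥(antiSec p M σ) →ₗ[ZMod p] (W →ₗ[ZMod p] ZMod p) →ₗ[ZMod p] IrrIdx p S M → ZMod p where
  toFun φ :=
    { toFun := fun u i => (cycloChar p (irrPt p S M i) : ZMod p) * u (φ.1 (irrPt p S M i))
      map_add' := fun u u' => funext fun i => mul_add _ _ _
      map_smul' := fun a u => funext fun i => by simp [mul_left_comm] }
  map_add' φ ψ := LinearMap.ext fun u => funext fun i => by simp [mul_add]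
  map_smul' a φ := LinearMap.ext fun u => funext fun i => by simp [mul_left_comm]

theorem toIrr_apply (φ : ↥(antiSec p M σ)) (u : W →ₗ[ZMod p] ZMod p) (i : IrrIdx p S M) :
    toIrr S σ φ u i = (cycloChar p (irrPt p S M i) : ZMod p) * u (φ.1 (irrPt p S M i)) := rfl

include hσM hMC hmu in
theorem toIrr_mem (φ : ↥(antiSec p M σ)) : toIrr S σ φ ∈
    (Representation.linHom (σ.linHom (muOn p C)) (irrRep p S hMC)).invariants := fun δ => by
  refine LinearMap.ext fun u => funext fun i => ?_
  rw [Representation.linHom_apply]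
  simp only [LinearMap.coe_comp, Function.comp_apply, irrRep_apply, toIrr_apply]
  set i' : IrrIdx p S M := ⟨placeTranslate S hMC (QuotientGroup.mk δ⁻¹) i.1,
    not_isRelevantIdx_translate hMC _ i⟩
  have hi' : (pidx (irrPt p S M i') : PlaceIdx S M) = pidx (irrPt p S M i * (δ : Γ)) := by
    rw [pidx_irrPt, ← placeTranslate_inv_pidx hMC, pidx_irrPt]
  rw [twisted_congr hMC hσM hmu φ.2 _ hi', Representation.linHom_apply]
  simp only [LinearMap.coe_comp, Function.comp_apply, inv_inv]
  rw [φ.2.1 _ _ δ.2, actAt_of_mem C σ (C.inv_mem δ.2), ← Module.End.mul_apply, ← map_mul,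
    show δ * (⟨(δ : Γ)⁻¹, C.inv_mem δ.2⟩ : ↥C) = 1 from mul_inv_cancel δ, map_one,
    show muOn p C δ⁻¹ = muRep p ((δ : Γ)⁻¹) from rfl, muRep_apply, map_mul, Units.val_mul, map_inv]
  rw [mul_assoc, ← mul_assoc (cycloChar p (δ : Γ) : ZMod p), Units.mul_inv, one_mul]
  rfl

include hσM hMC hmu in
/-- Equivariant maps to the functions on the irrelevant places are antisections. -/
theorem invDim_irrRep : invDim (σ.linHom (muOn p C)) (irrRep p S hMC) =
    (finrank (ZMod p) ↥(antiSec p M σ) : ℤ) := by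
  classical
  let T : ↥(antiSec p M σ) →ₗ[ZMod p]
      ↥(Representation.linHom (σ.linHom (muOn p C)) (irrRep p S hMC)).invariants :=
    (toIrr S σ).codRestrict _ (toIrr_mem hMC hσM hmu)
  have hbad : ∀ g : Γ, IsRelevantIdx p (pidx g : PlaceIdx S M) →
      ∀ φ ∈ antiSec p M σ, φ g = 0 := fun g hg φ hφ =>
    hφ.2.2 g ((isRelevantIdx_pidx g).mp hg).1 ((isRelevantIdx_pidx g).mp hg).2
  have hinj : Function.Injective T := by
    rw [injective_iff_map_eq_zero]
    intro φ h
    refine Subtype.ext (funext fun g => ?_)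
    by_cases hg : IsRelevantIdx p (pidx g : PlaceIdx S M)
    · exact hbad g hg _ φ.2
    refine (Module.forall_dual_apply_eq_zero_iff (ZMod p) _).mp fun u => ?_
    have h1 : (cycloChar p (irrPt p S M ⟨pidx g, hg⟩) : ZMod p) *
        u (φ.1 (irrPt p S M ⟨pidx g, hg⟩)) = 0 :=
      congrFun (LinearMap.congr_fun (congrArg Subtype.val h) u) ⟨pidx g, hg⟩
    rw [twisted_congr hMC hσM hmu φ.2 u (pidx_irrPt (⟨pidx g, hg⟩ : IrrIdx p S M))] at h1
    exact (mul_eq_zero.mp h1).resolve_left (Units.ne_zero _)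
  have hsurj : Function.Surjective T := by
    rintro ⟨Φ, hΦ⟩
    let b := Module.finBasis (ZMod p) W
    let φ : Γ → W := fun g => if hg : IsRelevantIdx p (pidx g : PlaceIdx S M) then 0 else
      ((cycloChar p g)⁻¹ : (ZMod p)ˣ).val • ∑ j, Φ (b.coord j) ⟨pidx g, hg⟩ • b j
    have huφ : ∀ g (hg : ¬ IsRelevantIdx p (pidx g : PlaceIdx S M)) (u : W →ₗ[ZMod p] ZMod p),
        u (φ g) = ((cycloChar p g)⁻¹ : (ZMod p)ˣ).val * Φ u ⟨pidx g, hg⟩ := fun g hg u => by
      have hu : u = ∑ j, u (b j) • b.coord j := (b.sum_dual_apply_smul_coord u).symm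
      simp only [φ, dif_neg hg, map_smul, map_sum, smul_eq_mul]
      conv_rhs => rw [hu]
      simp only [map_sum, map_smul, Finset.sum_apply, Pi.smul_apply, smul_eq_mul]
      exact congrArg _ (Finset.sum_congr rfl fun j _ => mul_comm _ _)
    have hφ0 : ∀ g, IsRelevantIdx p (pidx g : PlaceIdx S M) → φ g = 0 := fun g hg => dif_pos hg
    have hsec : φ ∈ secSpace C σ := fun g h hh => by
      have e : placeTranslate S hMC (QuotientGroup.mk (⟨h, hh⟩ : ↥C)⁻¹) (pidx g) = pidx (g * h) :=
        placeTranslate_inv_pidx hMC ⟨h, hh⟩ g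
      by_cases hg : IsRelevantIdx p (pidx g : PlaceIdx S M)
      · rw [hφ0 g hg, map_zero, hφ0 _ (e ▸ isRelevantIdx_translate hMC _ hg)]
      have hg' : ¬ IsRelevantIdx p (pidx (g * h) : PlaceIdx S M) :=
        e ▸ not_isRelevantIdx_translate hMC _ (⟨pidx g, hg⟩ : IrrIdx p S M)
      refine sub_eq_zero.mp ((Module.forall_dual_apply_eq_zero_iff (ZMod p) _).mp fun u => ?_)
      rw [map_sub, sub_eq_zero, huφ _ hg']
      show _ = (u ∘ₗ actAt C σ h⁻¹) (φ g)
      rw [huφ g hg, actAt_of_mem C σ (C.inv_mem hh)]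
      have key := congrFun (LinearMap.congr_fun (hΦ ⟨h, hh⟩)
        ((σ.linHom (muOn p C)) ⟨h, hh⟩ u)) ⟨pidx g, hg⟩
      rw [Representation.linHom_apply] at key
      simp only [LinearMap.coe_comp, Function.comp_apply, irrRep_apply, e,
        Representation.inv_self_apply] at key
      rw [show (⟨pidx (g * h), hg'⟩ : IrrIdx p S M) = ⟨_, not_isRelevantIdx_translate hMC
        (QuotientGroup.mk (⟨h, hh⟩ : ↥C)⁻¹) ⟨pidx g, hg⟩⟩ from Subtype.ext e.symm]
      have hsm : (σ.linHom (muOn p C)) ⟨h, hh⟩ u =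
          (cycloChar p h : ZMod p) • (u ∘ₗ σ ⟨h⁻¹, C.inv_mem hh⟩) := LinearMap.ext fun w => by
        show muRep p h (u (σ (⟨h, hh⟩ : ↥C)⁻¹ w)) = _
        rw [muRep_apply]
        rfl
      rw [hsm, map_smul] at key
      simp only [e] at key ⊢
      rw [key, map_mul, mul_inv_rev, Units.val_mul, Pi.smul_apply, smul_eq_mul,
        mul_comm (((cycloChar p h)⁻¹ : (ZMod p)ˣ) : ZMod p), mul_assoc, ← mul_assoc _ (cycloChar p h : ZMod p),
        Units.inv_mul, one_mul]
    have hanti : ∀ g, φ (complexConjugation * g) = -φ g := fun g => by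
      have e : (pidx (complexConjugation * g) : PlaceIdx S M) = pidx g :=
        pidx_eq_iff.mpr ⟨1, M.one_mem, Or.inr (mul_one _).symm⟩
      by_cases hg : IsRelevantIdx p (pidx g : PlaceIdx S M)
      · rw [hφ0 g hg, hφ0 _ (e.symm ▸ hg), neg_zero]
      refine sub_eq_zero.mp ((Module.forall_dual_apply_eq_zero_iff (ZMod p) _).mp fun u => ?_)
      rw [map_sub, map_neg, sub_eq_zero, huφ _ (e.symm ▸ hg), huφ g hg,
        show (⟨pidx (complexConjugation * g), e.symm ▸ hg⟩ : IrrIdx p S M) = ⟨pidx g, hg⟩ from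
          Subtype.ext e, map_mul, mul_inv_rev, Units.val_mul]
      have hc : (((cycloChar p complexConjugation)⁻¹ : (ZMod p)ˣ) : ZMod p) = -1 := by
        rw [Units.val_inv_eq_inv_val, cycloChar_complexConjugation, inv_neg, inv_one]
      rw [hc]
      ring
    refine ⟨⟨φ, hsec, hanti, fun g hp hfix => hφ0 g ((isRelevantIdx_pidx g).mpr ⟨hp, hfix⟩)⟩,
      Subtype.ext (LinearMap.ext fun u => funext fun i => ?_)⟩
    show (cycloChar p (irrPt p S M i) : ZMod p) * u (φ (irrPt p S M i)) = Φ u i
    have e := pidx_irrPt i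
    rw [huφ _ (e.symm ▸ i.2), ← mul_assoc, Units.mul_inv, one_mul]
    exact congrArg (Φ u) (Subtype.ext e)
  rw [invDim, ← (LinearEquiv.ofBijective T ⟨hinj, hsurj⟩).finrank_eq]

include hMC hσM hmu in
/-- The antisections have the dimension of the sections modulo the invariant ones. -/
theorem finrank_antiSec [Finite (Γ ⧸ C)] (hidx : ¬ p ∣ (M.subgroupOf C).index) :
    finrank (ZMod p) ↥(antiSec p M σ) + finrank (ZMod p) ↥(archSec C σ) =
      finrank (ZMod p) ↥(secSpace C σ) := by
  classical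
  cases nonempty_fintype (Γ ⧸ C)
  haveI : FiniteDimensional (ZMod p) ↥(secSpace C σ) := Module.Finite.equiv (secEquiv C σ).symm
  set c : Γ := complexConjugation with hc
  have hcc : ∀ g : Γ, c * (c * g) = g := fun g => by
    rw [← mul_assoc, complexConjugation_mul_self, one_mul]
  let D : ↥(secSpace C σ) →ₗ[ZMod p] Γ → W :=
    { toFun := fun φ g => φ.1 g - φ.1 (c * g)
      map_add' := fun φ ψ => funext fun g => add_sub_add_comm _ _ _ _
      map_smul' := fun a φ => funext fun g => by simp [smul_sub] }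
  have hker : LinearMap.ker D = Submodule.comap (secSpace C σ).subtype (archSec C σ) := by
    ext φ
    constructor
    · exact fun h => ⟨φ.2, fun g => (sub_eq_zero.mp (congrFun h g)).symm⟩
    · exact fun h => funext fun g => sub_eq_zero.mpr (h.2 g).symm
  have hfix : p = 2 → ∀ g, c • (QuotientGroup.mk g : Γ ⧸ C) = QuotientGroup.mk g →
      c • (QuotientGroup.mk g : Γ ⧸ M) = QuotientGroup.mk g := fun hp g h => by
    rw [MulAction.Quotient.smul_coe, eq_comm, QuotientGroup.eq, smul_eq_mul] at h ⊢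
    set x : ↥C := ⟨g⁻¹ * (c * g), h⟩
    have hx : x ^ 2 = 1 := Subtype.ext (by
      rw [sq]
      show g⁻¹ * (c * g) * (g⁻¹ * (c * g)) = 1
      rw [mul_assoc g⁻¹, mul_assoc c, mul_inv_cancel_left, hcc, inv_mul_cancel])
    haveI : Finite (↥C ⧸ M.subgroupOf C) := Nat.finite_of_card_ne_zero (α := ↥C ⧸ M.subgroupOf C)
      fun h0 => hidx (show p ∣ Nat.card (↥C ⧸ M.subgroupOf C) by rw [h0]; exact dvd_zero p)
    have h1 : orderOf (QuotientGroup.mk' (M.subgroupOf C) x) ∣ 1 := by
      have hco : Nat.Coprime 2 (M.subgroupOf C).index :=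
        Nat.prime_two.coprime_iff_not_dvd.mpr (hp ▸ hidx)
      rw [← hco]
      exact Nat.dvd_gcd (orderOf_dvd_of_pow_eq_one (by rw [← map_pow, hx, map_one]))
        (orderOf_dvd_natCard _)
    exact (QuotientGroup.eq_one_iff x).mp (orderOf_eq_one_iff.mp (Nat.dvd_one.mp h1))
  have hrange : LinearMap.range D = antiSec p M σ := by
    refine le_antisymm ?_ fun ψ hψ => ?_
    · rintro _ ⟨φ, rfl⟩
      refine ⟨fun g h hh => ?_, fun g => ?_, fun g hp hg => ?_⟩
      · show φ.1 (g * h) - φ.1 (c * (g * h)) = _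
        rw [← mul_assoc, φ.2 g h hh, φ.2 (c * g) h hh]
        exact (map_sub _ _ _).symm
      · show φ.1 (c * g) - φ.1 (c * (c * g)) = -(φ.1 g - φ.1 (c * g))
        rw [hcc, neg_sub]
      · rw [MulAction.Quotient.smul_coe, eq_comm, QuotientGroup.eq, smul_eq_mul] at hg
        show φ.1 g - φ.1 (c * g) = 0
        conv_lhs => arg 2; rw [← mul_inv_cancel_left g (c * g), secSpace_mul_mem hMC hσM φ.2 g hg]
        rw [sub_self]
    by_cases hp : p = 2
    · let e := Fintype.equivFin (Γ ⧸ C)
      let φ : Γ → W := fun g => if e (QuotientGroup.mk g) < e (c • QuotientGroup.mk g) then ψ g else 0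
      have hφ : φ ∈ secSpace C σ := fun g h hh => by
        simp only [φ, QuotientGroup.mk_mul_of_mem g hh]
        split_ifs
        · exact hψ.1 g h hh
        · rw [map_zero]
      refine ⟨⟨φ, hφ⟩, funext fun g => ?_⟩
      show φ g - φ (c * g) = ψ g
      set x : Γ ⧸ C := QuotientGroup.mk g with hx
      have e1 : (QuotientGroup.mk (c * g) : Γ ⧸ C) = c • x := rfl
      have e2 : c • c • x = x := smul_smul_self C x
      simp only [φ, ← hx, e1, e2]
      rcases lt_trichotomy (e x) (e (c • x)) with h | h | h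
      · rw [if_pos h, if_neg h.asymm, sub_zero]
      · rw [if_neg h.not_lt, if_neg h.symm.not_lt, sub_zero,
          hψ.2.2 g hp (hfix hp g (e.injective h).symm)]
      · rw [if_neg h.asymm, if_pos h, hψ.2.1, zero_sub, neg_neg]
    · have h2 : (2 : ZMod p) ≠ 0 := fun h => hp ((Nat.prime_dvd_prime_iff_eq (Fact.out : p.Prime)
        Nat.prime_two).mp ((ZMod.natCast_eq_zero_iff _ _).mp (by exact_mod_cast h)))
      refine ⟨⟨(2 : ZMod p)⁻¹ • ψ, Submodule.smul_mem _ _ hψ.1⟩, funext fun g => ?_⟩
      show (2 : ZMod p)⁻¹ • ψ g - (2 : ZMod p)⁻¹ • ψ (c * g) = ψ g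
      rw [hψ.2.1, smul_neg, sub_neg_eq_add, ← two_smul (ZMod p), smul_smul, mul_inv_cancel₀ h2,
        one_smul]
  have hle : archSec C σ ≤ secSpace C σ := fun φ h => h.1
  rw [← hrange, ← LinearMap.finrank_range_add_finrank_ker D, hker,
    (Submodule.comapSubtypeEquivOfLe hle).finrank_eq]

end Sections

end Fermat.Agent.GalCoh.Euler
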