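import Fermat.Agent.GalCoh.Euler.H1Kummer
import Fermat.Agent.GalCoh.Euler.H2Places
import Fermat.Agent.GalCoh.Signs

/-!
# The Galois module of `S`-units up to isogeny

An equivariant family of `S`-units indexed by the places over `S ∪ {∞}` which, together with the
degree, gives an injective map `ℤ^{places} → O_S^× × ℤ` with torsion cokernel.
-/

set_option autoImplicit false
set_option linter.unusedSectionVars false
set_option linter.style.haveILetI false

noncomputable section

open NumberField IsDedekindDomain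
open scoped Pointwise NumberField

namespace Fermat.Agent.GalCoh.Euler

open Fermat.Agent.FreyReducible Fermat.Agent.CFT ExtCitation Descent

local notation "Ω" => AlgebraicClosure ℚ
local notation "Γ" => (AlgebraicClosure ℚ ≃ₐ[ℚ] AlgebraicClosure ℚ)

local instance isAlgebraicQbar_units : Algebra.IsAlgebraic ℚ (AlgebraicClosure ℚ) :=
  AlgebraicClosure.isAlgebraic ℚ
local instance isAlgClosureQbar_units : IsAlgClosure ℚ (AlgebraicClosure ℚ) :=
  ⟨inferInstance, inferInstance⟩

/-- A family chosen equivariantly, from a property stable under translation and addition. -/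
theorem exists_equivariant_family {G X Y : Type} [Group G] [Finite G] [AddCommGroup Y]
    (π : G →* Equiv.Perm X) (ρ : Representation ℤ G Y) (P : X → Y → Prop)
    (hP : ∀ g x y, P x y → P (π g x) (ρ g y))
    (hadd : ∀ x y y', P x y → P x y' → P x (y + y')) (hex : ∀ x, ∃ y, P x y) :
    ∃ E : X → Y, (∀ g x, E (π g x) = ρ g (E x)) ∧ ∀ x, P x (E x) := by
  classical
  cases nonempty_fintype G
  let st : Setoid X :=
    { r := fun x y => ∃ g, π g x = y
      iseqv := ⟨fun x => ⟨1, by simp⟩,
        fun {x y} ⟨g, hg⟩ => ⟨g⁻¹, by rw [← hg, ← Equiv.Perm.mul_apply, ← map_mul]; simp⟩,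
        fun {x y z} ⟨g, hg⟩ ⟨g', hg'⟩ => ⟨g' * g, by
          rw [map_mul, Equiv.Perm.mul_apply, hg, hg']⟩⟩ }
  let r : X → X := fun x => (Quotient.mk st x).out
  have hr : ∀ x, ∃ g, π g (r x) = x := fun x => Quotient.exact (Quotient.mk st x).out_eq
  have hrπ : ∀ g x, r (π g x) = r x := fun g x =>
    congrArg Quotient.out (Quotient.sound (s := st) ⟨g⁻¹, by
      rw [← Equiv.Perm.mul_apply, ← map_mul]; simp⟩)
  choose t ht using hr
  choose e he using hex
  let stab : X → Finset G := fun x => Finset.univ.filter fun g => π g x = x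
  let avg : X → Y := fun x => ∑ g ∈ stab x, ρ g (e x)
  have hmove : ∀ g g' x, π g x = π g' x → ρ g (avg x) = ρ g' (avg x) := fun g g' x h => by
    simp only [avg, map_sum, ← Module.End.mul_apply, ← map_mul]
    refine Finset.sum_equiv (Equiv.mulLeft (g'⁻¹ * g)) (fun a => ?_) fun a _ => ?_
    · simp only [stab, Finset.mem_filter, Finset.mem_univ, true_and, Equiv.coe_mulLeft, map_mul,
        Equiv.Perm.mul_apply]
      constructor
      · intro ha
        rw [ha, h, ← Equiv.Perm.mul_apply, ← map_mul]
        simp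
      · intro ha
        have h1 := congrArg (π g') ha
        rw [← h] at h1
        rw [← Equiv.Perm.mul_apply, ← map_mul, mul_inv_cancel, map_one] at h1
        exact (π g).injective h1
    · congr 1
      simp
  refine ⟨fun x => ρ (t x) (avg (r x)), fun g x => ?_, fun x => ?_⟩
  · show ρ (t (π g x)) (avg (r (π g x))) = ρ g (ρ (t x) (avg (r x)))
    rw [hrπ, ← Module.End.mul_apply, ← map_mul]
    refine hmove _ _ _ ?_
    conv_lhs => arg 2; rw [← hrπ g x]
    rw [ht, map_mul, Equiv.Perm.mul_apply, ht]
  · have h := hP (t x) (r x) (avg (r x)) ?_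
    · rwa [ht] at h
    refine Finset.sum_induction_nonempty _ (P (r x)) (hadd (r x)) ⟨1, by simp [stab]⟩ fun g hg => ?_
    have := hP g (r x) (e (r x)) (he _)
    simp only [stab, Finset.mem_filter, Finset.mem_univ, true_and] at hg
    rwa [hg] at this

/-- A matrix with vanishing column sums and negative entries off the diagonal kills no nonzero
vector of sum zero. -/
theorem eq_zero_of_dominant {ι : Type} [Fintype ι] [DecidableEq ι] (a : ι → ι → ℝ)
    (hoff : ∀ i j, j ≠ i → a j i < 0) (hcol : ∀ i, ∑ j, a j i = 0) (c : ι → ℤ) (hc : ∑ i, c i = 0)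
    (h : ∀ j, ∑ i, (c i : ℝ) * a j i = 0) : c = 0 := by
  by_contra hne
  let P := Finset.univ.filter fun i => 0 < c i
  have hP1 : P.Nonempty := by
    by_contra hP
    have hle : ∀ i ∈ Finset.univ, c i ≤ 0 := fun i _ => by
      by_contra hi
      exact hP ⟨i, Finset.mem_filter.mpr ⟨Finset.mem_univ i, not_le.mp hi⟩⟩
    exact hne (funext fun i => (Finset.sum_eq_zero_iff_of_nonpos hle).mp hc i (Finset.mem_univ i))
  have hP2 : ∃ i, i ∉ P := by
    by_contra! hall
    obtain ⟨i, hi⟩ := hP1
    have := Finset.sum_pos (fun j (_ : j ∈ (Finset.univ : Finset ι)) =>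
      (Finset.mem_filter.mp (hall j)).2) ⟨i, Finset.mem_univ i⟩
    omega
  obtain ⟨k, hk⟩ := hP2
  have hpos : 0 < ∑ i, (c i : ℝ) * ∑ j ∈ P, a j i := by
    refine Finset.sum_pos' (fun i _ => ?_) ?_
    · by_cases hi : i ∈ P
      · refine mul_nonneg (by exact_mod_cast (Finset.mem_filter.mp hi).2.le) ?_
        have h1 := hcol i
        rw [← Finset.sum_add_sum_compl P] at h1
        have h2 : ∑ j ∈ Pᶜ, a j i ≤ 0 := Finset.sum_nonpos fun j hj =>
          (hoff i j fun e => Finset.mem_compl.mp hj (e ▸ hi)).le
        linarith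
      · refine mul_nonneg_of_nonpos_of_nonpos ?_
          (Finset.sum_nonpos fun j hj => (hoff i j fun e => hi (e ▸ hj)).le)
        exact_mod_cast not_lt.mp fun hlt => hi (Finset.mem_filter.mpr ⟨Finset.mem_univ i, hlt⟩)
    · obtain ⟨i, hi⟩ := hP1
      refine ⟨i, Finset.mem_univ i, mul_pos (by exact_mod_cast (Finset.mem_filter.mp hi).2) ?_⟩
      have h1 := hcol i
      rw [← Finset.sum_add_sum_compl P] at h1
      have h2 : ∑ j ∈ Pᶜ, a j i < 0 :=
        Finset.sum_neg (fun j hj => hoff i j fun e => Finset.mem_compl.mp hj (e ▸ hi))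
          ⟨k, Finset.mem_compl.mpr hk⟩
      linarith
  simp only [Finset.mul_sum] at hpos
  rw [Finset.sum_comm, Finset.sum_eq_zero fun j _ => h j] at hpos
  exact lt_irrefl _ hpos

section Maps

variable {C M : Subgroup Γ} {S : Finset Nat.Primes}

theorem normalizes_of_subgroupOf (hMC : M ≤ C) (hn : (M.subgroupOf C).Normal) (δ : ↥C) :
    Normalizes M (δ : Γ) := fun m => by
  constructor
  · intro hm
    exact hn.conj_mem ⟨m, hMC hm⟩ hm δ
  · intro hm
    have := hn.conj_mem ⟨_, hMC hm⟩ hm δ⁻¹
    simpa [Subgroup.mem_subgroupOf, mul_assoc] using this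

variable (hMC : M ≤ C) [hn : (M.subgroupOf C).Normal] (S)

theorem rightMul_rightMul_inv {K : Subgroup Γ} {a b : Γ} (ha : Normalizes K a) (hb : Normalizes K b)
    (h : a * b = 1) (x : Γ ⧸ K) : rightMul b hb (rightMul a ha x) = x := by
  induction x using QuotientGroup.induction_on with
  | H g => rw [rightMul_mk, rightMul_mk, mul_assoc, h, mul_one]

/-- The translation of the places. -/
def placeTranslate : ↥C ⧸ M.subgroupOf C →* Equiv.Perm (PlaceIdx S M) :=
  QuotientGroup.lift _
    { toFun := fun δ =>
        { toFun := placeMove ((δ : Γ)⁻¹) (normalizes_of_subgroupOf hMC hn δ).inv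
          invFun := placeMove (δ : Γ) (normalizes_of_subgroupOf hMC hn δ)
          left_inv := fun i => by
            obtain ⟨u, o⟩ := i
            induction o using Quotient.inductionOn with
            | _ x =>
              exact congrArg (fun y => (⟨u, Quotient.mk _ y⟩ : PlaceIdx S M))
                (rightMul_rightMul_inv _ _ (inv_mul_cancel _) x)
          right_inv := fun i => by
            obtain ⟨u, o⟩ := i
            induction o using Quotient.inductionOn with
            | _ x =>
              exact congrArg (fun y => (⟨u, Quotient.mk _ y⟩ : PlaceIdx S M))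
                (rightMul_rightMul_inv _ _ (mul_inv_cancel _) x) }
      map_one' := Equiv.ext fun i => by
        obtain ⟨u, o⟩ := i
        induction o using Quotient.inductionOn with
        | _ x =>
          refine congrArg (fun y => (⟨u, Quotient.mk _ y⟩ : PlaceIdx S M)) ?_
          induction x using QuotientGroup.induction_on with
          | H a => rw [rightMul_mk]; simp
      map_mul' := fun a b => Equiv.ext fun i => by
        obtain ⟨u, o⟩ := i
        induction o using Quotient.inductionOn with
        | _ x =>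
          refine congrArg (fun y => (⟨u, Quotient.mk _ y⟩ : PlaceIdx S M)) ?_
          induction x using QuotientGroup.induction_on with
          | H g => rw [rightMul_mk, rightMul_mk, rightMul_mk]; simp [mul_assoc] }
    fun δ hδ => Equiv.ext fun i => by
      obtain ⟨u, o⟩ := i
      induction o using Quotient.inductionOn with
      | _ x =>
        refine congrArg (fun y => (⟨u, Quotient.mk _ y⟩ : PlaceIdx S M)) ?_
        induction x using QuotientGroup.induction_on with
        | H g =>
          rw [rightMul_mk, QuotientGroup.eq]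
          simpa [mul_assoc, Subgroup.mem_subgroupOf] using hδ

theorem placeTranslate_mk (δ : ↥C) (i : PlaceIdx S M) :
    placeTranslate S hMC (QuotientGroup.mk δ) i =
      placeMove ((δ : Γ)⁻¹) (normalizes_of_subgroupOf hMC hn δ).inv i := rfl

theorem placeTranslate_fst (g : ↥C ⧸ M.subgroupOf C) (i : PlaceIdx S M) :
    (placeTranslate S hMC g i).1 = i.1 := by
  induction g using QuotientGroup.induction_on
  rfl

/-- The translation of `S`-units. -/
def suRep : Representation ℤ (↥C ⧸ M.subgroupOf C) (SU M S) :=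
  QuotientGroup.lift _
    { toFun := fun δ => AddMonoidHom.toIntLinearMap
        (AddMonoidHom.mk' (suTranslate (S := S) (δ : Γ) (normalizes_of_subgroupOf hMC hn δ))
          fun x y => suVal_injective (by simp [suVal_add]))
      map_one' := LinearMap.ext fun x => suVal_injective (by simp)
      map_mul' := fun a b => LinearMap.ext fun x => suVal_injective (by simp) }
    fun δ hδ => LinearMap.ext fun x => suVal_injective (suVal_fixed x hδ)

theorem suVal_suRep (δ : ↥C) (x : SU M S) :
    suVal (suRep S hMC (QuotientGroup.mk δ) x) = (δ : Γ) (suVal x) := rfl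

end Maps

section Values

variable {M : Subgroup Γ} {S : Finset Nat.Primes}

/-- The local value of an `S`-unit at a point. -/
def pval : extArithIndex S → Γ ⧸ M → SU M S → ℝ
  | Sum.inl _, x, y => Real.log ‖complexEmbedding (x.out (suVal y))‖
  | Sum.inr q, x, y => (nu (q : Nat.Primes) (primeLocalPlace q) (x.out (suVal y)) : ℝ)

theorem out_apply_suVal (a : Γ) (y : SU M S) :
    ((QuotientGroup.mk a : Γ ⧸ M).out) (suVal y) = a (suVal y) := by
  obtain ⟨⟨m, hm⟩, e⟩ := QuotientGroup.mk_out_eq_mul M a
  rw [show (QuotientGroup.mk a : Γ ⧸ M).out = a * m from e, AlgEquiv.mul_apply, suVal_fixed y hm]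

theorem pval_smul (u : extArithIndex S) (d : placeGroup (toPlace u)) (x : Γ ⧸ M) (y : SU M S) :
    pval u (placeLoc (toPlace u) d • x) y = pval u x y := by
  induction x using QuotientGroup.induction_on with
  | H a =>
    rw [MulAction.Quotient.smul_coe, smul_eq_mul]
    rcases u with u | q
    · simp only [pval, out_apply_suVal, AlgEquiv.mul_apply]
      rcases arch_cases u d with rfl | hd
      · rw [show placeLoc (toPlace (Sum.inl u : extArithIndex S)) (1 : placeGroup (Sum.inl u)) =
          (1 : Γ) from map_one _]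
        rfl
      · rw [show placeLoc (toPlace (Sum.inl u : extArithIndex S)) d = complexConjugation from hd,
          complexEmbedding_complexConjugation, Complex.norm_conj]
    · simp only [pval, out_apply_suVal, AlgEquiv.mul_apply]
      have hdec := conjLoc_mem_decomposition (q : Nat.Primes) 1 d
      have hc : conjLoc (Sum.inr (q : Nat.Primes)) 1 d =
          placeLoc (toPlace (Sum.inr q : extArithIndex S)) d := by simp [conjLoc, toPlace]; rfl
      rw [hc, one_smul] at hdec
      have hσ : placeLoc (toPlace (Sum.inr q : extArithIndex S)) d • primeLocalPlace (q : Nat.Primes)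
          = primeLocalPlace (q : Nat.Primes) := hdec
      conv_lhs => rw [← hσ]
      rw [nu_smul (q : Nat.Primes).2 (primeLocalPlace_liesOver _) _
        (by simpa using suVal_ne_zero y)]

/-- The value of an `S`-unit at a place. -/
def val (i : PlaceIdx S M) : SU M S → ℝ :=
  Quotient.lift (fun x => pval i.1 x) (fun x y hxy => by
    obtain ⟨d, rfl⟩ := placeSetoid_rel.mp hxy
    exact funext fun z => pval_smul i.1 d y z) i.2

theorem val_add (i : PlaceIdx S M) (y z : SU M S) : val i (y + z) = val i y + val i z := by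
  obtain ⟨u, o⟩ := i
  induction o using Quotient.inductionOn with
  | _ x =>
    show pval u x (y + z) = pval u x y + pval u x z
    have hy : x.out (suVal y) ≠ 0 := by simpa using suVal_ne_zero y
    have hz : x.out (suVal z) ≠ 0 := by simpa using suVal_ne_zero z
    rcases u with u | q
    · simp only [pval, suVal_add, map_mul, norm_mul]
      exact Real.log_mul (by simpa using hy) (by simpa using hz)
    · simp only [pval, suVal_add, map_mul]
      rw [nu_mul (q : Nat.Primes).2 (primeLocalPlace_liesOver _) hy hz, Rat.cast_add]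

/-- The value at a place, as a homomorphism. -/
def valHom (i : PlaceIdx S M) : SU M S →+ ℝ := AddMonoidHom.mk' (val i) (val_add i)

variable {C : Subgroup Γ} (hMC : M ≤ C) [hn : (M.subgroupOf C).Normal]

theorem val_translate (g : ↥C ⧸ M.subgroupOf C) (i : PlaceIdx S M) (y : SU M S) :
    val (placeTranslate S hMC g i) (suRep S hMC g y) = val i y := by
  induction g using QuotientGroup.induction_on with
  | H δ =>
    obtain ⟨u, o⟩ := i
    induction o using Quotient.inductionOn with
    | _ x =>
      show pval u (rightMul ((δ : Γ)⁻¹) _ x) _ = pval u x y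
      induction x using QuotientGroup.induction_on with
      | H a =>
        rw [rightMul_mk]
        rcases u with u | q <;>
          simp only [pval, out_apply_suVal] <;>
          rw [suVal_suRep, ← AlgEquiv.mul_apply, inv_mul_cancel_right]

end Values

section Existence

variable {M : Subgroup Γ} {S : Finset Nat.Primes} (hM : fullLevels.mem M)

/-- The fixed field. -/
abbrev fixF (M : Subgroup Γ) : IntermediateField ℚ Ω := IntermediateField.fixedField M

include hM in
theorem numberField_fixed : NumberField (fixF M) :=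
  haveI := Descent.finiteDimensional_fixedField hM
  { to_charZero := inferInstance, to_finiteDimensional := inferInstance }

/-- The complex embedding of a point. -/
def pointEmb (x : Γ ⧸ M) : (fixF M) →+* ℂ :=
  complexEmbedding.toRingHom.comp (x.out.toAlgHom.toRingHom.comp (IntermediateField.val (fixF M)).toRingHom)

theorem pointEmb_mk (a : Γ) (z : (fixF M)) :
    pointEmb (QuotientGroup.mk a : Γ ⧸ M) z = complexEmbedding (a (z : Ω)) := by
  obtain ⟨⟨m, hm⟩, e⟩ := QuotientGroup.mk_out_eq_mul M a
  show complexEmbedding ((QuotientGroup.mk a : Γ ⧸ M).out (z : Ω)) = _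
  rw [show (QuotientGroup.mk a : Γ ⧸ M).out = a * m from e, AlgEquiv.mul_apply,
    (IntermediateField.mem_fixedField_iff _ _).mp z.2 m hm]

variable [NumberField (fixF M)]

include hM in
theorem pointEmb_bijective : Function.Bijective (pointEmb (M := M)) := by
  constructor
  · intro x y h
    induction x using QuotientGroup.induction_on with
    | H a =>
      induction y using QuotientGroup.induction_on with
      | H b =>
        rw [QuotientGroup.eq, ← Descent.fixingSubgroup_fixedField_of_mem hM]
        refine (IntermediateField.mem_fixingSubgroup_iff _ _).mpr fun z hz => ?_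
        have h1 := RingHom.congr_fun h ⟨z, hz⟩
        rw [pointEmb_mk, pointEmb_mk] at h1
        rw [AlgEquiv.mul_apply, AlgEquiv.aut_inv, AlgEquiv.symm_apply_eq]
        exact (complexEmbedding.toRingHom.injective h1).symm
  · intro φ
    letI : Algebra Ω ℂ := complexEmbedding.toRingHom.toAlgebra
    have hmem : ∀ z : (fixF M), ∃ w : Ω, complexEmbedding w = φ z := fun z => by
      have hz : IsIntegral ℚ z := Algebra.IsIntegral.isIntegral z
      have hroot : Polynomial.aeval (φ z) (minpoly ℚ z) = 0 := by
        have := Polynomial.aeval_algHom_apply φ.toRatAlgHom z (minpoly ℚ z)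
        rw [minpoly.aeval, map_zero] at this
        exact this
      have hsplit : ((minpoly ℚ z).map (algebraMap ℚ Ω)).Splits := IsAlgClosed.splits _
      rw [Polynomial.aeval_def, ← Polynomial.eval_map,
        show (algebraMap ℚ ℂ) = complexEmbedding.toRingHom.comp (algebraMap ℚ Ω) from
          (complexEmbedding.comp_algebraMap).symm,
        ← Polynomial.map_map, hsplit.map complexEmbedding.toRingHom |>.eq_prod_roots] at hroot
      have hlead : ((minpoly ℚ z).map (algebraMap ℚ Ω)).roots.map complexEmbedding.toRingHom =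
          (((minpoly ℚ z).map (algebraMap ℚ Ω)).map complexEmbedding.toRingHom).roots :=
        (hsplit.roots_map complexEmbedding.toRingHom).symm
      rw [← hlead, Polynomial.eval_mul, Polynomial.eval_C, mul_eq_zero, Polynomial.leadingCoeff_eq_zero]
        at hroot
      rcases hroot with h0 | h0
      · exact absurd h0 (Polynomial.map_ne_zero (Polynomial.map_ne_zero (minpoly.ne_zero hz)))
      · rw [Polynomial.eval_multiset_prod, Multiset.prod_eq_zero_iff, Multiset.mem_map] at h0
        obtain ⟨f, hf, hf0⟩ := h0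
        obtain ⟨w, hw, rfl⟩ := Multiset.mem_map.mp hf
        obtain ⟨w', -, rfl⟩ := Multiset.mem_map.mp hw
        rw [Polynomial.eval_sub, Polynomial.eval_X, Polynomial.eval_C, sub_eq_zero] at hf0
        exact ⟨w', hf0.symm⟩
    choose w hw using hmem
    let ψ : (fixF M) →+* Ω :=
      { toFun := w
        map_one' := complexEmbedding.toRingHom.injective (by simp [hw])
        map_mul' := fun a b => complexEmbedding.toRingHom.injective (by simp [hw])
        map_zero' := complexEmbedding.toRingHom.injective (by simp [hw])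
        map_add' := fun a b => complexEmbedding.toRingHom.injective (by simp [hw]) }
    haveI : Normal ℚ Ω := IsAlgClosure.normal ℚ Ω
    let σ : Γ := AlgEquiv.ofBijective (ψ.toRatAlgHom.liftNormal Ω)
      (Algebra.IsAlgebraic.algHom_bijective _)
    refine ⟨QuotientGroup.mk σ, RingHom.ext fun z => ?_⟩
    rw [pointEmb_mk, ← hw z]
    exact congrArg complexEmbedding (ψ.toRatAlgHom.liftNormal_commutes Ω z)

theorem pointEmb_conj (x : Γ ⧸ M) :
    pointEmb (complexConjugation • x) = ComplexEmbedding.conjugate (pointEmb x) := by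
  induction x using QuotientGroup.induction_on with
  | H a =>
    refine RingHom.ext fun z => ?_
    rw [MulAction.Quotient.smul_coe, smul_eq_mul, ComplexEmbedding.conjugate_coe_eq, pointEmb_mk,
      pointEmb_mk, AlgEquiv.mul_apply, complexEmbedding_complexConjugation]

/-- The infinite place of a point. -/
def pointInf (x : Γ ⧸ M) : InfinitePlace (fixF M) := InfinitePlace.mk (pointEmb x)

/-- The infinite place of an archimedean index. -/
def idxInf (u : Unit) (o : Quotient (placeSetoid S M (Sum.inl u : extArithIndex S))) :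
    InfinitePlace (fixF M) :=
  Quotient.lift pointInf (fun x y hxy => by
    obtain ⟨d, hd⟩ := placeSetoid_rel.mp hxy
    rcases arch_cases u d with rfl | hd'
    · rw [show placeLoc (toPlace (Sum.inl u : extArithIndex S)) (1 : placeGroup (Sum.inl u)) =
          (1 : Γ) from map_one _, one_smul] at hd
      rw [hd]
    · rw [show placeLoc (toPlace (Sum.inl u : extArithIndex S)) d = complexConjugation from hd']
        at hd
      rw [pointInf, pointInf, ← hd, pointEmb_conj]
      exact InfinitePlace.mk_conjugate_eq _) o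

include hM in
theorem idxInf_bijective : Function.Bijective (idxInf (M := M) (S := S) ()) := by
  constructor
  · intro o o' h
    induction o using Quotient.inductionOn with
    | _ x =>
      induction o' using Quotient.inductionOn with
      | _ y =>
        refine placeSetoid_mk_eq.mpr ?_
        rcases InfinitePlace.mk_eq_iff.mp (show InfinitePlace.mk (pointEmb x) =
          InfinitePlace.mk (pointEmb y) from h) with e | e
        · exact ⟨1, by rw [(pointEmb_bijective hM).1 e, map_one, one_smul]⟩
        · refine ⟨archimedeanGen, ?_⟩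
          rw [← pointEmb_conj] at e
          show complexConjugation • y = x
          rw [← (pointEmb_bijective hM).1 e, smul_smul, complexConjugation_mul_self, one_smul]
  · intro w
    obtain ⟨x, hx⟩ := (pointEmb_bijective hM).2 w.embedding
    exact ⟨Quotient.mk _ x, (congrArg InfinitePlace.mk hx).trans w.mk_embedding⟩

/-- A unit of the fixed field as an `S`-unit. -/
def unitToSU : Additive (𝓞 (fixF M))ˣ →+ SU M S where
  toFun u := Additive.ofMul
    ⟨Units.mk0 (((u.toMul : 𝓞 (fixF M)) : (fixF M)) : Ω) (by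
      intro h
      exact u.toMul.ne_zero (RingOfIntegers.coe_injective (Subtype.ext h))),
    fun m hm => (IntermediateField.mem_fixedField_iff _ _).mp ((u.toMul : 𝓞 (fixF M)) : (fixF M)).2 m hm,
    fun q A _ hA => by
      show nu q A (((u.toMul : 𝓞 (fixF M)) : (fixF M)) : Ω) = 0
      rw [nu_eq_div q.2 hA (fixF M) (fun h => u.toMul.ne_zero (RingOfIntegers.coe_injective h)),
        ordv_unit,
        Int.cast_zero, zero_div]⟩
  map_zero' := suVal_injective rfl
  map_add' u v := suVal_injective (by rw [suVal_add]; rfl)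

theorem suVal_unitToSU (u : Additive (𝓞 (fixF M))ˣ) :
    suVal (unitToSU (S := S) u) = (((u.toMul : 𝓞 (fixF M)) : (fixF M)) : Ω) := rfl

theorem val_inr_eq_zero_iff {q : {q // q ∈ S}} (x : Γ ⧸ M) (y : SU M S) :
    val ⟨Sum.inr q, Quotient.mk _ x⟩ y = 0 ↔
      nu (q : Nat.Primes) (x.out⁻¹ • primeLocalPlace (q : Nat.Primes)) (suVal y) = 0 := by
  show pval (Sum.inr q) x y = 0 ↔ _
  simp only [pval, Rat.cast_eq_zero]
  have h := nu_smul (q : Nat.Primes).2
    (GalCoh.liesOverPrime_smul (primeLocalPlace_liesOver (q : Nat.Primes)) x.out⁻¹) x.out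
    (suVal_ne_zero y)
  rw [smul_inv_smul] at h
  rw [h]

include hM in
/-- An `S`-unit without finite values is a unit. -/
theorem exists_unitToSU_eq {y : SU M S}
    (hy : ∀ q o, val ⟨Sum.inr q, o⟩ y = 0) : ∃ u, unitToSU u = y := by
  have hmem : suVal y ∈ (fixF M) := (IntermediateField.mem_fixedField_iff _ _).mpr
    fun m hm => suVal_fixed y hm
  set z : (fixF M) := ⟨suVal y, hmem⟩ with hz
  have hz0 : z ≠ 0 := fun h => suVal_ne_zero y (congrArg Subtype.val h)
  have hnu : ∀ (q : Nat.Primes) A, A.LiesOverPrime (q : ℕ) → nu q A (suVal y) = 0 := by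
    intro q A hA
    by_cases hq : q ∈ S
    · obtain ⟨g, rfl⟩ :=
        Frobenius.exists_smul_eq_of_liesOverPrime_qbar q.2 (primeLocalPlace_liesOver q) hA
      have h := (val_inr_eq_zero_iff (q := ⟨q, hq⟩) (QuotientGroup.mk g⁻¹) y).mp (hy _ _)
      obtain ⟨⟨m, hm⟩, e⟩ := QuotientGroup.mk_out_eq_mul M g⁻¹
      rw [show (QuotientGroup.mk g⁻¹ : Γ ⧸ M).out = g⁻¹ * m from e, mul_inv_rev, inv_inv,
        mul_smul] at h
      have h2 := nu_smul q.2 (GalCoh.liesOverPrime_smul (primeLocalPlace_liesOver q) g) m⁻¹
        (suVal_ne_zero y)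
      rw [suVal_fixed y (M.inv_mem hm), h] at h2
      exact h2.symm
    · exact suVal_nu y hq hA
  have h0 : ∀ w : HeightOneSpectrum (𝓞 (fixF M)), ordv w z = 0 := fun w => by
    obtain ⟨q, A, hA, hw⟩ := exists_place_over w
    have hwf : fieldPlace q.2 hA (fixF M) = w := HeightOneSpectrum.ext hw
    have h := hnu q A hA
    rw [show suVal y = (z : Ω) from rfl, nu_eq_div q.2 hA (fixF M) hz0, hwf, div_eq_zero_iff] at h
    rcases h with h | h
    · exact_mod_cast h
    · have := ordv_natCast_pos q.2 hA (fixF M)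
      rw [hwf] at this
      exact absurd h (by exact_mod_cast this.ne')
  obtain ⟨a, ha⟩ := exists_eq_algebraMap (x := z) fun w => (h0 w).ge
  obtain ⟨b, hb⟩ := exists_eq_algebraMap (x := z⁻¹) fun w => by rw [ordv_inv, h0 w, neg_zero]
  have hab : a * b = 1 := FaithfulSMul.algebraMap_injective (𝓞 (fixF M)) (fixF M) (by
    rw [map_mul, ha, hb, map_one, mul_inv_cancel₀ hz0])
  exact ⟨Additive.ofMul ⟨a, b, hab, by rw [mul_comm, hab]⟩,
    suVal_injective (congrArg (fun t : (fixF M) => (t : Ω)) ha)⟩

include hM in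
theorem addGroup_fg_SU : AddGroup.FG (SU M S) := by
  have hfin : (primesOver S (fixF M)).Finite := by
    have hT0 : Ideal.span {((∏ q ∈ S, (q : ℕ) : ℕ) : 𝓞 (fixF M))} ≠ 0 := by
      rw [ne_eq, Submodule.zero_eq_bot, Ideal.span_singleton_eq_bot, Nat.cast_eq_zero]
      exact Finset.prod_ne_zero_iff.mpr fun q _ => q.2.ne_zero
    refine (Ideal.finite_factors hT0).subset fun w hw => Ideal.dvd_span_singleton.mpr ?_
    obtain ⟨q, hq, hqw⟩ := hw
    obtain ⟨c, hc⟩ := Finset.dvd_prod_of_mem (fun q : Nat.Primes => (q : ℕ)) hq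
    rw [hc, Nat.cast_mul]
    exact Ideal.mul_mem_right _ _ hqw
  let T : Finset (HeightOneSpectrum (𝓞 (fixF M))) := hfin.toFinset
  let z : SU M S → (fixF M) := fun y =>
    ⟨suVal y, (IntermediateField.mem_fixedField_iff _ _).mpr fun m hm => suVal_fixed y hm⟩
  have hz0 : ∀ y, z y ≠ 0 := fun y h => suVal_ne_zero y (congrArg Subtype.val h)
  have hmem : ∀ y, Units.mk0 (z y) (hz0 y) ∈ sUnits (fixF M) (T : Set (HeightOneSpectrum (𝓞 (fixF M)))) := by
    intro y w hw
    obtain ⟨q, A, hA, hwA⟩ := exists_place_over w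
    have hqS : q ∉ S := fun hq => hw (hfin.mem_toFinset.mpr
      ⟨q, hq, by rw [← hwA]; exact natCast_mem_fieldPrime q.2 hA (fixF M)⟩)
    have hwf : fieldPlace q.2 hA (fixF M) = w := HeightOneSpectrum.ext hwA
    have h := suVal_nu y hqS hA
    rw [show suVal y = ((z y : (fixF M)) : Ω) from rfl, nu_eq_div q.2 hA (fixF M) (hz0 y), hwf,
      div_eq_zero_iff] at h
    rcases h with h | h
    · exact_mod_cast h
    · have := ordv_natCast_pos q.2 hA (fixF M)
      rw [hwf] at this
      exact absurd h (by exact_mod_cast this.ne')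
  let j : SU M S →+ Additive (sUnits (fixF M) (T : Set (HeightOneSpectrum (𝓞 (fixF M))))) :=
    AddMonoidHom.mk' (fun y => Additive.ofMul ⟨_, hmem y⟩) fun a b =>
      Additive.toMul.injective (Subtype.ext (Units.ext (Subtype.ext (suVal_add a b))))
  haveI : Module.Finite ℤ (SU M S) := Module.Finite.of_injective j.toIntLinearMap fun a b h =>
    suVal_injective (congrArg (fun t => ((((Additive.toMul t).1 : (fixF M)ˣ) : (fixF M)) : Ω)) h)
  exact Module.Finite.iff_addGroup_fg.mp inferInstance

include hM in
/-- An `S`-unit supported at one finite place. -/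
theorem exists_finite_elem (q : {q // q ∈ S})
    (o : Quotient (placeSetoid S M (Sum.inr q : extArithIndex S))) :
    ∃ y : SU M S, 0 < val ⟨Sum.inr q, o⟩ y ∧ ∀ q' o',
      (⟨Sum.inr q', o'⟩ : PlaceIdx S M) ≠ ⟨Sum.inr q, o⟩ → val ⟨Sum.inr q', o'⟩ y = 0 := by
  classical
  induction o using Quotient.inductionOn with
  | _ x =>
    have hA := GalCoh.liesOverPrime_smul (primeLocalPlace_liesOver (q : Nat.Primes)) x.out⁻¹
    set w := fieldPlace (q : Nat.Primes).2 hA (fixF M) with hw
    obtain ⟨z, hz0, hz⟩ := exists_ordv_eq_classNumber w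
    have hzΩ : (z : Ω) ≠ 0 := fun h => hz0 (Subtype.ext h)
    obtain ⟨y, hy⟩ := exists_suVal_eq (M := M) (S := S) hzΩ
      (fun m hm => (IntermediateField.mem_fixedField_iff _ _).mp z.2 m hm)
      fun r B hr hB => by
        rw [nu_eq_div r.2 hB (fixF M) hz0, hz, if_neg, Int.cast_zero, zero_div]
        intro e
        have h1 : ((r : ℕ) : 𝓞 (fixF M)) ∈ w.asIdeal := by
          rw [← e]; exact natCast_mem_fieldPrime r.2 hB (fixF M)
        exact hr ((prime_unique w h1 (natCast_mem_fieldPrime (q : Nat.Primes).2 hA (fixF M))) ▸ q.2)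
    refine ⟨y, ?_, fun q' o' hne => ?_⟩
    · show 0 < pval (Sum.inr q) x y
      simp only [pval, hy, Rat.cast_pos]
      have h := nu_smul (q : Nat.Primes).2 hA x.out hzΩ
      rw [smul_inv_smul] at h
      rw [h, nu_eq_div (q : Nat.Primes).2 hA (fixF M) hz0, hz, if_pos hw.symm]
      refine div_pos ?_ ?_
      · exact_mod_cast classNumber_pos (fixF M)
      · exact_mod_cast ordv_natCast_pos (q : Nat.Primes).2 hA (fixF M)
    · induction o' using Quotient.inductionOn with
      | _ x' =>
        rw [val_inr_eq_zero_iff, hy]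
        have hA' := GalCoh.liesOverPrime_smul (primeLocalPlace_liesOver (q' : Nat.Primes)) x'.out⁻¹
        rw [nu_eq_div (q' : Nat.Primes).2 hA' (fixF M) hz0, hz, if_neg, Int.cast_zero, zero_div]
        intro e
        have hqq : q' = q := Subtype.ext (prime_unique w
          (e ▸ natCast_mem_fieldPrime (q' : Nat.Primes).2 hA' (fixF M))
          (natCast_mem_fieldPrime (q : Nat.Primes).2 hA (fixF M)))
        subst hqq
        obtain ⟨n, hn, hnA⟩ := exists_fixing_smul_eq_base (q' : Nat.Primes).2 (fixF M) hA hA'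
          (congrArg HeightOneSpectrum.asIdeal e).symm
        rw [Descent.fixingSubgroup_fixedField_of_mem hM] at hn
        have hdec : (x'.out * n * x.out⁻¹) ∈
            ((1 : Γ) • primeLocalPlace (q' : Nat.Primes)).decompositionSubgroup ℚ := by
          show (x'.out * n * x.out⁻¹) • _ = _
          rw [one_smul, mul_smul, mul_smul, hnA, smul_inv_smul]
        obtain ⟨d, hd⟩ := exists_conjLoc_eq (q' : Nat.Primes) 1 hdec
        refine hne (congrArg (Sigma.mk (Sum.inr q' : extArithIndex S))
          (placeSetoid_mk_eq.mpr ⟨d, ?_⟩))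
        have hd' : placeLoc (toPlace (Sum.inr q' : extArithIndex S)) d = x'.out * n * x.out⁻¹ := by
          rw [← hd]; simp [conjLoc, toPlace]; rfl
        conv_lhs => arg 2; rw [← x.out_eq']
        rw [hd', MulAction.Quotient.smul_coe, smul_eq_mul, inv_mul_cancel_right,
          QuotientGroup.mk_mul_of_mem _ hn, QuotientGroup.out_eq']

theorem val_inl_unit (u : Additive (𝓞 (fixF M))ˣ) (o : Quotient (placeSetoid S M (Sum.inl () : extArithIndex S))) :
    val ⟨Sum.inl (), o⟩ (unitToSU u) =
      Real.log (idxInf () o ((u.toMul : 𝓞 (fixF M)) : (fixF M))) := by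
  induction o using Quotient.inductionOn with
  | _ x => rfl

theorem val_inr_unit (u : Additive (𝓞 (fixF M))ˣ) (q : {q // q ∈ S})
    (o : Quotient (placeSetoid S M (Sum.inr q : extArithIndex S))) :
    val ⟨Sum.inr q, o⟩ (unitToSU u) = 0 := by
  induction o using Quotient.inductionOn with
  | _ x =>
    rw [val_inr_eq_zero_iff, suVal_unitToSU,
      nu_eq_div (q : Nat.Primes).2
        (GalCoh.liesOverPrime_smul (primeLocalPlace_liesOver _) _) (fixF M)
        (fun h => u.toMul.ne_zero (RingOfIntegers.coe_injective h)),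
      ordv_unit,
      Int.cast_zero, zero_div]

variable {C : Subgroup Γ} (hMC : M ≤ C) [hn : (M.subgroupOf C).Normal]

/-- The map given by a family of `S`-units and the degree. -/
def familyMap [Fintype (PlaceIdx S M)] (E : PlaceIdx S M → SU M S) :
    (PlaceIdx S M → ℤ) →ₗ[ℤ] SU M S × ℤ :=
  ∑ i, (LinearMap.proj i).smulRight (E i, (1 : ℤ))

theorem familyMap_apply [Fintype (PlaceIdx S M)] (E : PlaceIdx S M → SU M S)
    (c : PlaceIdx S M → ℤ) : familyMap E c = (∑ i, c i • E i, ∑ i, c i) := by
  simp [familyMap, LinearMap.sum_apply, Prod.smul_mk, Prod.fst_sum, Prod.snd_sum, Prod.ext_iff]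

include hM in
/-- An equivariant family of `S`-units giving an isogeny with the permutation lattice. -/
theorem exists_units_family [Finite (↥C ⧸ M.subgroupOf C)] [Fintype (PlaceIdx S M)] :
    ∃ E : PlaceIdx S M → SU M S,
      (∀ g i, E (placeTranslate S hMC g i) = suRep S hMC g (E i)) ∧
      Function.Injective (familyMap E) ∧
      ∀ b : SU M S × ℤ, ∃ n : ℕ, n ≠ 0 ∧ n • b ∈ LinearMap.range (familyMap E) := by
  classical
  let P : PlaceIdx S M → SU M S → Prop := fun i y =>
    ((∃ q, i.1 = Sum.inr q) → 0 < val i y) ∧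
    (∀ j, (∃ q, j.1 = Sum.inr q) → j ≠ i → val j y = 0) ∧
    ((∀ q, i.1 ≠ Sum.inr q) → ∀ j, (∀ q, j.1 ≠ Sum.inr q) → j ≠ i → val j y < 0)
  obtain ⟨E, hE, hP⟩ := exists_equivariant_family (placeTranslate S hMC) (suRep S hMC) P
    (fun g i y hy => by
      have hval : ∀ j, val j (suRep S hMC g y) = val ((placeTranslate S hMC g).symm j) y :=
        fun j => by
          conv_lhs => rw [← Equiv.apply_symm_apply (placeTranslate S hMC g) j]
          exact val_translate hMC g _ y
      have hfst : ∀ j, ((placeTranslate S hMC g).symm j).1 = j.1 := fun j => by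
        conv_rhs => rw [← Equiv.apply_symm_apply (placeTranslate S hMC g) j]
        exact (placeTranslate_fst S hMC g _).symm
      have hne : ∀ j, j ≠ placeTranslate S hMC g i → (placeTranslate S hMC g).symm j ≠ i :=
        fun j hj e => hj (by rw [← e, Equiv.apply_symm_apply])
      refine ⟨fun h => ?_, fun j hj hj' => ?_, fun hi j hj hj' => ?_⟩
      · rw [val_translate]
        exact hy.1 (by rwa [placeTranslate_fst] at h)
      · rw [hval]
        exact hy.2.1 _ (by rwa [hfst]) (hne j hj')
      · rw [hval]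
        exact hy.2.2 (by rwa [placeTranslate_fst] at hi) _ (by rwa [hfst]) (hne j hj'))
    (fun i y y' hy hy' => by
      refine ⟨fun h => ?_, fun j hj hj' => ?_, fun hi j hj hj' => ?_⟩
      · rw [val_add]; exact add_pos (hy.1 h) (hy'.1 h)
      · rw [val_add, hy.2.1 j hj hj', hy'.2.1 j hj hj', add_zero]
      · rw [val_add]; exact add_neg (hy.2.2 hi j hj hj') (hy'.2.2 hi j hj hj'))
    (by
      rintro ⟨u | q, o⟩
      · obtain ⟨v, hv⟩ := Units.dirichletUnitTheorem.exists_unit (fixF M) (idxInf u o)
        refine ⟨unitToSU (Additive.ofMul v), (fun h => h.elim fun q hq => nomatch hq), ?_, ?_⟩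
        · rintro ⟨u' | q, o'⟩ ⟨q', hq'⟩ -
          · exact nomatch hq'
          · exact val_inr_unit _ q o'
        · rintro - ⟨u' | q, o'⟩ hj hne
          · rw [val_inl_unit]
            refine hv _ fun e => hne ?_
            exact congrArg (Sigma.mk (Sum.inl () : extArithIndex S))
              ((idxInf_bijective hM).1 e)
          · exact absurd rfl (hj q)
      · obtain ⟨y, hy1, hy2⟩ := exists_finite_elem hM q o
        refine ⟨y, fun _ => hy1, ?_, fun hi => absurd rfl (hi q)⟩
        rintro ⟨u' | q', o'⟩ ⟨r, hr⟩ hne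
        · exact nomatch hr
        · exact hy2 q' o' hne)
  have hdiag : ∀ q o j, (∃ r, j.1 = Sum.inr r) →
      val j (E ⟨Sum.inr q, o⟩) = if j = ⟨Sum.inr q, o⟩ then val j (E ⟨Sum.inr q, o⟩) else 0 :=
    fun q o j hj => by
      split_ifs with e
      · rfl
      · exact (hP _).2.1 j hj e
  have hsumval : ∀ (c : PlaceIdx S M → ℤ) j, val j (∑ i, c i • E i) = ∑ i, (c i : ℝ) * val j (E i) :=
    fun c j => by
      show valHom j _ = _
      simp only [map_sum, map_zsmul, zsmul_eq_mul]
      rfl
  have hfinval : ∀ (c : PlaceIdx S M → ℤ) q o,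
      val ⟨Sum.inr q, o⟩ (∑ i, c i • E i) =
        c ⟨Sum.inr q, o⟩ * val ⟨Sum.inr q, o⟩ (E ⟨Sum.inr q, o⟩) := fun c q o => by
    rw [hsumval]
    refine Finset.sum_eq_single _ (fun i _ hi => ?_) fun h => absurd (Finset.mem_univ _) h
    rw [(hP i).2.1 _ ⟨q, rfl⟩ (Ne.symm hi), mul_zero]
  let Inf := Quotient (placeSetoid S M (Sum.inl () : extArithIndex S))
  haveI : Fintype Inf := Fintype.ofEquiv _ (Equiv.ofBijective _ (idxInf_bijective (S := S) hM)).symm
  have huex : ∀ o : Inf, ∃ u, unitToSU u = E ⟨Sum.inl (), o⟩ := fun o =>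
    exists_unitToSU_eq hM fun q o' => (hP _).2.1 _ ⟨q, rfl⟩ fun e => nomatch congrArg Sigma.fst e
  choose U hU using huex
  let ψ : (Inf → ℤ) →ₗ[ℤ] Additive (𝓞 (fixF M))ˣ × ℤ := ∑ o, (LinearMap.proj o).smulRight (U o, (1 : ℤ))
  have hψ : ∀ c, ψ c = (∑ o, c o • U o, ∑ o, c o) := fun c => by
    simp [ψ, LinearMap.sum_apply, Prod.smul_mk, Prod.fst_sum, Prod.snd_sum, Prod.ext_iff]
  let a : Inf → Inf → ℝ := fun j i =>
    ((idxInf () j).mult : ℝ) * val ⟨Sum.inl (), j⟩ (E ⟨Sum.inl (), i⟩)
  have hcol : ∀ i, ∑ j, a j i = 0 := fun i => by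
    rw [← Units.sum_mult_mul_log (U i).toMul]
    refine Fintype.sum_bijective _ (idxInf_bijective hM) _ _ fun j => ?_
    rw [← val_inl_unit, hU]
  have hoff : ∀ i j, j ≠ i → a j i < 0 := fun i j hji => by
    refine mul_neg_of_pos_of_neg (by exact_mod_cast InfinitePlace.mult_pos) ?_
    exact (hP _).2.2 (fun q h => Sum.inl_ne_inr h) _ (fun q h => Sum.inl_ne_inr h)
      fun e => hji (eq_of_heq (Sigma.ext_iff.mp e).2)
  have hψinj : Function.Injective ψ := by
    rw [injective_iff_map_eq_zero]
    intro c hc
    rw [hψ, Prod.mk_eq_zero] at hc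
    refine eq_zero_of_dominant a hoff hcol c hc.2 fun j => ?_
    have h1 := congrArg (fun u => valHom ⟨Sum.inl (), j⟩ (unitToSU (S := S) u)) hc.1
    simp only [map_sum, map_zsmul, map_zero, hU, zsmul_eq_mul] at h1
    simp only [a]
    calc ∑ i, (c i : ℝ) * (((idxInf () j).mult : ℝ) * val ⟨Sum.inl (), j⟩ (E ⟨Sum.inl (), i⟩))
        = ((idxInf () j).mult : ℝ) * ∑ i, (c i : ℝ) * val ⟨Sum.inl (), j⟩ (E ⟨Sum.inl (), i⟩) := by
          rw [Finset.mul_sum]; exact Finset.sum_congr rfl fun i _ => by ring
      _ = 0 := by rw [show (∑ i, (c i : ℝ) * val ⟨Sum.inl (), j⟩ (E ⟨Sum.inl (), i⟩)) = 0 from h1,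
            mul_zero]
  have hψtors : ∀ b, ∃ n : ℤ, n ≠ 0 ∧ n • b ∈ LinearMap.range ψ := by
    have hd : Module.finrank ℤ (Additive (𝓞 (fixF M))ˣ × ℤ) = Module.finrank ℤ (LinearMap.range ψ) := by
      rw [LinearMap.finrank_range_of_inj hψinj, Module.finrank_pi,
        Fintype.card_of_bijective (idxInf_bijective hM)]
      have h1 : Module.finrank ℤ (Additive (𝓞 (fixF M))ˣ × ℤ) =
          Module.finrank ℤ (Additive (𝓞 (fixF M))ˣ) + 1 := by
        have h2 := Fermat.Agent.CFT.finrank_range_add_finrank_ker_int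
          (LinearMap.snd ℤ (Additive (𝓞 (fixF M))ˣ) ℤ)
        rw [LinearMap.range_eq_top.mpr LinearMap.snd_surjective, finrank_top, Module.finrank_self,
          LinearMap.ker_snd, LinearMap.finrank_range_of_inj LinearMap.inl_injective] at h2
        omega
      rw [h1, Units.finrank_eq, Units.rank]
      have := Fintype.card_pos (α := InfinitePlace (fixF M))
      omega
    intro b
    have hq := Submodule.finrank_quotient_add_finrank (LinearMap.range ψ)
    rw [← hd, add_eq_right, Module.finrank_eq_zero_iff] at hq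
    obtain ⟨n, hn0, hn⟩ := hq (Submodule.Quotient.mk b)
    exact ⟨n, hn0, (Submodule.Quotient.mk_eq_zero _).mp hn⟩
  have hsplit : ∀ c : PlaceIdx S M → ℤ, (∀ q o, c ⟨Sum.inr q, o⟩ = 0) →
      ∀ {A : Type} [AddCommGroup A] (F : PlaceIdx S M → A),
        ∑ i, c i • F i = ∑ o : Inf, c ⟨Sum.inl (), o⟩ • F ⟨Sum.inl (), o⟩ := by
    intro c hc A _ F
    let g : Inf → PlaceIdx S M := fun o => ⟨Sum.inl (), o⟩
    refine (Fintype.sum_of_injective g
      (fun o o' e => eq_of_heq (Sigma.ext_iff.mp e).2) _ _ (fun i hi => ?_) fun o => rfl).symm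
    obtain ⟨u | q, o⟩ := i
    · exact absurd ⟨o, rfl⟩ hi
    · rw [hc, zero_smul]
  refine ⟨E, hE, ?_, fun b => ?_⟩
  · rw [injective_iff_map_eq_zero]
    intro c hc
    rw [familyMap_apply, Prod.mk_eq_zero] at hc
    have hfin : ∀ q o, c ⟨Sum.inr q, o⟩ = 0 := fun q o => by
      have h := hfinval c q o
      rw [hc.1, show val ⟨Sum.inr q, o⟩ (0 : SU M S) = 0 from map_zero (valHom _)] at h
      exact_mod_cast (mul_eq_zero.mp h.symm).resolve_right ((hP _).1 ⟨q, rfl⟩).ne'
    have hc0 : (fun o : Inf => c ⟨Sum.inl (), o⟩) = 0 := by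
      apply hψinj
      rw [hψ, map_zero, Prod.mk_eq_zero]
      constructor
      · apply (show Function.Injective (unitToSU (M := M) (S := S)) from fun u v h =>
          Additive.toMul.injective (Units.ext (RingOfIntegers.coe_injective
            (Subtype.ext (congrArg suVal h)))))
        simp only [map_sum, map_zsmul, map_zero, hU]
        rw [← hsplit c hfin E, hc.1]
      · have h := hsplit c hfin (fun _ => (1 : ℤ))
        simp only [smul_eq_mul, mul_one] at h
        rw [← h, hc.2]
    funext i
    obtain ⟨u | q, o⟩ := i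
    · exact congrFun hc0 o
    · exact hfin q o
  · obtain ⟨y, z⟩ := b
    have hrat : ∀ q o, ∃ r : ℚ, val ⟨Sum.inr q, o⟩ y =
        (r : ℝ) * val ⟨Sum.inr q, o⟩ (E ⟨Sum.inr q, o⟩) := fun q o => by
      have hpos := (hP ⟨Sum.inr q, o⟩).1 ⟨q, rfl⟩
      revert hpos
      induction o using Quotient.inductionOn with
      | _ x =>
        intro hpos
        refine ⟨nu (q : Nat.Primes) (primeLocalPlace q) (x.out (suVal y)) /
          nu (q : Nat.Primes) (primeLocalPlace q)
            (x.out (suVal (E ⟨Sum.inr q, Quotient.mk _ x⟩))), ?_⟩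
        rw [Rat.cast_div]
        exact (div_mul_cancel₀ _ hpos.ne').symm
    choose r hr using hrat
    let c : PlaceIdx S M → ℚ := fun i => match i with
      | ⟨Sum.inl _, _⟩ => 0
      | ⟨Sum.inr q, o⟩ => r q o
    let n₁ : ℕ := ∏ i, (c i).den
    have hn₁ : ∀ i, ∃ k : ℤ, (k : ℚ) = (n₁ : ℚ) * c i := fun i => by
      obtain ⟨d, hd⟩ := Finset.dvd_prod_of_mem (fun i => (c i).den) (Finset.mem_univ i)
      refine ⟨d * (c i).num, ?_⟩
      have h := Rat.mul_den_eq_num (c i)
      have hd' : (n₁ : ℚ) = (c i).den * d := by exact_mod_cast hd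
      rw [hd']
      push_cast
      linear_combination -(d : ℚ) * h
    choose k hk using hn₁
    have hk0 : ∀ o, k ⟨Sum.inl (), o⟩ = 0 := fun o => by
      have := hk ⟨Sum.inl (), o⟩
      simp only [c, mul_zero, Int.cast_eq_zero] at this
      exact this
    set y' := (n₁ : ℤ) • y - ∑ i, k i • E i with hy'
    have hy0 : ∀ q o, val ⟨Sum.inr q, o⟩ y' = 0 := fun q o => by
      show valHom ⟨Sum.inr q, o⟩ y' = 0
      rw [hy', map_sub, map_zsmul, sub_eq_zero]
      show (n₁ : ℤ) • val _ y = val _ (∑ i, k i • E i)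
      rw [hfinval, hr q o, zsmul_eq_mul, ← mul_assoc]
      congr 1
      exact_mod_cast (hk ⟨Sum.inr q, o⟩).symm
    obtain ⟨u, hu⟩ := exists_unitToSU_eq hM hy0
    obtain ⟨m, hm0, e, he⟩ := hψtors (u, (n₁ : ℤ) * z - ∑ i, k i)
    refine ⟨(m * n₁).natAbs, ?_, ?_⟩
    · simp only [ne_eq, Int.natAbs_eq_zero, mul_eq_zero, hm0, false_or, Int.natCast_eq_zero]
      exact Finset.prod_ne_zero_iff.mpr fun i _ => Rat.den_nz _
    have hmem : (m * n₁ : ℤ) • (y, z) ∈ LinearMap.range (familyMap E) := by
      let ci : PlaceIdx S M → ℤ := fun i => match i with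
        | ⟨Sum.inl _, o⟩ => e o
        | ⟨Sum.inr _, _⟩ => 0
      refine ⟨ci + m • k, ?_⟩
      rw [map_add, map_smul, familyMap_apply, familyMap_apply]
      rw [hψ] at he
      have h1 := congrArg Prod.fst he
      have h2 := congrArg Prod.snd he
      simp only [Prod.smul_fst, Prod.smul_snd] at h1 h2
      have e1 := hsplit ci (fun q o => rfl) E
      have e2 := hsplit ci (fun q o => rfl) (fun _ => (1 : ℤ))
      simp only [smul_eq_mul, mul_one] at e2 h2
      refine Prod.ext ?_ ?_
      · have h3 := congrArg (unitToSU (S := S)) h1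
        simp only [map_sum, map_zsmul, hU, hu] at h3
        show ∑ i, ci i • E i + m • ∑ i, k i • E i = (m * n₁) • y
        rw [e1, show (∑ o : Inf, ci ⟨Sum.inl (), o⟩ • E ⟨Sum.inl (), o⟩) = m • y' from h3, hy',
          show m • ((n₁ : ℤ) • y - ∑ i, k i • E i) = m • ((n₁ : ℤ) • y) - m • ∑ i, k i • E i from
            zsmul_sub _ _ _, sub_add_cancel]
        exact (mul_smul m (n₁ : ℤ) y).symm
      · show ∑ i, ci i + m * ∑ i, k i = (m * n₁) * z
        rw [e2, show (∑ o : Inf, ci ⟨Sum.inl (), o⟩) = m * ((n₁ : ℤ) * z - ∑ i, k i) from h2]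
        ring
    rcases Int.natAbs_eq (m * n₁) with e' | e'
    · rw [e', natCast_zsmul] at hmem
      exact hmem
    · rw [e', neg_smul, natCast_zsmul] at hmem
      simpa using Submodule.neg_mem _ hmem

end Existence

end Fermat.Agent.GalCoh.Euler
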